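import Mathlib
import Fermat.Agent.BAD.CuspOrdInst
import Fermat.Agent.Lib.Red.HauptData

/-!
# BAD: the cusp estimate (`C2`) for the Hauptmodul chart functions

Residue characteristics `2`, `3` (directive #4): the level-`M` chart function is
`X = (y - 1)³ / y²` (`y` the Hauptmodul of level `2`, `J · y² = (y + 256)³`) resp.
`X = (y² + y + 1)² / y³` (`y` the Hauptmodul of level `3`, `J · y³ = (y + 27)(y + 243)³`).

* Abstract (`ord_of_rel`, `ord_transfer`): if `R · y^a = p(y)` with `deg p = a + 1`, `p(0) ≠ 0`,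
  `a > 0`, then at every place `ord R = - a · ord y` if `ord y > 0`, `ord R = ord y` if
  `ord y < 0`, and `ord R ≥ 0` if `ord y = 0`.  Hence two such functions `J`, `X` have the same
  poles with the same pole orders.
* Transfer (`c2_transfer`): the statements "same poles" and (C2) for `(α J, β J)` pass to
  `(α X, β X)` for any two `L`-algebra maps `α`, `β`.
* Modular (`c2_of_rel_two`, `c2_of_rel_three`, and the `IsChartBase`-field shaped corollaries
  `pole_iff_haupt2`, `ord_beta_ge_haupt2`, `ord_alpha_ge_haupt2`, `…_haupt3`).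
-/

set_option autoImplicit false

noncomputable section

namespace Fermat.Agent.BAD.CuspX

open Polynomial AlgebraicCurve ModularCurve WithZero Fermat.Agent.Lib.Red

section Abstract

variable {L F : Type*} [Field L] [Field F] [Algebra L F]

/-- A nonzero constant is a unit at every place. -/
theorem adicValuation_const (P : Place L F) {c : L} (hc : c ≠ 0) :
    P.adicValuation (algebraMap L F c) = 1 := by
  refine le_antisymm (P.adicValuation_algebraMap_le_one c) ?_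
  have h1 := P.adicValuation_algebraMap_le_one c⁻¹
  have h2 : P.adicValuation (algebraMap L F c) * P.adicValuation (algebraMap L F c⁻¹) = 1 := by
    rw [← map_mul, ← map_mul, mul_inv_cancel₀ hc, map_one, map_one]
  calc (1 : ℤᵐ⁰) = P.adicValuation (algebraMap L F c) * P.adicValuation (algebraMap L F c⁻¹) :=
        h2.symm
    _ ≤ P.adicValuation (algebraMap L F c) * 1 := mul_le_mul_right h1 _
    _ = P.adicValuation (algebraMap L F c) := mul_one _

/-- A polynomial with constant coefficients in an integral function is integral. -/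
theorem adicValuation_aeval_le_one (P : Place L F) {y : F} (hy : P.adicValuation y ≤ 1)
    (p : L[X]) : P.adicValuation (aeval y p) ≤ 1 := by
  rw [aeval_eq_sum_range]
  refine Valuation.map_sum_le _ fun i _ => ?_
  rw [Algebra.smul_def, map_mul, map_pow]
  calc P.adicValuation (algebraMap L F (p.coeff i)) * P.adicValuation y ^ i
      ≤ 1 * 1 := mul_le_mul' (P.adicValuation_algebraMap_le_one _) (pow_le_one' hy i)
    _ = 1 := one_mul _

theorem ord_aeval_nonneg (P : Place L F) {y : F} (hy : 0 ≤ P.ord y) (p : L[X]) :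
    0 ≤ P.ord (aeval y p) := by
  have h1 : P.adicValuation y ≤ 1 := P.adicValuation_le_one_iff.2 (Or.inr hy)
  rcases P.adicValuation_le_one_iff.1 (adicValuation_aeval_le_one P h1 p) with h | h
  · rw [h, Place.ord_zero]
  · exact h

/-- At a zero of `y`, a polynomial with nonzero constant term is a unit. -/
theorem ord_aeval_of_pos (P : Place L F) {y : F} (hy : 0 < P.ord y) (p : L[X])
    (h0 : p.coeff 0 ≠ 0) : aeval y p ≠ 0 ∧ P.ord (aeval y p) = 0 := by
  have hy0 : y ≠ 0 := by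
    rintro rfl
    rw [Place.ord_zero] at hy
    exact lt_irrefl _ hy
  have hvy : P.adicValuation y < 1 := by
    rw [P.adicValuation_eq_exp_neg_ord hy0, ← exp_zero, exp_lt_exp]
    omega
  have hdecomp : aeval y p = algebraMap L F (p.coeff 0) + aeval y p.divX * y := by
    conv_lhs => rw [← divX_mul_X_add p]
    rw [map_add, map_mul, aeval_X, aeval_C, add_comm]
  have hlt : P.adicValuation (aeval y p.divX * y) < P.adicValuation (algebraMap L F (p.coeff 0)) := by
    rw [adicValuation_const P h0, map_mul]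
    calc P.adicValuation (aeval y p.divX) * P.adicValuation y
        ≤ 1 * P.adicValuation y :=
          mul_le_mul_left (adicValuation_aeval_le_one P hvy.le _) _
      _ = P.adicValuation y := one_mul _
      _ < 1 := hvy
  have hval : P.adicValuation (aeval y p) = 1 := by
    rw [hdecomp, Valuation.map_add_eq_of_lt_left _ hlt, adicValuation_const P h0]
  have hne : aeval y p ≠ 0 := by
    intro h
    rw [h, map_zero] at hval
    exact zero_ne_one hval
  refine ⟨hne, ?_⟩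
  rw [P.adicValuation_eq_exp_neg_ord hne, ← exp_zero, exp_inj] at hval
  omega

/-- At a pole of `y`, a nonzero polynomial `p(y)` has order `deg p · ord y`. -/
theorem ord_aeval_of_neg (P : Place L F) {y : F} (hy : P.ord y < 0) (p : L[X]) (hp : p ≠ 0) :
    aeval y p ≠ 0 ∧ P.ord (aeval y p) = (p.natDegree : ℤ) * P.ord y := by
  have hy0 : y ≠ 0 := by
    rintro rfl
    rw [Place.ord_zero] at hy
    exact lt_irrefl _ hy
  have hvy : 1 < P.adicValuation y := by
    rw [P.adicValuation_eq_exp_neg_ord hy0, ← exp_zero, exp_lt_exp]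
    omega
  have hv0 : P.adicValuation y ≠ 0 := P.adicValuation_ne_zero hy0
  have hlc : p.leadingCoeff ≠ 0 := leadingCoeff_ne_zero.2 hp
  have hdecomp : aeval y p = algebraMap L F p.leadingCoeff * y ^ p.natDegree +
      aeval y p.eraseLead := by
    conv_lhs => rw [← eraseLead_add_C_mul_X_pow p]
    rw [map_add, map_mul, map_pow, aeval_X, aeval_C, add_comm]
  have hlead : P.adicValuation (algebraMap L F p.leadingCoeff * y ^ p.natDegree) =
      P.adicValuation y ^ p.natDegree := by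
    rw [map_mul, adicValuation_const P hlc, one_mul, map_pow]
  have hlt : P.adicValuation (aeval y p.eraseLead) <
      P.adicValuation (algebraMap L F p.leadingCoeff * y ^ p.natDegree) := by
    rw [hlead]
    rcases Nat.eq_zero_or_pos p.natDegree with hn | hn
    · have h1 : p.eraseLead = 0 := by
        rw [eq_C_of_natDegree_eq_zero hn]
        exact eraseLead_C _
      rw [h1, map_zero, map_zero]
      exact pow_pos (zero_lt_iff.2 hv0) _
    · have h1 : ∀ i, p.natDegree - 1 < i → p.eraseLead.coeff i = 0 := by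
        intro i hi
        exact coeff_eq_zero_of_natDegree_lt (lt_of_le_of_lt (eraseLead_natDegree_le p) hi)
      calc P.adicValuation (aeval y p.eraseLead)
          ≤ P.adicValuation y ^ (p.natDegree - 1) :=
            Fermat.Agent.BAD.CuspOrd.adicValuation_aeval_le P hvy.le _ _ h1
        _ < P.adicValuation y ^ p.natDegree :=
            pow_lt_pow_right₀ hvy (by omega)
  have hval : P.adicValuation (aeval y p) = P.adicValuation y ^ p.natDegree := by
    rw [hdecomp, Valuation.map_add_eq_of_lt_left _ hlt, hlead]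
  have hne : aeval y p ≠ 0 := by
    intro h
    rw [h, map_zero] at hval
    exact pow_ne_zero _ hv0 hval.symm
  refine ⟨hne, ?_⟩
  rw [P.adicValuation_eq_exp_neg_ord hne, P.adicValuation_eq_exp_neg_ord hy0, ← exp_nsmul,
    exp_inj] at hval
  rw [nsmul_eq_mul] at hval
  linarith

theorem ord_pow_nat (P : Place L F) (f : F) (n : ℕ) : P.ord (f ^ n) = (n : ℤ) * P.ord f := by
  rw [← zpow_natCast, Place.ord_zpow]

/-- **The order of `R = p(y) / y^a`**, `deg p = a + 1`, `p(0) ≠ 0`, `a > 0`. -/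
theorem ord_of_rel (P : Place L F) {y R : F} (p : L[X]) (a : ℕ) (ha : 0 < a)
    (hdeg : p.natDegree = a + 1) (h0 : p.coeff 0 ≠ 0) (hR : R * y ^ a = aeval y p) :
    (0 < P.ord y → P.ord R = -((a : ℤ) * P.ord y)) ∧ (P.ord y < 0 → P.ord R = P.ord y) ∧
      (P.ord y = 0 → 0 ≤ P.ord R) := by
  have hp : p ≠ 0 := by
    rintro rfl
    exact h0 (coeff_zero 0)
  have hy0 : y ≠ 0 := by
    rintro rfl
    rw [zero_pow ha.ne', mul_zero, ← coeff_zero_eq_aeval_zero'] at hR
    exact h0 ((algebraMap L F).injective (by rw [← hR, map_zero]))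
  have hya : y ^ a ≠ 0 := pow_ne_zero a hy0
  refine ⟨fun hy => ?_, fun hy => ?_, fun hy => ?_⟩
  · obtain ⟨hne, h⟩ := ord_aeval_of_pos P hy p h0
    have hR0 : R ≠ 0 := by
      rintro rfl
      rw [zero_mul] at hR
      exact hne hR.symm
    rw [← hR, Place.ord_mul P hR0 hya, ord_pow_nat] at h
    linarith
  · obtain ⟨hne, h⟩ := ord_aeval_of_neg P hy p hp
    have hR0 : R ≠ 0 := by
      rintro rfl
      rw [zero_mul] at hR
      exact hne hR.symm
    rw [← hR, Place.ord_mul P hR0 hya, ord_pow_nat, hdeg] at h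
    push_cast at h
    linarith
  · by_cases hR0 : R = 0
    · rw [hR0, Place.ord_zero]
    · have h := ord_aeval_nonneg P hy.ge p
      rw [← hR, Place.ord_mul P hR0 hya, ord_pow_nat, hy, mul_zero, add_zero] at h
      exact h

/-- **Transfer of pole orders**: two functions `J = p₁(y) / y^a`, `X = p₂(y) / y^a`
(`deg pᵢ = a + 1`, `pᵢ(0) ≠ 0`, `a > 0`) have the same poles, with the same orders. -/
theorem ord_transfer (P : Place L F) {y J X : F} (p₁ p₂ : L[X]) (a : ℕ) (ha : 0 < a)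
    (hdeg₁ : p₁.natDegree = a + 1) (hdeg₂ : p₂.natDegree = a + 1)
    (h0₁ : p₁.coeff 0 ≠ 0) (h0₂ : p₂.coeff 0 ≠ 0)
    (hJ : J * y ^ a = aeval y p₁) (hX : X * y ^ a = aeval y p₂) :
    (P.ord J < 0 ↔ P.ord X < 0) ∧ (P.ord J < 0 → P.ord X = P.ord J) := by
  obtain ⟨hJ1, hJ2, hJ3⟩ := ord_of_rel P p₁ a ha hdeg₁ h0₁ hJ
  obtain ⟨hX1, hX2, hX3⟩ := ord_of_rel P p₂ a ha hdeg₂ h0₂ hX
  have ha' : (0 : ℤ) < a := by exact_mod_cast ha
  rcases lt_trichotomy (P.ord y) 0 with hy | hy | hy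
  · rw [hJ2 hy, hX2 hy]
    exact ⟨Iff.rfl, fun _ => rfl⟩
  · have h1 := hJ3 hy
    have h2 := hX3 hy
    exact ⟨⟨fun h => absurd h (not_lt.2 h1), fun h => absurd h (not_lt.2 h2)⟩,
      fun h => absurd h (not_lt.2 h1)⟩
  · rw [hJ1 hy, hX1 hy]
    exact ⟨Iff.rfl, fun _ => rfl⟩

variable {F' : Type*} [Field F'] [Algebra L F']

/-- **Transfer of (C2)** along two `L`-algebra maps `α`, `β : F → F'`: if `J`, `X` are as in
`ord_transfer` then "same poles" and the cusp estimate for `(α J, β J)` pass to `(α X, β X)`. -/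
theorem c2_transfer (α β : F →ₐ[L] F') {y J X : F} (p₁ p₂ : L[X]) (a : ℕ) (ha : 0 < a)
    (hdeg₁ : p₁.natDegree = a + 1) (hdeg₂ : p₂.natDegree = a + 1)
    (h0₁ : p₁.coeff 0 ≠ 0) (h0₂ : p₂.coeff 0 ≠ 0)
    (hJ : J * y ^ a = aeval y p₁) (hX : X * y ^ a = aeval y p₂) (q : ℕ)
    (hpole : ∀ P : Place L F', P.ord (α J) < 0 ↔ P.ord (β J) < 0)
    (hC2 : ∀ P : Place L F', P.ord (α J) < 0 → (q : ℤ) * P.ord (α J) ≤ P.ord (β J))
    (hC2' : ∀ P : Place L F', P.ord (β J) < 0 → (q : ℤ) * P.ord (β J) ≤ P.ord (α J)) :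
    (∀ P : Place L F', P.ord (α X) < 0 ↔ P.ord (β X) < 0) ∧
    (∀ P : Place L F', P.ord (α X) < 0 → (q : ℤ) * P.ord (α X) ≤ P.ord (β X)) ∧
    (∀ P : Place L F', P.ord (β X) < 0 → (q : ℤ) * P.ord (β X) ≤ P.ord (α X)) := by
  have key : ∀ (γ : F →ₐ[L] F') (P : Place L F'),
      (P.ord (γ J) < 0 ↔ P.ord (γ X) < 0) ∧ (P.ord (γ J) < 0 → P.ord (γ X) = P.ord (γ J)) := by
    intro γ P
    refine ord_transfer P (y := γ y) p₁ p₂ a ha hdeg₁ hdeg₂ h0₁ h0₂ ?_ ?_
    · rw [← map_pow, ← map_mul, hJ, aeval_algHom_apply]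
    · rw [← map_pow, ← map_mul, hX, aeval_algHom_apply]
  refine ⟨fun P => ?_, fun P hP => ?_, fun P hP => ?_⟩
  · rw [← (key α P).1, ← (key β P).1]
    exact hpole P
  · have h1 : P.ord (α J) < 0 := (key α P).1.2 hP
    have h2 : P.ord (β J) < 0 := (hpole P).1 h1
    rw [(key α P).2 h1, (key β P).2 h2]
    exact hC2 P h1
  · have h2 : P.ord (β J) < 0 := (key β P).1.2 hP
    have h1 : P.ord (α J) < 0 := (hpole P).2 h2
    rw [(key α P).2 h1, (key β P).2 h2]
    exact hC2' P h2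

/-- Level `2` shape of `c2_transfer`: `J · y² = (y + 256)³`, `g · y² = (y - 1)³`. -/
theorem c2_transfer_two [CharZero L] (α β : F →ₐ[L] F') {y J g : F}
    (hJ : J * y ^ 2 = (y + 256) ^ 3) (hg : g * y ^ 2 = (y - 1) ^ 3) (q : ℕ)
    (hpole : ∀ P : Place L F', P.ord (α J) < 0 ↔ P.ord (β J) < 0)
    (hC2 : ∀ P : Place L F', P.ord (α J) < 0 → (q : ℤ) * P.ord (α J) ≤ P.ord (β J))
    (hC2' : ∀ P : Place L F', P.ord (β J) < 0 → (q : ℤ) * P.ord (β J) ≤ P.ord (α J)) :
    (∀ P : Place L F', P.ord (α g) < 0 ↔ P.ord (β g) < 0) ∧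
    (∀ P : Place L F', P.ord (α g) < 0 → (q : ℤ) * P.ord (α g) ≤ P.ord (β g)) ∧
    (∀ P : Place L F', P.ord (β g) < 0 → (q : ℤ) * P.ord (β g) ≤ P.ord (α g)) := by
  refine c2_transfer α β (y := y) (J := J)
    ((Polynomial.X + C (256 : L)) ^ 3) ((Polynomial.X - C (1 : L)) ^ 3) 2 two_pos ?_ ?_ ?_ ?_ ?_ ?_
    q hpole hC2 hC2'
  · rw [natDegree_pow, natDegree_X_add_C]
  · rw [natDegree_pow, natDegree_X_sub_C]
  · rw [coeff_zero_eq_eval_zero, eval_pow, eval_add, eval_X, eval_C, zero_add]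
    norm_num
  · rw [coeff_zero_eq_eval_zero, eval_pow, eval_sub, eval_X, eval_C, zero_sub]
    norm_num
  · rw [hJ, map_pow, map_add, aeval_X, aeval_C, map_ofNat]
  · rw [hg, map_pow, map_sub, aeval_X, aeval_C, map_one]

/-- Level `3` shape of `c2_transfer`: `J · y³ = (y + 27)(y + 243)³`, `g · y³ = (y² + y + 1)²`. -/
theorem c2_transfer_three [CharZero L] (α β : F →ₐ[L] F') {y J g : F}
    (hJ : J * y ^ 3 = (y + 27) * (y + 243) ^ 3) (hg : g * y ^ 3 = (y ^ 2 + y + 1) ^ 2) (q : ℕ)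
    (hpole : ∀ P : Place L F', P.ord (α J) < 0 ↔ P.ord (β J) < 0)
    (hC2 : ∀ P : Place L F', P.ord (α J) < 0 → (q : ℤ) * P.ord (α J) ≤ P.ord (β J))
    (hC2' : ∀ P : Place L F', P.ord (β J) < 0 → (q : ℤ) * P.ord (β J) ≤ P.ord (α J)) :
    (∀ P : Place L F', P.ord (α g) < 0 ↔ P.ord (β g) < 0) ∧
    (∀ P : Place L F', P.ord (α g) < 0 → (q : ℤ) * P.ord (α g) ≤ P.ord (β g)) ∧
    (∀ P : Place L F', P.ord (β g) < 0 → (q : ℤ) * P.ord (β g) ≤ P.ord (α g)) := by
  have hq : ((Polynomial.X ^ 2 + Polynomial.X + C (1 : L)) : L[X]).natDegree = 2 := by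
    have h1 : ((Polynomial.X ^ 2 + Polynomial.X : L[X]) + C (1 : L)).natDegree =
        (Polynomial.X ^ 2 + Polynomial.X : L[X]).natDegree := natDegree_add_C
    have h2 : (Polynomial.X ^ 2 + Polynomial.X : L[X]).natDegree = 2 := by
      rw [natDegree_add_eq_left_of_natDegree_lt, natDegree_X_pow]
      rw [natDegree_X_pow, natDegree_X]
      exact one_lt_two
    rw [h1, h2]
  refine c2_transfer α β (y := y) (J := J)
    ((Polynomial.X + C (27 : L)) * (Polynomial.X + C (243 : L)) ^ 3)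
    ((Polynomial.X ^ 2 + Polynomial.X + C (1 : L)) ^ 2) 3 three_pos ?_ ?_ ?_ ?_ ?_ ?_
    q hpole hC2 hC2'
  · rw [natDegree_mul (X_add_C_ne_zero _) (pow_ne_zero _ (X_add_C_ne_zero _)), natDegree_pow,
      natDegree_X_add_C, natDegree_X_add_C]
  · rw [natDegree_pow, hq]
  · rw [coeff_zero_eq_eval_zero, eval_mul, eval_pow, eval_add, eval_add, eval_X, eval_C, eval_C,
      zero_add, zero_add]
    norm_num
  · rw [coeff_zero_eq_eval_zero, eval_pow, eval_add, eval_add, eval_pow, eval_X, eval_C]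
    norm_num
  · rw [hJ, map_mul, map_pow, map_add, map_add, aeval_X, aeval_C, aeval_C, map_ofNat, map_ofNat]
  · rw [hg, map_pow, map_add, map_add, map_pow, aeval_X, aeval_C, map_one]

/-- `y ≠ 0` from the level `2` relation. -/
theorem ne_zero_of_rel_two [CharZero L] {y J : F} (hJ : J * y ^ 2 = (y + 256) ^ 3) : y ≠ 0 := by
  have : CharZero F := charZero_of_injective_algebraMap (algebraMap L F).injective
  rintro rfl
  norm_num at hJ

/-- `y ≠ 0` from the level `3` relation. -/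
theorem ne_zero_of_rel_three [CharZero L] {y J : F}
    (hJ : J * y ^ 3 = (y + 27) * (y + 243) ^ 3) : y ≠ 0 := by
  have : CharZero F := charZero_of_injective_algebraMap (algebraMap L F).injective
  rintro rfl
  norm_num at hJ

theorem div_pow_mul_pow {y : F} (hy : y ≠ 0) (u : F) (n : ℕ) : u / y ^ n * y ^ n = u :=
  div_mul_cancel₀ _ (pow_ne_zero n hy)

end Abstract

section Inst

variable {L : Type} [Field L] [Algebra ℚ L] {ℓ : ℕ} [NeZero ℓ]

/-- **(C2) for a chart function of Hauptmodul type, level `2`**: for any `y`, `g` of level `M`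
with `J_M · y² = (y + 256)³` and `g · y² = (y - 1)³`, the functions `α g`, `β g` of level `M ℓ`
have the same poles and satisfy the cusp estimate both ways. -/
theorem c2_of_rel_two {M : ℕ} [NeZero M] (hℓ : ℓ.Prime)
    {y g : ↥(laurentBaseChange L (modularFunctionFieldFull M))}
    (hJ : xL L M * y ^ 2 = (y + 256) ^ 3) (hg : g * y ^ 2 = (y - 1) ^ 3) :
    (∀ P : Place L ↥(laurentBaseChange L (modularFunctionFieldFull (M * ℓ))),
      P.ord (heckeAlphaBar L M ℓ g) < 0 ↔ P.ord (heckeBetaBar L M ℓ g) < 0) ∧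
    (∀ P : Place L ↥(laurentBaseChange L (modularFunctionFieldFull (M * ℓ))),
      P.ord (heckeAlphaBar L M ℓ g) < 0 →
        (ℓ : ℤ) * P.ord (heckeAlphaBar L M ℓ g) ≤ P.ord (heckeBetaBar L M ℓ g)) ∧
    (∀ P : Place L ↥(laurentBaseChange L (modularFunctionFieldFull (M * ℓ))),
      P.ord (heckeBetaBar L M ℓ g) < 0 →
        (ℓ : ℤ) * P.ord (heckeBetaBar L M ℓ g) ≤ P.ord (heckeAlphaBar L M ℓ g)) :=
  have : CharZero L := algebraRat.charZero L
  c2_transfer_two (heckeAlphaBar L M ℓ) (heckeBetaBar L M ℓ) hJ hg ℓ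
    (CuspOrd.ord_alpha_xL_neg_iff hℓ) (CuspOrd.ord_beta_xL_ge hℓ) (CuspOrd.ord_alpha_xL_ge hℓ)

/-- **(C2) for a chart function of Hauptmodul type, level `3`**: for any `y`, `g` of level `M`
with `J_M · y³ = (y + 27)(y + 243)³` and `g · y³ = (y² + y + 1)²`. -/
theorem c2_of_rel_three {M : ℕ} [NeZero M] (hℓ : ℓ.Prime)
    {y g : ↥(laurentBaseChange L (modularFunctionFieldFull M))}
    (hJ : xL L M * y ^ 3 = (y + 27) * (y + 243) ^ 3) (hg : g * y ^ 3 = (y ^ 2 + y + 1) ^ 2) :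
    (∀ P : Place L ↥(laurentBaseChange L (modularFunctionFieldFull (M * ℓ))),
      P.ord (heckeAlphaBar L M ℓ g) < 0 ↔ P.ord (heckeBetaBar L M ℓ g) < 0) ∧
    (∀ P : Place L ↥(laurentBaseChange L (modularFunctionFieldFull (M * ℓ))),
      P.ord (heckeAlphaBar L M ℓ g) < 0 →
        (ℓ : ℤ) * P.ord (heckeAlphaBar L M ℓ g) ≤ P.ord (heckeBetaBar L M ℓ g)) ∧
    (∀ P : Place L ↥(laurentBaseChange L (modularFunctionFieldFull (M * ℓ))),
      P.ord (heckeBetaBar L M ℓ g) < 0 →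
        (ℓ : ℤ) * P.ord (heckeBetaBar L M ℓ g) ≤ P.ord (heckeAlphaBar L M ℓ g)) :=
  have : CharZero L := algebraRat.charZero L
  c2_transfer_three (heckeAlphaBar L M ℓ) (heckeBetaBar L M ℓ) hJ hg ℓ
    (CuspOrd.ord_alpha_xL_neg_iff hℓ) (CuspOrd.ord_beta_xL_ge hℓ) (CuspOrd.ord_alpha_xL_ge hℓ)

section Haupt2

variable (A : ValuationSubring L) {k : Type} [Field k] (π : A →+* k) (M m : ℕ) [NeZero M]
  [NeZero m] (hM : M = m * 2) (h2 : (2 : k) ≠ 0)
  {g : ↥(laurentBaseChange L (modularFunctionFieldFull M))}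

/-- `IsChartBase.pole_iff` for `X₂ = (y - 1)³ / y²`, `y = (ofHaupt2 …).x` (stated for any `g`
with `g · y² = (y - 1)³`). -/
theorem pole_iff_haupt2 (hℓ : ℓ.Prime)
    (hg : g * (BaseFn.ofHaupt2 A π M m hM h2).x ^ 2 = ((BaseFn.ofHaupt2 A π M m hM h2).x - 1) ^ 3)
    (P : Place L ↥(laurentBaseChange L (modularFunctionFieldFull (M * ℓ)))) :
    P.ord (heckeAlphaBar L M ℓ g) < 0 ↔ P.ord (heckeBetaBar L M ℓ g) < 0 :=
  (c2_of_rel_two hℓ (BaseFn.ofHaupt2_rel (A := A) (π := π) M m hM h2) hg).1 P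

/-- `IsChartBase.ord_beta_ge` for `X₂`. -/
theorem ord_beta_ge_haupt2 (hℓ : ℓ.Prime)
    (hg : g * (BaseFn.ofHaupt2 A π M m hM h2).x ^ 2 = ((BaseFn.ofHaupt2 A π M m hM h2).x - 1) ^ 3)
    (P : Place L ↥(laurentBaseChange L (modularFunctionFieldFull (M * ℓ))))
    (hP : P.ord (heckeAlphaBar L M ℓ g) < 0) :
    (ℓ : ℤ) * P.ord (heckeAlphaBar L M ℓ g) ≤ P.ord (heckeBetaBar L M ℓ g) :=
  (c2_of_rel_two hℓ (BaseFn.ofHaupt2_rel (A := A) (π := π) M m hM h2) hg).2.1 P hP

/-- `IsChartBase.ord_alpha_ge` for `X₂`. -/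
theorem ord_alpha_ge_haupt2 (hℓ : ℓ.Prime)
    (hg : g * (BaseFn.ofHaupt2 A π M m hM h2).x ^ 2 = ((BaseFn.ofHaupt2 A π M m hM h2).x - 1) ^ 3)
    (P : Place L ↥(laurentBaseChange L (modularFunctionFieldFull (M * ℓ))))
    (hP : P.ord (heckeBetaBar L M ℓ g) < 0) :
    (ℓ : ℤ) * P.ord (heckeBetaBar L M ℓ g) ≤ P.ord (heckeAlphaBar L M ℓ g) :=
  (c2_of_rel_two hℓ (BaseFn.ofHaupt2_rel (A := A) (π := π) M m hM h2) hg).2.2 P hP

/-- The Hauptmodul of level `2` is not zero. -/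
theorem ofHaupt2_x_ne_zero : (BaseFn.ofHaupt2 A π M m hM h2).x ≠ 0 :=
  have : CharZero L := algebraRat.charZero L
  ne_zero_of_rel_two (L := L) (BaseFn.ofHaupt2_rel (A := A) (π := π) M m hM h2)

/-- The relation `g · y² = (y - 1)³` for the literal quotient `g = (y - 1)³ / y²`. -/
theorem haupt2_div_rel :
    ((BaseFn.ofHaupt2 A π M m hM h2).x - 1) ^ 3 / (BaseFn.ofHaupt2 A π M m hM h2).x ^ 2 *
      (BaseFn.ofHaupt2 A π M m hM h2).x ^ 2 = ((BaseFn.ofHaupt2 A π M m hM h2).x - 1) ^ 3 :=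
  div_pow_mul_pow (ofHaupt2_x_ne_zero A π M m hM h2) _ 2

end Haupt2

section Haupt3

variable (A : ValuationSubring L) {k : Type} [Field k] (π : A →+* k) (M m : ℕ) [NeZero M]
  [NeZero m] (hM : M = m * 3) (h3 : (3 : k) ≠ 0)
  {g : ↥(laurentBaseChange L (modularFunctionFieldFull M))}

/-- `IsChartBase.pole_iff` for `X₃ = (y² + y + 1)² / y³`, `y = (ofHaupt3 …).x` (stated for any
`g` with `g · y³ = (y² + y + 1)²`). -/
theorem pole_iff_haupt3 (hℓ : ℓ.Prime)
    (hg : g * (BaseFn.ofHaupt3 A π M m hM h3).x ^ 3 =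
      ((BaseFn.ofHaupt3 A π M m hM h3).x ^ 2 + (BaseFn.ofHaupt3 A π M m hM h3).x + 1) ^ 2)
    (P : Place L ↥(laurentBaseChange L (modularFunctionFieldFull (M * ℓ)))) :
    P.ord (heckeAlphaBar L M ℓ g) < 0 ↔ P.ord (heckeBetaBar L M ℓ g) < 0 :=
  (c2_of_rel_three hℓ (BaseFn.ofHaupt3_rel (A := A) (π := π) M m hM h3) hg).1 P

/-- `IsChartBase.ord_beta_ge` for `X₃`. -/
theorem ord_beta_ge_haupt3 (hℓ : ℓ.Prime)
    (hg : g * (BaseFn.ofHaupt3 A π M m hM h3).x ^ 3 =
      ((BaseFn.ofHaupt3 A π M m hM h3).x ^ 2 + (BaseFn.ofHaupt3 A π M m hM h3).x + 1) ^ 2)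
    (P : Place L ↥(laurentBaseChange L (modularFunctionFieldFull (M * ℓ))))
    (hP : P.ord (heckeAlphaBar L M ℓ g) < 0) :
    (ℓ : ℤ) * P.ord (heckeAlphaBar L M ℓ g) ≤ P.ord (heckeBetaBar L M ℓ g) :=
  (c2_of_rel_three hℓ (BaseFn.ofHaupt3_rel (A := A) (π := π) M m hM h3) hg).2.1 P hP

/-- `IsChartBase.ord_alpha_ge` for `X₃`. -/
theorem ord_alpha_ge_haupt3 (hℓ : ℓ.Prime)
    (hg : g * (BaseFn.ofHaupt3 A π M m hM h3).x ^ 3 =
      ((BaseFn.ofHaupt3 A π M m hM h3).x ^ 2 + (BaseFn.ofHaupt3 A π M m hM h3).x + 1) ^ 2)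
    (P : Place L ↥(laurentBaseChange L (modularFunctionFieldFull (M * ℓ))))
    (hP : P.ord (heckeBetaBar L M ℓ g) < 0) :
    (ℓ : ℤ) * P.ord (heckeBetaBar L M ℓ g) ≤ P.ord (heckeAlphaBar L M ℓ g) :=
  (c2_of_rel_three hℓ (BaseFn.ofHaupt3_rel (A := A) (π := π) M m hM h3) hg).2.2 P hP

/-- The Hauptmodul of level `3` is not zero. -/
theorem ofHaupt3_x_ne_zero : (BaseFn.ofHaupt3 A π M m hM h3).x ≠ 0 :=
  have : CharZero L := algebraRat.charZero L
  ne_zero_of_rel_three (L := L) (BaseFn.ofHaupt3_rel (A := A) (π := π) M m hM h3)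

/-- The relation `g · y³ = (y² + y + 1)²` for the literal quotient. -/
theorem haupt3_div_rel :
    ((BaseFn.ofHaupt3 A π M m hM h3).x ^ 2 + (BaseFn.ofHaupt3 A π M m hM h3).x + 1) ^ 2 /
        (BaseFn.ofHaupt3 A π M m hM h3).x ^ 3 * (BaseFn.ofHaupt3 A π M m hM h3).x ^ 3 =
      ((BaseFn.ofHaupt3 A π M m hM h3).x ^ 2 + (BaseFn.ofHaupt3 A π M m hM h3).x + 1) ^ 2 :=
  div_pow_mul_pow (ofHaupt3_x_ne_zero A π M m hM h3) _ 3

end Haupt3

end Inst

end Fermat.Agent.BAD.CuspX
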