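/-
BAD / level-M base (helper15): the Möbius transform of a base-function datum.

For `B : BaseFn.Data A π N`, `c₀ : A` and an `A`-integral series `Y` with `Y * (B.X - c₀) = 1`:
`mobius B c₀ Y hY : BaseFn.Data A π N` is the datum with base function `(B.x - c₀)⁻¹` and reduced
base function `(B.xt - c̄₀)⁻¹`.
-/
import Mathlib
import Fermat.Agent.Lib.Red.BranchH

set_option autoImplicit false
set_option linter.unusedSectionVars false

namespace Fermat.Agent.BAD.Base

open HahnSeries ModularCurve Polynomial AlgebraicCurve Fermat.Agent.S28 IntermediateField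
open Fermat.Agent.Lib.Red Fermat.Agent.Lib.Red.BaseFn

noncomputable section

section Series

variable {K : Type*} [Field K]

/-- The structure map of `K((q))` is `C`. -/
theorem algebraMap_eq_C (c : K) : algebraMap K (LaurentSeries K) c = HahnSeries.C c := by
  have h1 : algebraMap K (PowerSeries K) c = PowerSeries.C c := by simp
  rw [HahnSeries.algebraMap_apply', h1, HahnSeries.ofPowerSeries_C]

theorem algebraMap_eq_C_hom : algebraMap K (LaurentSeries K) = HahnSeries.C :=
  RingHom.ext algebraMap_eq_C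

/-- Transcendence in the `eval₂` form of `BaseFn.Data.htr`. -/
theorem transcendental_of_eval₂ {x : LaurentSeries K}
    (h : ∀ p : Polynomial K, p.eval₂ (HahnSeries.C : K →+* LaurentSeries K) x = 0 → p = 0) :
    Transcendental K x := by
  rw [transcendental_iff]
  intro p hp
  apply h p
  rw [← hp, Polynomial.aeval_def, algebraMap_eq_C_hom]

theorem eval₂_of_transcendental {x : LaurentSeries K} (h : Transcendental K x) :
    ∀ p : Polynomial K, p.eval₂ (HahnSeries.C : K →+* LaurentSeries K) x = 0 → p = 0 := by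
  intro p hp
  apply (transcendental_iff.mp h) p
  rw [← hp, Polynomial.aeval_def, algebraMap_eq_C_hom]

/-- If `u * (x - c) = 1` and `x` is transcendental then so is `u`. -/
theorem transcendental_of_mul_sub_eq_one {x u : LaurentSeries K} (c : K)
    (hu : u * (x - HahnSeries.C c) = 1) (hx : Transcendental K x) : Transcendental K u := by
  intro halg
  apply hx
  have h1 : x - HahnSeries.C c = u⁻¹ := eq_inv_of_mul_eq_one_right hu
  have h2 : IsAlgebraic K (u⁻¹ + algebraMap K (LaurentSeries K) c) :=
    halg.inv.add (isAlgebraic_algebraMap c)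
  have h3 : u⁻¹ + algebraMap K (LaurentSeries K) c = x := by
    rw [← h1, algebraMap_eq_C]
    ring
  rwa [h3] at h2

/-- If `u * (x - c) = 1` then `K(x) ≤ K(u)`. -/
theorem adjoin_le_of_mul_sub_eq_one {x u : LaurentSeries K} (c : K)
    (hu : u * (x - HahnSeries.C c) = 1) :
    IntermediateField.adjoin K {x} ≤ IntermediateField.adjoin K {u} := by
  rw [IntermediateField.adjoin_simple_le_iff]
  have h1 : x - HahnSeries.C c = u⁻¹ := eq_inv_of_mul_eq_one_right hu
  have h3 : x = u⁻¹ + algebraMap K (LaurentSeries K) c := by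
    rw [← h1, algebraMap_eq_C]
    ring
  rw [h3]
  exact add_mem (inv_mem (IntermediateField.mem_adjoin_simple_self K u))
    (IntermediateField.algebraMap_mem _ c)

end Series

variable {L : Type*} [Field L] [Algebra ℚ L] {A : ValuationSubring L} {k : Type} [Field k]
  {π : A →+* k} {N : ℕ} [NeZero N]

/-- **The Möbius transform of a base-function datum**: base function `(x - c₀)⁻¹`. -/
def mobius (B : Data A π N) (c₀ : A) (Y : LaurentSeries A)
    (hY : Y * (B.X - HahnSeries.C c₀) = 1) : Data A π N where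
  X := Y
  hX := by
    have h := congrArg (incl A) hY
    rw [map_mul, map_sub, incl_C, map_one] at h
    rw [eq_inv_of_mul_eq_one_left h, ← algebraMap_eq_C]
    exact inv_mem (sub_mem B.hX (IntermediateField.algebraMap_mem _ (c₀ : L)))
  htr := by
    have h := congrArg (rbar A π) hY
    rw [map_mul, map_sub, rbar_C, map_one] at h
    exact eval₂_of_transcendental
      (transcendental_of_mul_sub_eq_one (π c₀) h (transcendental_of_eval₂ B.htr))
  hJL := by
    have h := congrArg (incl A) hY
    rw [map_mul, map_sub, incl_C, map_one] at h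
    exact adjoin_le_of_mul_sub_eq_one (c₀ : L) h B.hJL
  hJk := by
    have h := congrArg (rbar A π) hY
    rw [map_mul, map_sub, rbar_C, map_one] at h
    exact adjoin_le_of_mul_sub_eq_one (π c₀) h B.hJk

@[simp] theorem mobius_X (B : Data A π N) (c₀ : A) (Y : LaurentSeries A)
    (hY : Y * (B.X - HahnSeries.C c₀) = 1) : (mobius B c₀ Y hY).X = Y := rfl

/-- The base function of the Möbius datum is `(x - c₀)⁻¹`. -/
theorem mobius_x (B : Data A π N) (c₀ : A) (Y : LaurentSeries A)
    (hY : Y * (B.X - HahnSeries.C c₀) = 1) :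
    (mobius B c₀ Y hY).x = (B.x - algebraMap L _ (c₀ : L))⁻¹ := by
  have h := congrArg (incl A) hY
  rw [map_mul, map_sub, incl_C, map_one] at h
  have h' : (mobius B c₀ Y hY).x * (B.x - algebraMap L _ (c₀ : L)) = 1 := by
    apply Subtype.ext
    show ((mobius B c₀ Y hY).x : LaurentSeries L) *
      ((B.x : LaurentSeries L) - algebraMap L (LaurentSeries L) (c₀ : L)) = 1
    rw [algebraMap_eq_C]
    exact h
  exact eq_inv_of_mul_eq_one_left h'

/-- The reduced base function of the Möbius datum is `(x̄ - c̄₀)⁻¹`. -/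
theorem mobius_xt (B : Data A π N) (c₀ : A) (Y : LaurentSeries A)
    (hY : Y * (B.X - HahnSeries.C c₀) = 1) (hπ : ∀ a : A, ¬ IsUnit a → π a = 0)
    (hNk : (N : k) ≠ 0) :
    (mobius B c₀ Y hY).xt hπ hNk = (B.xt hπ hNk - algebraMap k _ (π c₀))⁻¹ := by
  have h := congrArg (rbar A π) hY
  rw [map_mul, map_sub, rbar_C, map_one] at h
  have h' : (mobius B c₀ Y hY).xt hπ hNk * (B.xt hπ hNk - algebraMap k _ (π c₀)) = 1 := by
    apply Subtype.ext
    show ((mobius B c₀ Y hY).xt hπ hNk : LaurentSeries k) *
      ((B.xt hπ hNk : LaurentSeries k) - algebraMap k (LaurentSeries k) (π c₀)) = 1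
    rw [Data.coe_xt, Data.coe_xt, algebraMap_eq_C]
    exact h
  exact eq_inv_of_mul_eq_one_left h'


end

/-! ### Hypothesis (H) for the Möbius function -/

section Branch

variable {L F k : Type*} [Field L] [Field F] [Algebra L F] [Field k]
  {A : ValuationSubring L} {π : A →+* k}

/-- **(H) for `(x - c₀)⁻¹`** when the branch values of `x` are `{0, b}`, `π b ≠ 0`: the branch
values of `(x - c₀)⁻¹` are `{0, (-c₀)⁻¹, (b - c₀)⁻¹}`, with pairwise distinct residues. -/
theorem hbr_mobius_pair (hsurj : Function.Surjective π) {x : F} (c₀ b : A) (hb : π b ≠ 0)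
    (hx : x - algebraMap L F (c₀ : L) ≠ 0)
    (hB : ∀ c : L, c ≠ 0 → c ≠ (b : L) → ∀ P : Place L F, 0 < P.ord (x - algebraMap L F c) →
      P.ord (x - algebraMap L F c) = 1) (γ : k) :
    ∃ c₁ : A, π c₁ = γ ∧ ∀ c : A, π c = γ → c ≠ c₁ →
      ∀ P : Place L F, 0 < P.ord ((x - algebraMap L F (c₀ : L))⁻¹ - algebraMap L F (c : L)) →
        P.ord ((x - algebraMap L F (c₀ : L))⁻¹ - algebraMap L F (c : L)) = 1 := by
  classical
  refine BranchH.hbr_inv_of_branch hsurj hx {-(c₀ : L), (b : L) - (c₀ : L)} ?_ ?_ γ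
  · intro c hc P hP
    rw [Finset.mem_insert, Finset.mem_singleton, not_or] at hc
    have e : x - algebraMap L F (c₀ : L) - algebraMap L F c =
        x - algebraMap L F ((c₀ : L) + c) := by
      rw [map_add]
      ring
    rw [e] at hP ⊢
    refine hB _ ?_ ?_ P hP
    · intro h0
      exact hc.1 (by linear_combination h0)
    · intro h0
      exact hc.2 (by linear_combination h0)
  · -- the set is `{0, (-c₀)⁻¹, (b - c₀)⁻¹}`
    have hset : ∀ u : A, (u : L) ∈ insert (0 : L)
        (({-(c₀ : L), (b : L) - (c₀ : L)} : Finset L).image (fun b => b⁻¹)) →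
        (u : L) = 0 ∨ ∃ d : A, (d = -c₀ ∨ d = b - c₀) ∧ u * d = 1 := by
      intro u hu
      rw [Finset.mem_insert, Finset.mem_image] at hu
      rcases hu with hu | ⟨w, hw, hwu⟩
      · exact Or.inl hu
      · rw [Finset.mem_insert, Finset.mem_singleton] at hw
        by_cases hw0 : w = 0
        · left
          rw [← hwu, hw0, inv_zero]
        · right
          rcases hw with hw | hw
          · refine ⟨-c₀, Or.inl rfl, ?_⟩
            apply Subtype.ext
            show (u : L) * (-(c₀ : L)) = 1
            rw [← hwu, ← hw, inv_mul_cancel₀ hw0]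
          · refine ⟨b - c₀, Or.inr rfl, ?_⟩
            apply Subtype.ext
            show (u : L) * ((b : L) - (c₀ : L)) = 1
            rw [← hwu, ← hw, inv_mul_cancel₀ hw0]
    have key0 : ∀ u v d : A, (u : L) = 0 → v * d = 1 → π u = π v → False := by
      intro u v d hu hvd huv
      have hu0 : u = 0 := Subtype.ext hu
      have h1 : π v * π d = 1 := by rw [← map_mul, hvd, map_one]
      rw [hu0, map_zero] at huv
      rw [← huv, zero_mul] at h1
      exact zero_ne_one h1
    have key1 : ∀ u v d e : A, u * d = 1 → v * e = 1 → π u = π v → π d = π e := by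
      intro u v d e hud hve huv
      have h1 : π u * π d = 1 := by rw [← map_mul, hud, map_one]
      have h2 : π v * π e = 1 := by rw [← map_mul, hve, map_one]
      rw [← huv] at h2
      have hu0 : π u ≠ 0 := by
        intro h0
        rw [h0, zero_mul] at h1
        exact zero_ne_one h1
      exact mul_left_cancel₀ hu0 (h1.trans h2.symm)
    have key2 : ∀ u v d : A, u * d = 1 → v * d = 1 → u = v := by
      intro u v d hud hvd
      calc u = u * (v * d) := by rw [hvd, mul_one]
        _ = v * (u * d) := by ring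
        _ = v := by rw [hud, mul_one]
    have hbne : π (-c₀) ≠ π (b - c₀) := by
      intro h0
      apply hb
      rw [map_neg, map_sub] at h0
      linear_combination -h0
    intro a a' ha ha' haa
    rcases hset a ha with ha | ⟨d, hd, had⟩ <;> rcases hset a' ha' with ha' | ⟨d', hd', had'⟩
    · exact Subtype.ext (ha.trans ha'.symm)
    · exact (key0 a a' d' ha had' haa).elim
    · exact (key0 a' a d ha' had haa.symm).elim
    · have hdd := key1 a a' d d' had had' haa
      rcases hd with rfl | rfl <;> rcases hd' with rfl | rfl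
      · exact key2 a a' _ had had'
      · exact (hbne hdd).elim
      · exact (hbne hdd.symm).elim
      · exact key2 a a' _ had had'

end Branch

/-! ### The inverse series -/

section Inverse

variable {R : Type*} [CommRing R]

/-- A power series with vanishing constant coefficient minus a unit constant is invertible in
the Laurent series. -/
theorem exists_mul_ofPowerSeries_sub_C (g : PowerSeries R) (hg : PowerSeries.constantCoeff g = 0)
    (c : R) (hc : IsUnit c) :
    ∃ Y : LaurentSeries R, Y * (HahnSeries.ofPowerSeries ℤ R g - HahnSeries.C c) = 1 := by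
  have hu : IsUnit (g - PowerSeries.C c) := by
    rw [PowerSeries.isUnit_iff_constantCoeff, map_sub, hg, PowerSeries.constantCoeff_C, zero_sub]
    exact hc.neg
  obtain ⟨h, hh⟩ := hu.exists_left_inv
  refine ⟨HahnSeries.ofPowerSeries ℤ R h, ?_⟩
  rw [← HahnSeries.ofPowerSeries_C, ← map_sub, ← map_mul, hh, map_one]

open Fermat.Agent.Lib.Red.HauptBase Fermat.Agent.Lib.Red.HauptSeries in
/-- `x2S R m` is a power series without constant term. -/
theorem exists_x2S_eq (m : ℕ) [NeZero m] :
    ∃ g : PowerSeries R, PowerSeries.constantCoeff g = 0 ∧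
      x2S R m = HahnSeries.ofPowerSeries ℤ R g := by
  refine ⟨(PowerSeries.expand m (NeZero.ne m) (4096 * PowerSeries.X *
      PowerSeries.expand 2 two_ne_zero dedekindEtaUnit *
      dedekindEtaUnitInv)).map (Int.castRingHom R), ?_, ?_⟩
  · rw [← PowerSeries.coeff_zero_eq_constantCoeff_apply, PowerSeries.coeff_map,
      PowerSeries.coeff_zero_eq_constantCoeff_apply, PowerSeries.constantCoeff_expand]
    simp
  · rw [← coeffMap_x2S (Int.castRingHom R) m, x2S, yInf_two_int, qExpand_ofPS,
      coeffMap_ofPowerSeries]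

open Fermat.Agent.Lib.Red.HauptBase Fermat.Agent.Lib.Red.HauptSeries in
/-- `x3S R m` is a power series without constant term. -/
theorem exists_x3S_eq (m : ℕ) [NeZero m] :
    ∃ g : PowerSeries R, PowerSeries.constantCoeff g = 0 ∧
      x3S R m = HahnSeries.ofPowerSeries ℤ R g := by
  refine ⟨(PowerSeries.expand m (NeZero.ne m) (PowerSeries.X * tSeries)).map
      (Int.castRingHom R), ?_, ?_⟩
  · rw [← PowerSeries.coeff_zero_eq_constantCoeff_apply, PowerSeries.coeff_map,
      PowerSeries.coeff_zero_eq_constantCoeff_apply, PowerSeries.constantCoeff_expand]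
    simp
  · rw [← coeffMap_x3S (Int.castRingHom R) m, x3S, tInf_int, qExpand_ofPS,
      coeffMap_ofPowerSeries]

end Inverse

/-! ### The Möbius data of the two Hauptmoduln -/

noncomputable section Instances

open Fermat.Agent.Lib.Red.HauptBase

section Defs

variable {L : Type*} [Field L] [Algebra ℚ L] (A : ValuationSubring L) {k : Type} [Field k]
  (π : A →+* k)

theorem exists_series2 (m : ℕ) [NeZero m] :
    ∃ Y : LaurentSeries A, Y * (x2S A m - HahnSeries.C (1 : A)) = 1 := by
  obtain ⟨g, hg, e⟩ := exists_x2S_eq (R := A) m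
  rw [e]
  exact exists_mul_ofPowerSeries_sub_C g hg 1 isUnit_one

variable {A} in
theorem isUnit_of_sq_add_add_one {ω : A} (hω : ω ^ 2 + ω + 1 = 0) : IsUnit ω :=
  IsUnit.of_mul_eq_one (-(ω + 1)) (by linear_combination -hω)

variable {A} in
theorem exists_series3 (m : ℕ) [NeZero m] {ω : A} (hω : ω ^ 2 + ω + 1 = 0) :
    ∃ Y : LaurentSeries A, Y * (x3S A m - HahnSeries.C ω) = 1 := by
  obtain ⟨g, hg, e⟩ := exists_x3S_eq (R := A) m
  rw [e]
  exact exists_mul_ofPowerSeries_sub_C g hg ω (isUnit_of_sq_add_add_one hω)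

/-- **The Möbius datum of level 2**: base function `(y - 1)⁻¹`, `y` the Hauptmodul of level 2
at level `M = m * 2` (residue characteristic `≠ 2`). -/
def mobius2 (M m : ℕ) [NeZero m] (hM : M = m * 2) (h2 : (2 : k) ≠ 0) : Data A π M :=
  mobius (ofHaupt2 A π M m hM h2) 1 (Classical.choose (exists_series2 A m))
    (Classical.choose_spec (exists_series2 A m))

/-- **The Möbius datum of level 3**: base function `(y - ω)⁻¹`, `y` the Hauptmodul of level 3
at level `M = m * 3` (residue characteristic `≠ 3`), `ω` a primitive cube root of unity. -/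
def mobius3 (M m : ℕ) [NeZero m] (hM : M = m * 3) (h3 : (3 : k) ≠ 0) (ω : A)
    (hω : ω ^ 2 + ω + 1 = 0) : Data A π M :=
  mobius (ofHaupt3 A π M m hM h3) ω (Classical.choose (exists_series3 m hω))
    (Classical.choose_spec (exists_series3 m hω))

variable {A π}

theorem mobius2_x (M m : ℕ) [NeZero M] [NeZero m] (hM : M = m * 2) (h2 : (2 : k) ≠ 0) :
    (mobius2 A π M m hM h2).x =
      ((ofHaupt2 A π M m hM h2).x - algebraMap L _ (((1 : A) : A) : L))⁻¹ :=
  mobius_x _ _ _ _

theorem mobius2_xt (M m : ℕ) [NeZero M] [NeZero m] (hM : M = m * 2) (h2 : (2 : k) ≠ 0)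
    (hπ : ∀ a : A, ¬ IsUnit a → π a = 0) (hMk : (M : k) ≠ 0) :
    (mobius2 A π M m hM h2).xt hπ hMk =
      ((ofHaupt2 A π M m hM h2).xt hπ hMk - algebraMap k _ (π 1))⁻¹ :=
  mobius_xt _ _ _ _ hπ hMk

theorem mobius3_x (M m : ℕ) [NeZero M] [NeZero m] (hM : M = m * 3) (h3 : (3 : k) ≠ 0) (ω : A)
    (hω : ω ^ 2 + ω + 1 = 0) :
    (mobius3 A π M m hM h3 ω hω).x =
      ((ofHaupt3 A π M m hM h3).x - algebraMap L _ (ω : L))⁻¹ :=
  mobius_x _ _ _ _

theorem mobius3_xt (M m : ℕ) [NeZero M] [NeZero m] (hM : M = m * 3) (h3 : (3 : k) ≠ 0) (ω : A)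
    (hω : ω ^ 2 + ω + 1 = 0) (hπ : ∀ a : A, ¬ IsUnit a → π a = 0) (hMk : (M : k) ≠ 0) :
    (mobius3 A π M m hM h3 ω hω).xt hπ hMk =
      ((ofHaupt3 A π M m hM h3).xt hπ hMk - algebraMap k _ (π ω))⁻¹ :=
  mobius_xt _ _ _ _ hπ hMk

end Defs

section HBR

open Fermat.Agent.S24 Fermat.Agent.Lib.Red.HauptPlaces

variable {A : ValuationSubring KQ} {k : Type} [Field k] {π : A →+* k}

/-- **(H) for the Möbius datum of level 2.** -/
theorem hbr_mobius2 (M m : ℕ) [NeZero M] [NeZero m] (hM : M = m * 2)
    (hsurj : Function.Surjective π) (h2 : (2 : k) ≠ 0) (γ : k) :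
    ∃ c₀ : A, π c₀ = γ ∧ ∀ c : A, π c = γ → c ≠ c₀ →
      ∀ P : Place KQ ↥(laurentBaseChange KQ (modularFunctionFieldFull M)),
        0 < P.ord ((mobius2 A π M m hM h2).x - algebraMap KQ _ (c : KQ)) →
        P.ord ((mobius2 A π M m hM h2).x - algebraMap KQ _ (c : KQ)) = 1 := by
  rw [mobius2_x, BranchH.ofHaupt2_x_eq]
  have hx : x2 M m hM - algebraMap KQ _ (((1 : A) : A) : KQ) ≠ 0 := fun h0 =>
    transcendental_x2 M m hM (by rw [sub_eq_zero.mp h0]; exact isAlgebraic_algebraMap _)
  exact hbr_mobius_pair hsurj 1 (-64 : A) (BranchH.map_neg_64_ne_zero h2) hx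
    (fun c hc0 hc1 P hP => ord_x2_sub_eq_one M m hM c hc0 hc1 P hP) γ

/-- **(H) for the Möbius datum of level 3.** -/
theorem hbr_mobius3 (M m : ℕ) [NeZero M] [NeZero m] (hM : M = m * 3)
    (hsurj : Function.Surjective π) (h3 : (3 : k) ≠ 0) (ω : A) (hω : ω ^ 2 + ω + 1 = 0) (γ : k) :
    ∃ c₀ : A, π c₀ = γ ∧ ∀ c : A, π c = γ → c ≠ c₀ →
      ∀ P : Place KQ ↥(laurentBaseChange KQ (modularFunctionFieldFull M)),
        0 < P.ord ((mobius3 A π M m hM h3 ω hω).x - algebraMap KQ _ (c : KQ)) →
        P.ord ((mobius3 A π M m hM h3 ω hω).x - algebraMap KQ _ (c : KQ)) = 1 := by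
  rw [mobius3_x, BranchH.ofHaupt3_x_eq]
  have hx : x3 M m hM - algebraMap KQ _ (ω : KQ) ≠ 0 := fun h0 =>
    transcendental_x3 M m hM (by rw [sub_eq_zero.mp h0]; exact isAlgebraic_algebraMap _)
  exact hbr_mobius_pair hsurj ω (-27 : A) (BranchH.map_neg_27_ne_zero h3) hx
    (fun c hc0 hc1 P hP => ord_x3_sub_eq_one M m hM c hc0 hc1 P hP) γ

/-- A primitive cube root of unity in a valuation ring of `ℚ̄`. -/
theorem exists_omega (A : ValuationSubring KQ) : ∃ ω : A, ω ^ 2 + ω + 1 = 0 := by
  obtain ⟨z, hz⟩ := IsAlgClosed.exists_root (k := KQ)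
    (Polynomial.X ^ 2 + Polynomial.X + 1 : Polynomial KQ) (by
      have h : (Polynomial.X ^ 2 + Polynomial.X + 1 : Polynomial KQ).degree = 2 := by
        compute_degree!
      rw [h]
      norm_num)
  have hz' : z ^ 2 + z + 1 = 0 := by
    simpa using hz
  have hz3 : z * (-(z + 1)) = 1 := by linear_combination -hz'
  have hmem : z ∈ A := by
    rcases A.mem_or_inv_mem z with h | h
    · exact h
    · have e : z = -(z⁻¹ + 1) := by
        have hz0 : z ≠ 0 := by
          rintro rfl
          simp at hz3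
        field_simp
        linear_combination hz'
      rw [e]
      exact neg_mem (add_mem h A.one_mem)
  exact ⟨⟨z, hmem⟩, Subtype.ext hz'⟩

end HBR

end Instances

end Fermat.Agent.BAD.Base
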