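/-
BAD / level-M base (helper15): the chart functions `X = g(y)` of the Hauptmodul levels.

* level 2 (`M = m * 2`, residue characteristic 3 in the application): `X = (y - 1)³ / y²`;
* level 3 (`M = m * 3`, residue characteristic 2 in the application): `X = (y² + y + 1)² / y³`.

For both: `X` is a unit of the Gauss valuation ring with `𝔽_ℓ`-rational reduction, both function
fields are `IsFF1` with base functions `X`, `X̄`, and the two charts `{X finite}`, `{X ≠ 0}` have
good reduction (`hT3`, `hT3'` in the literal shape of `DiscInst.hT3`, `DiscInst.hT3'`).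
-/
import Mathlib
import Fermat.Agent.BAD.Base.Mobius
import Fermat.Agent.Lib.Red.DiscFinal
import Fermat.Agent.Lib.Red.InstGenusX
import Fermat.Agent.Lib.RedK.FFInput
import Fermat.Agent.ESJ.Cong.FrobAut

set_option autoImplicit false
set_option linter.unusedSectionVars false

namespace Fermat.Agent.BAD.Base

open HahnSeries ModularCurve Polynomial AlgebraicCurve Fermat.Agent.S28 IntermediateField
open Fermat.Agent.Lib.Red Fermat.Agent.Lib.Red.BaseFn Fermat.Agent.Lib.FF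

/-! ### Order calculus -/

section Ord

variable {K F : Type*} [Field K] [Field F] [Algebra K F]

theorem ord_neg' (v : Place K F) (f : F) : v.ord (-f) = v.ord f := by
  simp only [Place.ord, Valuation.map_neg]

theorem ord_pow_nat (v : Place K F) (f : F) (n : ℕ) : v.ord (f ^ n) = n * v.ord f := by
  rw [← zpow_natCast, v.ord_zpow]

/-- Ultrametric equality. -/
theorem ord_add_of_lt (v : Place K F) {f g : F} (hf : f ≠ 0) (hg : g ≠ 0)
    (h : v.ord f < v.ord g) : v.ord (f + g) = v.ord f := by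
  have hfg : f + g ≠ 0 := by
    intro h0
    have : g = -f := by linear_combination h0
    rw [this, ord_neg'] at h
    exact lt_irrefl _ h
  have h1 := Fermat.Agent.S24.ord_add_ge v hf hg hfg
  have h2 := Fermat.Agent.S24.ord_sub_ge v hfg hg (by rwa [add_sub_cancel_right])
  rw [add_sub_cancel_right] at h2
  omega

theorem ord_sub_const_of_pos (v : Place K F) {y : F} (c : K) (hc : c ≠ 0) (hy : 0 < v.ord y) :
    v.ord (y - algebraMap K F c) = 0 := by
  have hy0 : y ≠ 0 := by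
    rintro rfl
    rw [v.ord_zero] at hy
    exact lt_irrefl _ hy
  have hc0 : -algebraMap K F c ≠ 0 := neg_ne_zero.mpr ((_root_.map_ne_zero _).mpr hc)
  have e : y - algebraMap K F c = -algebraMap K F c + y := by ring
  have h0 : v.ord (-algebraMap K F c) = 0 := by
    rw [ord_neg', Fermat.Agent.S24.ord_algebraMap]
  rw [e, ord_add_of_lt v hc0 hy0 (by rw [h0]; exact hy), h0]

theorem ord_sub_const_of_neg' (v : Place K F) {y : F} (c : K) (hy : v.ord y < 0) :
    v.ord (y - algebraMap K F c) = v.ord y := by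
  have hy0 : y ≠ 0 := by
    rintro rfl
    rw [v.ord_zero] at hy
    exact lt_irrefl _ hy
  rcases eq_or_ne c 0 with rfl | hc
  · rw [map_zero, sub_zero]
  have hc0 : -algebraMap K F c ≠ 0 := neg_ne_zero.mpr ((_root_.map_ne_zero _).mpr hc)
  have h0 : v.ord (-algebraMap K F c) = 0 := by
    rw [ord_neg', Fermat.Agent.S24.ord_algebraMap]
  rw [sub_eq_add_neg, ord_add_of_lt v hy0 hc0 (by rw [h0]; exact hy)]

theorem ord_sub_const_nonneg (v : Place K F) {y : F} (c : K) (hy : 0 ≤ v.ord y) :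
    0 ≤ v.ord (y - algebraMap K F c) :=
  Fermat.Agent.S24.ord_nonneg_of_mem v
    (sub_mem (Fermat.Agent.S24.mem_of_ord_nonneg v hy) (v.algebraMap_mem' c))

/-- **The charts of `X = (y - c)³ / y²`**: `{X finite} = {y ≠ 0, ∞}` and
`{X ≠ 0} = {(y - c)⁻¹ finite}`. -/
theorem chart2 (v : Place K F) {y X : F} (c : K) (hc : c ≠ 0) (hy : y ≠ 0)
    (hyc : y - algebraMap K F c ≠ 0) (hrel : X * y ^ 2 = (y - algebraMap K F c) ^ 3) :
    (0 ≤ v.ord X ↔ v.ord y = 0) ∧ (v.ord X ≤ 0 ↔ 0 ≤ v.ord (y - algebraMap K F c)⁻¹) := by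
  have hX : X ≠ 0 := by
    rintro rfl
    rw [zero_mul] at hrel
    exact pow_ne_zero 3 hyc hrel.symm
  have h1 : v.ord X + 2 * v.ord y = 3 * v.ord (y - algebraMap K F c) := by
    have := congrArg v.ord hrel
    rw [v.ord_mul hX (pow_ne_zero 2 hy), ord_pow_nat, ord_pow_nat] at this
    push_cast at this
    exact this
  have hpos := ord_sub_const_of_pos v c hc (y := y)
  have hneg := ord_sub_const_of_neg' v c (y := y)
  have hnn := ord_sub_const_nonneg v c (y := y)
  rw [v.ord_inv]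
  rcases lt_trichotomy (v.ord y) 0 with h' | h' | h'
  · have := hneg h'
    constructor <;> constructor <;> intro h <;> omega
  · have := hnn h'.ge
    constructor <;> constructor <;> intro h <;> omega
  · have := hpos h'
    constructor <;> constructor <;> intro h <;> omega

/-- **The charts of `X = (y - c₁)² (y - c₂)² / y³`**: `{X finite} = {y ≠ 0, ∞}` and
`{X ≠ 0} = {u finite, 1 + (c₁ - c₂) u ≠ 0}`, `u = (y - c₁)⁻¹`. -/
theorem chart3 (v : Place K F) {y X : F} (c₁ c₂ d : K) (hd : d = c₁ - c₂) (hc₁ : c₁ ≠ 0)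
    (hc₂ : c₂ ≠ 0) (hy : y ≠ 0)
    (hy1 : y - algebraMap K F c₁ ≠ 0) (hy2 : y - algebraMap K F c₂ ≠ 0)
    (hrel : X * y ^ 3 = (y - algebraMap K F c₁) ^ 2 * (y - algebraMap K F c₂) ^ 2) :
    (0 ≤ v.ord X ↔ v.ord y = 0) ∧
    (v.ord X ≤ 0 ↔ (0 ≤ v.ord (y - algebraMap K F c₁)⁻¹ ∧
      v.ord (1 + algebraMap K F d * (y - algebraMap K F c₁)⁻¹) = 0)) := by
  subst hd
  have hX : X ≠ 0 := by
    rintro rfl
    rw [zero_mul] at hrel
    exact mul_ne_zero (pow_ne_zero 2 hy1) (pow_ne_zero 2 hy2) hrel.symm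
  have h1 : v.ord X + 3 * v.ord y =
      2 * v.ord (y - algebraMap K F c₁) + 2 * v.ord (y - algebraMap K F c₂) := by
    have := congrArg v.ord hrel
    rw [v.ord_mul hX (pow_ne_zero 3 hy), v.ord_mul (pow_ne_zero 2 hy1) (pow_ne_zero 2 hy2),
      ord_pow_nat, ord_pow_nat, ord_pow_nat] at this
    push_cast at this
    exact this
  have hw : 1 + algebraMap K F (c₁ - c₂) * (y - algebraMap K F c₁)⁻¹ =
      (y - algebraMap K F c₂) * (y - algebraMap K F c₁)⁻¹ := by
    rw [map_sub]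
    field_simp
    ring
  have h2 : v.ord (1 + algebraMap K F (c₁ - c₂) * (y - algebraMap K F c₁)⁻¹) =
      v.ord (y - algebraMap K F c₂) - v.ord (y - algebraMap K F c₁) := by
    rw [hw, v.ord_mul hy2 (inv_ne_zero hy1), v.ord_inv]
    ring
  have hpos1 := ord_sub_const_of_pos v c₁ hc₁ (y := y)
  have hneg1 := ord_sub_const_of_neg' v c₁ (y := y)
  have hnn1 := ord_sub_const_nonneg v c₁ (y := y)
  have hpos2 := ord_sub_const_of_pos v c₂ hc₂ (y := y)
  have hneg2 := ord_sub_const_of_neg' v c₂ (y := y)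
  have hnn2 := ord_sub_const_nonneg v c₂ (y := y)
  rw [h2, v.ord_inv]
  rcases lt_trichotomy (v.ord y) 0 with h' | h' | h'
  · have := hneg1 h'
    have := hneg2 h'
    refine ⟨⟨fun h => by omega, fun h => by omega⟩,
      ⟨fun h => ⟨by omega, by omega⟩, fun h => by omega⟩⟩
  · have := hnn1 h'.ge
    have := hnn2 h'.ge
    refine ⟨⟨fun h => by omega, fun h => by omega⟩,
      ⟨fun h => ⟨by omega, by omega⟩, fun h => by omega⟩⟩
  · have := hpos1 h'
    have := hpos2 h'
    refine ⟨⟨fun h => by omega, fun h => by omega⟩,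
      ⟨fun h => ⟨by omega, by omega⟩, fun h => by omega⟩⟩

/-- `IsFF1` for a chart function `X` all of whose finite points are finite points of `y`. -/
theorem isFF1_of_chart [IsAlgClosed K] {y X : F} (hy : IsFF1 K F y)
    (hX : ∀ v : Place K F, 0 ≤ v.ord X → v.ord y = 0) : IsFF1 K F X := by
  have := hy.finiteDimensional
  obtain ⟨v, hv⟩ : ∃ v : Place K F, v.ord y < 0 := by
    by_contra hcon
    push_neg at hcon
    obtain ⟨c, hc⟩ := hy.const_of_ord_nonneg y hcon
    exact hy.transcendental (hc ▸ isAlgebraic_algebraMap c)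
  have hXv : v.ord X ≠ 0 := by
    intro h0
    have := hX v h0.ge
    omega
  have hXtr : Transcendental K X :=
    Fermat.Agent.S24.DNeZero.transcendental_of_ord_ne_zero v hXv
  have := Fermat.Agent.S24.Transfer.finiteDimensional_adjoin_of_transcendental (K := K) y hXtr
  exact isFF1_of_isAlgClosed X hXtr

end Ord

/-! ### Localising a chart with good reduction -/

section Localize

variable {L : Type*} [Field L] [Algebra ℚ L] {A : ValuationSubring L} {k : Type} [Field k]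
  {π : A →+* k} {N : ℕ} [NeZero N]

/-- **Localising a chart with good reduction**: if the chart `{x finite}` of a base function has
good reduction (`hT3`), so has the chart `{x finite, p(x) ≠ 0}` for every `p ∈ A[T]` with
`p̄ ≠ 0`. -/
theorem hT3_localize [IsAlgClosed L] [IsAlgClosed k] (B : Data A π N)
    (hπ : ∀ a : A, ¬ IsUnit a → π a = 0) (hsurj : Function.Surjective π) (hNk : (N : k) ≠ 0)
    (hT3 : ∀ s : ↥(modularFunctionFieldFullC k N),
      (∀ Q : Place k ↥(modularFunctionFieldFullC k N), 0 ≤ Q.ord (B.xt hπ hNk) → 0 ≤ Q.ord s) →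
      ∃ y : Ow A π N hNk, redF A π N hπ hNk y = s ∧
        ∀ P : Place L ↥(laurentBaseChange L (modularFunctionFieldFull N)),
          0 ≤ P.ord B.x → 0 ≤ P.ord (y : ↥(laurentBaseChange L (modularFunctionFieldFull N))))
    (p : Polynomial A) (hp : p.map π ≠ 0) :
    ∀ s : ↥(modularFunctionFieldFullC k N),
      (∀ Q : Place k ↥(modularFunctionFieldFullC k N), 0 ≤ Q.ord (B.xt hπ hNk) →
        Q.ord (Polynomial.aeval (B.xt hπ hNk) (p.map π)) = 0 → 0 ≤ Q.ord s) →
      ∃ y : Ow A π N hNk, redF A π N hπ hNk y = s ∧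
        ∀ P : Place L ↥(laurentBaseChange L (modularFunctionFieldFull N)),
          0 ≤ P.ord B.x → P.ord (Polynomial.aeval B.x (p.map A.subtype)) = 0 →
            0 ≤ P.ord (y : ↥(laurentBaseChange L (modularFunctionFieldFull N))) := by
  classical
  intro s hs
  have hwt0 : Polynomial.aeval (B.xt hπ hNk) (p.map π) ≠ 0 := fun h0 =>
    hp ((transcendental_iff.mp (B.transcendental_xt hπ hNk)) _ h0)
  have hFt := InstGenusX.isFF1_xt B hπ hsurj hNk
  have hfin := Fermat.Agent.Lib.RedK.FFInput.finite_ord_ne_zero hFt hwt0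
  -- the exponent
  obtain ⟨n, hn⟩ : ∃ n : ℕ, ∀ Q ∈ hfin.toFinset, -Q.ord s ≤ n := by
    refine ⟨hfin.toFinset.sup (fun Q => (-Q.ord s).toNat), fun Q hQ => ?_⟩
    have h1 : (-Q.ord s).toNat ≤ hfin.toFinset.sup (fun Q => (-Q.ord s).toNat) :=
      Finset.le_sup (f := fun Q => (-Q.ord s).toNat) hQ
    have h2 := Int.self_le_toNat (-Q.ord s)
    have h3 : ((-Q.ord s).toNat : ℤ) ≤ (hfin.toFinset.sup (fun Q => (-Q.ord s).toNat) : ℕ) := by
      exact_mod_cast h1
    exact h2.trans h3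
  have hs' : ∀ Q : Place k ↥(modularFunctionFieldFullC k N), 0 ≤ Q.ord (B.xt hπ hNk) →
      0 ≤ Q.ord (Polynomial.aeval (B.xt hπ hNk) (p.map π) ^ n * s) := by
    intro Q hQ
    rcases eq_or_ne s 0 with rfl | hs0
    · rw [mul_zero, Q.ord_zero]
    have hw := Fermat.Agent.Lib.RedK.FFInput.ord_aeval_nonneg Q hQ (p.map π)
    rw [Q.ord_mul (pow_ne_zero n hwt0) hs0, ord_pow_nat]
    rcases hw.eq_or_lt with h0 | hpos
    · have := hs Q hQ h0.symm
      rw [← h0, mul_zero, zero_add]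
      exact this
    · have hmem : Q ∈ hfin.toFinset := by
        rw [Set.Finite.mem_toFinset]
        exact hpos.ne'
      have h1 := hn Q hmem
      have h2 := mul_le_mul_of_nonneg_left (show (1 : ℤ) ≤ Q.ord _ from hpos)
        (Nat.cast_nonneg (α := ℤ) n)
      linarith
  obtain ⟨Y, hY, hYreg⟩ := hT3 _ hs'
  -- the unit
  have hu := B.isUnit_aeval_map hπ hNk p hp
  obtain ⟨wi, hwi⟩ := hu.exists_right_inv
  refine ⟨Y * wi ^ n, ?_, ?_⟩
  · have h1 : redF A π N hπ hNk ⟨_, B.aeval_map_mem_Ow hNk p⟩ * redF A π N hπ hNk wi = 1 := by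
      rw [← map_mul, hwi, map_one]
    rw [B.redF_aeval_map hπ hNk p] at h1
    rw [map_mul, map_pow, hY]
    calc Polynomial.aeval (B.xt hπ hNk) (p.map π) ^ n * s * redF A π N hπ hNk wi ^ n
        = s * (Polynomial.aeval (B.xt hπ hNk) (p.map π) * redF A π N hπ hNk wi) ^ n := by ring
      _ = s := by rw [h1, one_pow, mul_one]
  · intro P hP hw0
    have hwi' : Polynomial.aeval B.x (p.map A.subtype) *
        (wi : ↥(laurentBaseChange L (modularFunctionFieldFull N))) = 1 := congrArg Subtype.val hwi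
    have hwiF : (wi : ↥(laurentBaseChange L (modularFunctionFieldFull N))) =
        (Polynomial.aeval B.x (p.map A.subtype))⁻¹ := eq_inv_of_mul_eq_one_right hwi'
    show 0 ≤ P.ord ((Y : ↥(laurentBaseChange L (modularFunctionFieldFull N))) *
      (wi : ↥(laurentBaseChange L (modularFunctionFieldFull N))) ^ n)
    rcases eq_or_ne (Y : ↥(laurentBaseChange L (modularFunctionFieldFull N))) 0 with h0 | hY0
    · rw [h0, zero_mul, P.ord_zero]
    have hwi0 : (wi : ↥(laurentBaseChange L (modularFunctionFieldFull N))) ≠ 0 :=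
      right_ne_zero_of_mul_eq_one hwi'
    rw [P.ord_mul hY0 (pow_ne_zero n hwi0), ord_pow_nat, hwiF, P.ord_inv, hw0, neg_zero,
      mul_zero, add_zero]
    exact hYreg P hP

end Localize

/-! ### The chart functions of a base function -/

noncomputable section ChartX

variable {L : Type*} [Field L] [Algebra ℚ L] {A : ValuationSubring L} {k : Type} [Field k]
  {π : A →+* k} {N : ℕ} [NeZero N]

/-- `X = (y - 1)³ / y²` for the base function `y` of `B`, as an element of the Gauss valuation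
ring. -/
def chartX2 (B : Data A π N) (hπ : ∀ a : A, ¬ IsUnit a → π a = 0) (hNk : (N : k) ≠ 0) :
    Ow A π N hNk :=
  ((B.xUnit hπ hNk : Ow A π N hNk) - 1) ^ 3 *
    (((B.xUnit hπ hNk)⁻¹ : (Ow A π N hNk)ˣ) : Ow A π N hNk) ^ 2

/-- `X = (y² + y + 1)² / y³` for the base function `y` of `B`, as an element of the Gauss
valuation ring. -/
def chartX3 (B : Data A π N) (hπ : ∀ a : A, ¬ IsUnit a → π a = 0) (hNk : (N : k) ≠ 0) :
    Ow A π N hNk :=
  ((B.xUnit hπ hNk : Ow A π N hNk) ^ 2 + (B.xUnit hπ hNk : Ow A π N hNk) + 1) ^ 2 *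
    (((B.xUnit hπ hNk)⁻¹ : (Ow A π N hNk)ˣ) : Ow A π N hNk) ^ 3

variable (B : Data A π N) (hπ : ∀ a : A, ¬ IsUnit a → π a = 0) (hNk : (N : k) ≠ 0)

theorem redF_xUnit : redF A π N hπ hNk (B.xUnit hπ hNk : Ow A π N hNk) = B.xt hπ hNk := rfl

theorem redF_xUnit_inv :
    redF A π N hπ hNk (((B.xUnit hπ hNk)⁻¹ : (Ow A π N hNk)ˣ) : Ow A π N hNk) =
      (B.xt hπ hNk)⁻¹ := by
  have h : redF A π N hπ hNk (B.xUnit hπ hNk : Ow A π N hNk) *
      redF A π N hπ hNk (((B.xUnit hπ hNk)⁻¹ : (Ow A π N hNk)ˣ) : Ow A π N hNk) = 1 := by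
    rw [← map_mul, Units.mul_inv, map_one]
  rw [redF_xUnit] at h
  exact eq_inv_of_mul_eq_one_right h

theorem xt_ne_zero : B.xt hπ hNk ≠ 0 := fun h0 =>
  B.transcendental_xt hπ hNk (h0 ▸ isAlgebraic_zero)

include hπ hNk in
theorem x_sub_ne_zero (c : L) : B.x - algebraMap L _ c ≠ 0 := fun h0 =>
  B.transcendental_x hπ hNk (by rw [sub_eq_zero.mp h0]; exact isAlgebraic_algebraMap _)

theorem xt_sub_ne_zero (c : k) : B.xt hπ hNk - algebraMap k _ c ≠ 0 := fun h0 =>
  B.transcendental_xt hπ hNk (by rw [sub_eq_zero.mp h0]; exact isAlgebraic_algebraMap _)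

theorem coe_chartX2 :
    ((chartX2 B hπ hNk : Ow A π N hNk) : ↥(laurentBaseChange L (modularFunctionFieldFull N))) =
      (B.x - 1) ^ 3 * (B.x)⁻¹ ^ 2 := rfl

theorem coe_chartX3 :
    ((chartX3 B hπ hNk : Ow A π N hNk) : ↥(laurentBaseChange L (modularFunctionFieldFull N))) =
      (B.x ^ 2 + B.x + 1) ^ 2 * (B.x)⁻¹ ^ 3 := rfl

theorem redF_chartX2 :
    redF A π N hπ hNk (chartX2 B hπ hNk) = (B.xt hπ hNk - 1) ^ 3 * (B.xt hπ hNk)⁻¹ ^ 2 := by
  rw [chartX2, map_mul, map_pow, map_pow, map_sub, map_one, redF_xUnit_inv, redF_xUnit]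

theorem redF_chartX3 :
    redF A π N hπ hNk (chartX3 B hπ hNk) =
      (B.xt hπ hNk ^ 2 + B.xt hπ hNk + 1) ^ 2 * (B.xt hπ hNk)⁻¹ ^ 3 := by
  rw [chartX3, map_mul, map_pow, map_pow, map_add, map_add, map_pow, map_one, redF_xUnit_inv,
    redF_xUnit]

/-- `X y² = (y - 1)³`. -/
theorem chartX2_rel :
    ((chartX2 B hπ hNk : Ow A π N hNk) : ↥(laurentBaseChange L (modularFunctionFieldFull N))) *
      B.x ^ 2 = (B.x - 1) ^ 3 := by
  have h0 := B.x_ne_zero hπ hNk
  rw [coe_chartX2]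
  field_simp

/-- `X̄ ȳ² = (ȳ - 1)³`. -/
theorem redF_chartX2_rel :
    redF A π N hπ hNk (chartX2 B hπ hNk) * B.xt hπ hNk ^ 2 = (B.xt hπ hNk - 1) ^ 3 := by
  have h0 := xt_ne_zero B hπ hNk
  rw [redF_chartX2]
  field_simp

/-- `X y³ = (y² + y + 1)²`. -/
theorem chartX3_rel :
    ((chartX3 B hπ hNk : Ow A π N hNk) : ↥(laurentBaseChange L (modularFunctionFieldFull N))) *
      B.x ^ 3 = (B.x ^ 2 + B.x + 1) ^ 2 := by
  have h0 := B.x_ne_zero hπ hNk
  rw [coe_chartX3]
  field_simp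

/-- `X̄ ȳ³ = (ȳ² + ȳ + 1)²`. -/
theorem redF_chartX3_rel :
    redF A π N hπ hNk (chartX3 B hπ hNk) * B.xt hπ hNk ^ 3 =
      (B.xt hπ hNk ^ 2 + B.xt hπ hNk + 1) ^ 2 := by
  have h0 := xt_ne_zero B hπ hNk
  rw [redF_chartX3]
  field_simp

/-! #### (X-unit) -/

/-- **(X-unit), level 2.** -/
theorem redF_chartX2_ne_zero : redF A π N hπ hNk (chartX2 B hπ hNk) ≠ 0 := by
  rw [redF_chartX2]
  have h1 := xt_sub_ne_zero B hπ hNk 1
  rw [map_one] at h1
  exact mul_ne_zero (pow_ne_zero 3 h1) (pow_ne_zero 2 (inv_ne_zero (xt_ne_zero B hπ hNk)))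

/-- **(X-unit), level 3.** -/
theorem redF_chartX3_ne_zero : redF A π N hπ hNk (chartX3 B hπ hNk) ≠ 0 := by
  rw [redF_chartX3]
  refine mul_ne_zero (pow_ne_zero 2 ?_) (pow_ne_zero 3 (inv_ne_zero (xt_ne_zero B hπ hNk)))
  intro h0
  have h1 : Polynomial.aeval (B.xt hπ hNk) (Polynomial.X ^ 2 + Polynomial.X + 1 : Polynomial k)
      = 0 := by
    simpa using h0
  have h2 := (transcendental_iff.mp (B.transcendental_xt hπ hNk)) _ h1
  have h3 := congrArg (fun q : Polynomial k => q.coeff 0) h2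
  simp at h3

/-! #### (X-rat) -/

/-- **(X-rat), level 2**: if `ȳ` has coefficients in the prime field, `X̄(q^ℓ) = X̄^ℓ`. -/
theorem chartX2_rat (ℓ : ℕ) [Fact ℓ.Prime] [CharP k ℓ]
    (hB : coeffMap (frobenius k ℓ) (rbar A π B.X) = rbar A π B.X) :
    qExpand k ℓ ((redF A π N hπ hNk (chartX2 B hπ hNk) : ↥(modularFunctionFieldFullC k N)) :
        LaurentSeries k) =
      ((redF A π N hπ hNk (chartX2 B hπ hNk) : ↥(modularFunctionFieldFullC k N)) :
        LaurentSeries k) ^ ℓ := by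
  have e : ((redF A π N hπ hNk (chartX2 B hπ hNk) : ↥(modularFunctionFieldFullC k N)) :
      LaurentSeries k) = (rbar A π B.X - 1) ^ 3 * (rbar A π B.X)⁻¹ ^ 2 := by
    rw [redF_chartX2, ← B.coe_xt hπ hNk]
    rfl
  have e2 : coeffMap (frobenius k ℓ) ((rbar A π B.X - 1) ^ 3 * (rbar A π B.X)⁻¹ ^ 2) =
      (rbar A π B.X - 1) ^ 3 * (rbar A π B.X)⁻¹ ^ 2 := by
    rw [map_mul, map_pow, map_pow, map_sub, map_one, map_inv₀, hB]
  rw [e, Fermat.Agent.ESJ.Cong.FrobAut.pow_char k ℓ, e2]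

/-- **(X-rat), level 3**: if `ȳ` has coefficients in the prime field, `X̄(q^ℓ) = X̄^ℓ`. -/
theorem chartX3_rat (ℓ : ℕ) [Fact ℓ.Prime] [CharP k ℓ]
    (hB : coeffMap (frobenius k ℓ) (rbar A π B.X) = rbar A π B.X) :
    qExpand k ℓ ((redF A π N hπ hNk (chartX3 B hπ hNk) : ↥(modularFunctionFieldFullC k N)) :
        LaurentSeries k) =
      ((redF A π N hπ hNk (chartX3 B hπ hNk) : ↥(modularFunctionFieldFullC k N)) :
        LaurentSeries k) ^ ℓ := by
  have e : ((redF A π N hπ hNk (chartX3 B hπ hNk) : ↥(modularFunctionFieldFullC k N)) :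
      LaurentSeries k) =
      (rbar A π B.X ^ 2 + rbar A π B.X + 1) ^ 2 * (rbar A π B.X)⁻¹ ^ 3 := by
    rw [redF_chartX3, ← B.coe_xt hπ hNk]
    rfl
  have e2 : coeffMap (frobenius k ℓ)
      ((rbar A π B.X ^ 2 + rbar A π B.X + 1) ^ 2 * (rbar A π B.X)⁻¹ ^ 3) =
      (rbar A π B.X ^ 2 + rbar A π B.X + 1) ^ 2 * (rbar A π B.X)⁻¹ ^ 3 := by
    rw [map_mul, map_pow, map_pow, map_add, map_add, map_pow, map_one, map_inv₀, hB]
  rw [e, Fermat.Agent.ESJ.Cong.FrobAut.pow_char k ℓ, e2]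

end ChartX

/-! ### Good reduction of the charts of `X` -/

section Good

variable {L : Type*} [Field L] [Algebra ℚ L] {A : ValuationSubring L} {k : Type} [Field k]
  {π : A →+* k} {N : ℕ} [NeZero N] [IsAlgClosed L] [IsAlgClosed k]

/-- **Transport of (T3)** from the chart `{x finite, p(x) ≠ 0}` of a base function to any chart
given by conditions `CL`, `Ck` on the places of the two function fields. -/
theorem hT3_transport (B : Data A π N)
    (hπ : ∀ a : A, ¬ IsUnit a → π a = 0) (hsurj : Function.Surjective π) (hNk : (N : k) ≠ 0)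
    (hT3 : ∀ s : ↥(modularFunctionFieldFullC k N),
      (∀ Q : Place k ↥(modularFunctionFieldFullC k N), 0 ≤ Q.ord (B.xt hπ hNk) → 0 ≤ Q.ord s) →
      ∃ y : Ow A π N hNk, redF A π N hπ hNk y = s ∧
        ∀ P : Place L ↥(laurentBaseChange L (modularFunctionFieldFull N)),
          0 ≤ P.ord B.x → 0 ≤ P.ord (y : ↥(laurentBaseChange L (modularFunctionFieldFull N))))
    (p : Polynomial A) (hp : p.map π ≠ 0)
    (CL : Place L ↥(laurentBaseChange L (modularFunctionFieldFull N)) → Prop)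
    (Ck : Place k ↥(modularFunctionFieldFullC k N) → Prop)
    (hL : ∀ P, CL P → 0 ≤ P.ord B.x ∧ P.ord (Polynomial.aeval B.x (p.map A.subtype)) = 0)
    (hk : ∀ Q : Place k ↥(modularFunctionFieldFullC k N), 0 ≤ Q.ord (B.xt hπ hNk) →
      Q.ord (Polynomial.aeval (B.xt hπ hNk) (p.map π)) = 0 → Ck Q) :
    ∀ s : ↥(modularFunctionFieldFullC k N),
      (∀ Q : Place k ↥(modularFunctionFieldFullC k N), Ck Q → 0 ≤ Q.ord s) →
      ∃ y : Ow A π N hNk, redF A π N hπ hNk y = s ∧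
        ∀ P : Place L ↥(laurentBaseChange L (modularFunctionFieldFull N)),
          CL P → 0 ≤ P.ord (y : ↥(laurentBaseChange L (modularFunctionFieldFull N))) := by
  intro s hs
  obtain ⟨y, hy, hreg⟩ := hT3_localize B hπ hsurj hNk hT3 p hp s
    (fun Q hQ hQw => hs Q (hk Q hQ hQw))
  exact ⟨y, hy, fun P hP => hreg P (hL P hP).1 (hL P hP).2⟩

variable (B : Data A π N) (hπ : ∀ a : A, ¬ IsUnit a → π a = 0) (hsurj : Function.Surjective π)
  (hNk : (N : k) ≠ 0)

/-! #### Level 2 -/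

omit [IsAlgClosed L] [IsAlgClosed k] in
/-- The charts of `X = (y - 1)³ / y²` on the generic fibre. -/
theorem chartX2_chart (P : Place L ↥(laurentBaseChange L (modularFunctionFieldFull N))) :
    (0 ≤ P.ord ((chartX2 B hπ hNk : Ow A π N hNk) :
        ↥(laurentBaseChange L (modularFunctionFieldFull N))) ↔ P.ord B.x = 0) ∧
    (P.ord ((chartX2 B hπ hNk : Ow A π N hNk) :
        ↥(laurentBaseChange L (modularFunctionFieldFull N))) ≤ 0 ↔
      0 ≤ P.ord (B.x - algebraMap L _ (((1 : A) : A) : L))⁻¹) := by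
  have hrel : ((chartX2 B hπ hNk : Ow A π N hNk) :
      ↥(laurentBaseChange L (modularFunctionFieldFull N))) * B.x ^ 2 =
      (B.x - algebraMap L _ (((1 : A) : A) : L)) ^ 3 := by
    rw [OneMemClass.coe_one, map_one]
    exact chartX2_rel B hπ hNk
  exact chart2 P (((1 : A) : A) : L) (by rw [OneMemClass.coe_one]; exact one_ne_zero)
    (B.x_ne_zero hπ hNk) (x_sub_ne_zero B hπ hNk _) hrel

omit [IsAlgClosed L] [IsAlgClosed k] in
/-- The charts of `X̄ = (ȳ - 1)³ / ȳ²` on the special fibre. -/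
theorem redF_chartX2_chart (Q : Place k ↥(modularFunctionFieldFullC k N)) :
    (0 ≤ Q.ord (redF A π N hπ hNk (chartX2 B hπ hNk)) ↔ Q.ord (B.xt hπ hNk) = 0) ∧
    (Q.ord (redF A π N hπ hNk (chartX2 B hπ hNk)) ≤ 0 ↔
      0 ≤ Q.ord (B.xt hπ hNk - algebraMap k _ (π 1))⁻¹) := by
  have hrel : redF A π N hπ hNk (chartX2 B hπ hNk) * B.xt hπ hNk ^ 2 =
      (B.xt hπ hNk - algebraMap k _ (π 1)) ^ 3 := by
    rw [map_one, map_one]
    exact redF_chartX2_rel B hπ hNk
  exact chart2 Q (π 1) (by rw [map_one]; exact one_ne_zero)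
    (xt_ne_zero B hπ hNk) (xt_sub_ne_zero B hπ hNk _) hrel

include hsurj in
/-- **(X-FF), level 2, generic fibre.** -/
theorem chartX2_isFF1 :
    IsFF1 L ↥(laurentBaseChange L (modularFunctionFieldFull N))
      ((chartX2 B hπ hNk : Ow A π N hNk) :
        ↥(laurentBaseChange L (modularFunctionFieldFull N))) :=
  isFF1_of_chart (InstGenusX.isFF1_x B hπ hsurj hNk)
    (fun v hv => (chartX2_chart B hπ hNk v).1.mp hv)

include hsurj in
/-- **(X-FF), level 2, special fibre.** -/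
theorem redF_chartX2_isFF1 :
    IsFF1 k ↥(modularFunctionFieldFullC k N) (redF A π N hπ hNk (chartX2 B hπ hNk)) :=
  isFF1_of_chart (InstGenusX.isFF1_xt B hπ hsurj hNk)
    (fun v hv => (redF_chartX2_chart B hπ hNk v).1.mp hv)

include hsurj in
/-- **(X-T3), level 2**: the chart `{X finite} = {y ≠ 0, ∞}` has good reduction. -/
theorem chartX2_hT3
    (hT3 : ∀ s : ↥(modularFunctionFieldFullC k N),
      (∀ Q : Place k ↥(modularFunctionFieldFullC k N), 0 ≤ Q.ord (B.xt hπ hNk) → 0 ≤ Q.ord s) →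
      ∃ y : Ow A π N hNk, redF A π N hπ hNk y = s ∧
        ∀ P : Place L ↥(laurentBaseChange L (modularFunctionFieldFull N)),
          0 ≤ P.ord B.x → 0 ≤ P.ord (y : ↥(laurentBaseChange L (modularFunctionFieldFull N)))) :
    ∀ s : ↥(modularFunctionFieldFullC k N),
      (∀ Q : Place k ↥(modularFunctionFieldFullC k N),
        0 ≤ Q.ord (redF A π N hπ hNk (chartX2 B hπ hNk)) → 0 ≤ Q.ord s) →
      ∃ y : Ow A π N hNk, redF A π N hπ hNk y = s ∧
        ∀ P : Place L ↥(laurentBaseChange L (modularFunctionFieldFull N)),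
          0 ≤ P.ord ((chartX2 B hπ hNk : Ow A π N hNk) :
            ↥(laurentBaseChange L (modularFunctionFieldFull N))) →
          0 ≤ P.ord (y : ↥(laurentBaseChange L (modularFunctionFieldFull N))) := by
  refine hT3_transport B hπ hsurj hNk hT3 Polynomial.X
    (by rw [Polynomial.map_X]; exact Polynomial.X_ne_zero)
    (fun P => 0 ≤ P.ord ((chartX2 B hπ hNk : Ow A π N hNk) :
      ↥(laurentBaseChange L (modularFunctionFieldFull N))))
    (fun Q => 0 ≤ Q.ord (redF A π N hπ hNk (chartX2 B hπ hNk))) ?_ ?_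
  · intro P hP
    have h0 := (chartX2_chart B hπ hNk P).1.mp hP
    rw [Polynomial.map_X, Polynomial.aeval_X]
    exact ⟨h0.ge, h0⟩
  · intro Q _ hQ
    rw [Polynomial.map_X, Polynomial.aeval_X] at hQ
    exact (redF_chartX2_chart B hπ hNk Q).1.mpr hQ

include hsurj in
/-- **(X-T3'), level 2**: the chart `{X ≠ 0} = {y ≠ 1}` has good reduction, from (T3) for the
Möbius datum `(y - 1)⁻¹`. -/
theorem chartX2_hT3' (Y : LaurentSeries A) (hY : Y * (B.X - HahnSeries.C (1 : A)) = 1)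
    (hT3 : ∀ s : ↥(modularFunctionFieldFullC k N),
      (∀ Q : Place k ↥(modularFunctionFieldFullC k N),
        0 ≤ Q.ord ((mobius B 1 Y hY).xt hπ hNk) → 0 ≤ Q.ord s) →
      ∃ y : Ow A π N hNk, redF A π N hπ hNk y = s ∧
        ∀ P : Place L ↥(laurentBaseChange L (modularFunctionFieldFull N)),
          0 ≤ P.ord (mobius B 1 Y hY).x →
            0 ≤ P.ord (y : ↥(laurentBaseChange L (modularFunctionFieldFull N)))) :
    ∀ s : ↥(modularFunctionFieldFullC k N),
      (∀ Q : Place k ↥(modularFunctionFieldFullC k N),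
        Q.ord (redF A π N hπ hNk (chartX2 B hπ hNk)) ≤ 0 → 0 ≤ Q.ord s) →
      ∃ y : Ow A π N hNk, redF A π N hπ hNk y = s ∧
        ∀ P : Place L ↥(laurentBaseChange L (modularFunctionFieldFull N)),
          P.ord ((chartX2 B hπ hNk : Ow A π N hNk) :
            ↥(laurentBaseChange L (modularFunctionFieldFull N))) ≤ 0 →
          0 ≤ P.ord (y : ↥(laurentBaseChange L (modularFunctionFieldFull N))) := by
  refine hT3_transport (mobius B 1 Y hY) hπ hsurj hNk hT3 1
    (by rw [Polynomial.map_one]; exact one_ne_zero)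
    (fun P => P.ord ((chartX2 B hπ hNk : Ow A π N hNk) :
      ↥(laurentBaseChange L (modularFunctionFieldFull N))) ≤ 0)
    (fun Q => Q.ord (redF A π N hπ hNk (chartX2 B hπ hNk)) ≤ 0) ?_ ?_
  · intro P hP
    have h0 := (chartX2_chart B hπ hNk P).2.mp hP
    rw [Polynomial.map_one, map_one, P.ord_one, mobius_x]
    exact ⟨h0, rfl⟩
  · intro Q hQ _
    rw [mobius_xt] at hQ
    exact (redF_chartX2_chart B hπ hNk Q).2.mpr hQ

/-! #### Level 3 -/

omit [IsAlgClosed L] [IsAlgClosed k] in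
/-- The charts of `X = (y² + y + 1)² / y³` on the generic fibre. -/
theorem chartX3_chart (ω : A) (hω : ω ^ 2 + ω + 1 = 0)
    (P : Place L ↥(laurentBaseChange L (modularFunctionFieldFull N))) :
    (0 ≤ P.ord ((chartX3 B hπ hNk : Ow A π N hNk) :
        ↥(laurentBaseChange L (modularFunctionFieldFull N))) ↔ P.ord B.x = 0) ∧
    (P.ord ((chartX3 B hπ hNk : Ow A π N hNk) :
        ↥(laurentBaseChange L (modularFunctionFieldFull N))) ≤ 0 ↔
      (0 ≤ P.ord (B.x - algebraMap L _ (ω : L))⁻¹ ∧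
        P.ord (1 + algebraMap L _ (((ω - ω ^ 2 : A) : A) : L) *
          (B.x - algebraMap L _ (ω : L))⁻¹) = 0)) := by
  have h1 : (ω : L) ^ 2 + (ω : L) + 1 = 0 := congrArg Subtype.val hω
  have hω0 : (ω : L) ≠ 0 := by
    intro h0
    rw [h0] at h1
    norm_num at h1
  have hωF := congrArg (algebraMap L ↥(laurentBaseChange L (modularFunctionFieldFull N))) h1
  rw [map_add, map_add, map_pow, map_one, map_zero] at hωF
  have hrel : ((chartX3 B hπ hNk : Ow A π N hNk) :
      ↥(laurentBaseChange L (modularFunctionFieldFull N))) * B.x ^ 3 =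
      (B.x - algebraMap L _ (ω : L)) ^ 2 * (B.x - algebraMap L _ ((ω : L) ^ 2)) ^ 2 := by
    rw [chartX3_rel B hπ hNk, map_pow, ← mul_pow]
    congr 1
    linear_combination (B.x - algebraMap L _ (ω : L) + 1) * hωF
  exact chart3 P (ω : L) ((ω : L) ^ 2) (((ω - ω ^ 2 : A) : A) : L) rfl hω0 (pow_ne_zero 2 hω0)
    (B.x_ne_zero hπ hNk) (x_sub_ne_zero B hπ hNk _) (x_sub_ne_zero B hπ hNk _) hrel

omit [IsAlgClosed L] [IsAlgClosed k] in
/-- The charts of `X̄ = (ȳ² + ȳ + 1)² / ȳ³` on the special fibre. -/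
theorem redF_chartX3_chart (ω : A) (hω : ω ^ 2 + ω + 1 = 0)
    (Q : Place k ↥(modularFunctionFieldFullC k N)) :
    (0 ≤ Q.ord (redF A π N hπ hNk (chartX3 B hπ hNk)) ↔ Q.ord (B.xt hπ hNk) = 0) ∧
    (Q.ord (redF A π N hπ hNk (chartX3 B hπ hNk)) ≤ 0 ↔
      (0 ≤ Q.ord (B.xt hπ hNk - algebraMap k _ (π ω))⁻¹ ∧
        Q.ord (1 + algebraMap k _ (π (ω - ω ^ 2)) *
          (B.xt hπ hNk - algebraMap k _ (π ω))⁻¹) = 0)) := by
  have h1 : π ω ^ 2 + π ω + 1 = 0 := by
    have := congrArg π hω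
    rwa [map_add, map_add, map_pow, map_one, map_zero] at this
  have hω0 : π ω ≠ 0 := by
    intro h0
    rw [h0] at h1
    norm_num at h1
  have hωF := congrArg (algebraMap k ↥(modularFunctionFieldFullC k N)) h1
  rw [map_add, map_add, map_pow, map_one, map_zero] at hωF
  have hrel : redF A π N hπ hNk (chartX3 B hπ hNk) * B.xt hπ hNk ^ 3 =
      (B.xt hπ hNk - algebraMap k _ (π ω)) ^ 2 *
        (B.xt hπ hNk - algebraMap k _ (π ω ^ 2)) ^ 2 := by
    rw [redF_chartX3_rel B hπ hNk, map_pow, ← mul_pow]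
    congr 1
    linear_combination (B.xt hπ hNk - algebraMap k _ (π ω) + 1) * hωF
  exact chart3 Q (π ω) (π ω ^ 2) (π (ω - ω ^ 2)) (by rw [map_sub, map_pow]) hω0
    (pow_ne_zero 2 hω0) (xt_ne_zero B hπ hNk) (xt_sub_ne_zero B hπ hNk _)
    (xt_sub_ne_zero B hπ hNk _) hrel

include hsurj in
/-- **(X-FF), level 3, generic fibre.** -/
theorem chartX3_isFF1 (ω : A) (hω : ω ^ 2 + ω + 1 = 0) :
    IsFF1 L ↥(laurentBaseChange L (modularFunctionFieldFull N))
      ((chartX3 B hπ hNk : Ow A π N hNk) :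
        ↥(laurentBaseChange L (modularFunctionFieldFull N))) :=
  isFF1_of_chart (InstGenusX.isFF1_x B hπ hsurj hNk)
    (fun v hv => (chartX3_chart B hπ hNk ω hω v).1.mp hv)

include hsurj in
/-- **(X-FF), level 3, special fibre.** -/
theorem redF_chartX3_isFF1 (ω : A) (hω : ω ^ 2 + ω + 1 = 0) :
    IsFF1 k ↥(modularFunctionFieldFullC k N) (redF A π N hπ hNk (chartX3 B hπ hNk)) :=
  isFF1_of_chart (InstGenusX.isFF1_xt B hπ hsurj hNk)
    (fun v hv => (redF_chartX3_chart B hπ hNk ω hω v).1.mp hv)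

include hsurj in
/-- **(X-T3), level 3**: the chart `{X finite} = {y ≠ 0, ∞}` has good reduction. -/
theorem chartX3_hT3 (ω : A) (hω : ω ^ 2 + ω + 1 = 0)
    (hT3 : ∀ s : ↥(modularFunctionFieldFullC k N),
      (∀ Q : Place k ↥(modularFunctionFieldFullC k N), 0 ≤ Q.ord (B.xt hπ hNk) → 0 ≤ Q.ord s) →
      ∃ y : Ow A π N hNk, redF A π N hπ hNk y = s ∧
        ∀ P : Place L ↥(laurentBaseChange L (modularFunctionFieldFull N)),
          0 ≤ P.ord B.x → 0 ≤ P.ord (y : ↥(laurentBaseChange L (modularFunctionFieldFull N)))) :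
    ∀ s : ↥(modularFunctionFieldFullC k N),
      (∀ Q : Place k ↥(modularFunctionFieldFullC k N),
        0 ≤ Q.ord (redF A π N hπ hNk (chartX3 B hπ hNk)) → 0 ≤ Q.ord s) →
      ∃ y : Ow A π N hNk, redF A π N hπ hNk y = s ∧
        ∀ P : Place L ↥(laurentBaseChange L (modularFunctionFieldFull N)),
          0 ≤ P.ord ((chartX3 B hπ hNk : Ow A π N hNk) :
            ↥(laurentBaseChange L (modularFunctionFieldFull N))) →
          0 ≤ P.ord (y : ↥(laurentBaseChange L (modularFunctionFieldFull N))) := by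
  refine hT3_transport B hπ hsurj hNk hT3 Polynomial.X
    (by rw [Polynomial.map_X]; exact Polynomial.X_ne_zero)
    (fun P => 0 ≤ P.ord ((chartX3 B hπ hNk : Ow A π N hNk) :
      ↥(laurentBaseChange L (modularFunctionFieldFull N))))
    (fun Q => 0 ≤ Q.ord (redF A π N hπ hNk (chartX3 B hπ hNk))) ?_ ?_
  · intro P hP
    have h0 := (chartX3_chart B hπ hNk ω hω P).1.mp hP
    rw [Polynomial.map_X, Polynomial.aeval_X]
    exact ⟨h0.ge, h0⟩
  · intro Q _ hQ
    rw [Polynomial.map_X, Polynomial.aeval_X] at hQ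
    exact (redF_chartX3_chart B hπ hNk ω hω Q).1.mpr hQ

include hsurj in
/-- **(X-T3'), level 3**: the chart `{X ≠ 0} = {y ≠ ω, ω²}` has good reduction, from (T3) for
the Möbius datum `(y - ω)⁻¹`. -/
theorem chartX3_hT3' (ω : A) (hω : ω ^ 2 + ω + 1 = 0) (Y : LaurentSeries A)
    (hY : Y * (B.X - HahnSeries.C ω) = 1)
    (hT3 : ∀ s : ↥(modularFunctionFieldFullC k N),
      (∀ Q : Place k ↥(modularFunctionFieldFullC k N),
        0 ≤ Q.ord ((mobius B ω Y hY).xt hπ hNk) → 0 ≤ Q.ord s) →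
      ∃ y : Ow A π N hNk, redF A π N hπ hNk y = s ∧
        ∀ P : Place L ↥(laurentBaseChange L (modularFunctionFieldFull N)),
          0 ≤ P.ord (mobius B ω Y hY).x →
            0 ≤ P.ord (y : ↥(laurentBaseChange L (modularFunctionFieldFull N)))) :
    ∀ s : ↥(modularFunctionFieldFullC k N),
      (∀ Q : Place k ↥(modularFunctionFieldFullC k N),
        Q.ord (redF A π N hπ hNk (chartX3 B hπ hNk)) ≤ 0 → 0 ≤ Q.ord s) →
      ∃ y : Ow A π N hNk, redF A π N hπ hNk y = s ∧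
        ∀ P : Place L ↥(laurentBaseChange L (modularFunctionFieldFull N)),
          P.ord ((chartX3 B hπ hNk : Ow A π N hNk) :
            ↥(laurentBaseChange L (modularFunctionFieldFull N))) ≤ 0 →
          0 ≤ P.ord (y : ↥(laurentBaseChange L (modularFunctionFieldFull N))) := by
  have hpL : ∀ u : ↥(laurentBaseChange L (modularFunctionFieldFull N)),
      Polynomial.aeval u
        ((1 + Polynomial.C (ω - ω ^ 2) * Polynomial.X : Polynomial A).map A.subtype) =
      1 + algebraMap L _ (((ω - ω ^ 2 : A) : A) : L) * u := by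
    intro u
    rw [Polynomial.map_add, Polynomial.map_one, Polynomial.map_mul, Polynomial.map_C,
      Polynomial.map_X, map_add, map_one, map_mul, Polynomial.aeval_C, Polynomial.aeval_X]
    rfl
  have hpk : ∀ u : ↥(modularFunctionFieldFullC k N),
      Polynomial.aeval u
        ((1 + Polynomial.C (ω - ω ^ 2) * Polynomial.X : Polynomial A).map π) =
      1 + algebraMap k _ (π (ω - ω ^ 2)) * u := by
    intro u
    rw [Polynomial.map_add, Polynomial.map_one, Polynomial.map_mul, Polynomial.map_C,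
      Polynomial.map_X, map_add, map_one, map_mul, Polynomial.aeval_C, Polynomial.aeval_X]
  refine hT3_transport (mobius B ω Y hY) hπ hsurj hNk hT3
    (1 + Polynomial.C (ω - ω ^ 2) * Polynomial.X) ?_
    (fun P => P.ord ((chartX3 B hπ hNk : Ow A π N hNk) :
      ↥(laurentBaseChange L (modularFunctionFieldFull N))) ≤ 0)
    (fun Q => Q.ord (redF A π N hπ hNk (chartX3 B hπ hNk)) ≤ 0) ?_ ?_
  · intro h0
    have h1 := congrArg (fun q : Polynomial k => q.coeff 0) h0
    simp at h1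
  · intro P hP
    have h0 := (chartX3_chart B hπ hNk ω hω P).2.mp hP
    rw [hpL, mobius_x]
    exact h0
  · intro Q hQ hQw
    rw [hpk, mobius_xt] at hQw
    rw [mobius_xt] at hQ
    exact (redF_chartX3_chart B hπ hNk ω hω Q).2.mpr ⟨hQ, hQw⟩

end Good

/-! ### The two Hauptmodul levels over `ℚ̄` -/

noncomputable section Instances

open Fermat.Agent.S24 Fermat.Agent.Lib.Red.HauptBase

variable {A : ValuationSubring KQ} {k : Type} [Field k] {π : A →+* k}

/-- **The chart function of level 2**: `X = (y - 1)³ / y²`, `y` the Hauptmodul of level 2 at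
level `M = m * 2`. -/
def hauptX2 (M m : ℕ) [NeZero M] [NeZero m] (hM : M = m * 2) (h2 : (2 : k) ≠ 0)
    (hπ : ∀ a : A, ¬ IsUnit a → π a = 0) (hMk : (M : k) ≠ 0) : Ow A π M hMk :=
  chartX2 (ofHaupt2 A π M m hM h2) hπ hMk

/-- **The chart function of level 3**: `X = (y² + y + 1)² / y³`, `y` the Hauptmodul of level 3
at level `M = m * 3`. -/
def hauptX3 (M m : ℕ) [NeZero M] [NeZero m] (hM : M = m * 3) (h3 : (3 : k) ≠ 0)
    (hπ : ∀ a : A, ¬ IsUnit a → π a = 0) (hMk : (M : k) ≠ 0) : Ow A π M hMk :=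
  chartX3 (ofHaupt3 A π M m hM h3) hπ hMk

section Level2

variable (M m : ℕ) [NeZero M] [NeZero m] (hM : M = m * 2) (h2 : (2 : k) ≠ 0)
  (hπ : ∀ a : A, ¬ IsUnit a → π a = 0) (hsurj : Function.Surjective π) (hMk : (M : k) ≠ 0)

theorem coe_hauptX2 :
    ((hauptX2 M m hM h2 hπ hMk : Ow A π M hMk) :
        ↥(laurentBaseChange KQ (modularFunctionFieldFull M))) =
      ((ofHaupt2 A π M m hM h2).x - 1) ^ 3 * ((ofHaupt2 A π M m hM h2).x)⁻¹ ^ 2 := rfl

theorem redF_hauptX2 :
    redF A π M hπ hMk (hauptX2 M m hM h2 hπ hMk) =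
      ((ofHaupt2 A π M m hM h2).xt hπ hMk - 1) ^ 3 *
        ((ofHaupt2 A π M m hM h2).xt hπ hMk)⁻¹ ^ 2 :=
  redF_chartX2 _ hπ hMk

/-- `X y² = (y - 1)³`. -/
theorem hauptX2_rel :
    ((hauptX2 M m hM h2 hπ hMk : Ow A π M hMk) :
        ↥(laurentBaseChange KQ (modularFunctionFieldFull M))) *
      (ofHaupt2 A π M m hM h2).x ^ 2 = ((ofHaupt2 A π M m hM h2).x - 1) ^ 3 :=
  chartX2_rel _ hπ hMk

/-- `X̄ ȳ² = (ȳ - 1)³`. -/
theorem redF_hauptX2_rel :
    redF A π M hπ hMk (hauptX2 M m hM h2 hπ hMk) * (ofHaupt2 A π M m hM h2).xt hπ hMk ^ 2 =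
      ((ofHaupt2 A π M m hM h2).xt hπ hMk - 1) ^ 3 :=
  redF_chartX2_rel _ hπ hMk

/-- **(X-unit), level 2.** -/
theorem hauptX2_unit : redF A π M hπ hMk (hauptX2 M m hM h2 hπ hMk) ≠ 0 :=
  redF_chartX2_ne_zero _ hπ hMk

/-- **(X-rat), level 2**: the reduction of `X` is `𝔽_ℓ`-rational. -/
theorem hauptX2_rat (ℓ : ℕ) [Fact ℓ.Prime] [CharP k ℓ] :
    qExpand k ℓ ((redF A π M hπ hMk (hauptX2 M m hM h2 hπ hMk) :
        ↥(modularFunctionFieldFullC k M)) : LaurentSeries k) =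
      ((redF A π M hπ hMk (hauptX2 M m hM h2 hπ hMk) : ↥(modularFunctionFieldFullC k M)) :
        LaurentSeries k) ^ ℓ := by
  refine chartX2_rat _ hπ hMk ℓ ?_
  rw [ofHaupt2_X]
  show coeffMap (frobenius k ℓ) (coeffMap π (x2S A m)) = coeffMap π (x2S A m)
  rw [coeffMap_x2S, coeffMap_x2S]

variable [IsAlgClosed k]

include hsurj in
/-- **(X-FF), level 2, generic fibre.** -/
theorem hauptX2_isFF1 :
    IsFF1 KQ ↥(laurentBaseChange KQ (modularFunctionFieldFull M))
      ((hauptX2 M m hM h2 hπ hMk : Ow A π M hMk) :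
        ↥(laurentBaseChange KQ (modularFunctionFieldFull M))) :=
  chartX2_isFF1 _ hπ hsurj hMk

include hsurj in
/-- **(X-FF), level 2, special fibre.** -/
theorem redF_hauptX2_isFF1 :
    IsFF1 k ↥(modularFunctionFieldFullC k M) (redF A π M hπ hMk (hauptX2 M m hM h2 hπ hMk)) :=
  redF_chartX2_isFF1 _ hπ hsurj hMk

include hsurj in
/-- **(X-T3), level 2**: the chart `{X finite}` has good reduction. -/
theorem hauptX2_hT3 :
    ∀ s : ↥(modularFunctionFieldFullC k M),
      (∀ Q : Place k ↥(modularFunctionFieldFullC k M),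
        0 ≤ Q.ord (redF A π M hπ hMk (hauptX2 M m hM h2 hπ hMk)) → 0 ≤ Q.ord s) →
      ∃ y : Ow A π M hMk, redF A π M hπ hMk y = s ∧
        ∀ P : Place KQ ↥(laurentBaseChange KQ (modularFunctionFieldFull M)),
          0 ≤ P.ord ((hauptX2 M m hM h2 hπ hMk : Ow A π M hMk) :
            ↥(laurentBaseChange KQ (modularFunctionFieldFull M))) →
          0 ≤ P.ord (y : ↥(laurentBaseChange KQ (modularFunctionFieldFull M))) :=
  chartX2_hT3 _ hπ hsurj hMk (DiscInst.hT3_ofHaupt2 M m hM hπ hsurj hMk h2)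

include hsurj in
/-- **(X-T3'), level 2**: the chart `{X ≠ 0}` has good reduction. -/
theorem hauptX2_hT3' :
    ∀ s : ↥(modularFunctionFieldFullC k M),
      (∀ Q : Place k ↥(modularFunctionFieldFullC k M),
        Q.ord (redF A π M hπ hMk (hauptX2 M m hM h2 hπ hMk)) ≤ 0 → 0 ≤ Q.ord s) →
      ∃ y : Ow A π M hMk, redF A π M hπ hMk y = s ∧
        ∀ P : Place KQ ↥(laurentBaseChange KQ (modularFunctionFieldFull M)),
          P.ord ((hauptX2 M m hM h2 hπ hMk : Ow A π M hMk) :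
            ↥(laurentBaseChange KQ (modularFunctionFieldFull M))) ≤ 0 →
          0 ≤ P.ord (y : ↥(laurentBaseChange KQ (modularFunctionFieldFull M))) :=
  chartX2_hT3' _ hπ hsurj hMk _ _
    (DiscInst.hT3 (mobius2 A π M m hM h2) hπ hsurj hMk (hbr_mobius2 M m hM hsurj h2))

end Level2

section Level3

variable (M m : ℕ) [NeZero M] [NeZero m] (hM : M = m * 3) (h3 : (3 : k) ≠ 0)
  (hπ : ∀ a : A, ¬ IsUnit a → π a = 0) (hsurj : Function.Surjective π) (hMk : (M : k) ≠ 0)

theorem coe_hauptX3 :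
    ((hauptX3 M m hM h3 hπ hMk : Ow A π M hMk) :
        ↥(laurentBaseChange KQ (modularFunctionFieldFull M))) =
      ((ofHaupt3 A π M m hM h3).x ^ 2 + (ofHaupt3 A π M m hM h3).x + 1) ^ 2 *
        ((ofHaupt3 A π M m hM h3).x)⁻¹ ^ 3 := rfl

theorem redF_hauptX3 :
    redF A π M hπ hMk (hauptX3 M m hM h3 hπ hMk) =
      ((ofHaupt3 A π M m hM h3).xt hπ hMk ^ 2 + (ofHaupt3 A π M m hM h3).xt hπ hMk + 1) ^ 2 *
        ((ofHaupt3 A π M m hM h3).xt hπ hMk)⁻¹ ^ 3 :=
  redF_chartX3 _ hπ hMk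

/-- `X y³ = (y² + y + 1)²`. -/
theorem hauptX3_rel :
    ((hauptX3 M m hM h3 hπ hMk : Ow A π M hMk) :
        ↥(laurentBaseChange KQ (modularFunctionFieldFull M))) *
      (ofHaupt3 A π M m hM h3).x ^ 3 =
      ((ofHaupt3 A π M m hM h3).x ^ 2 + (ofHaupt3 A π M m hM h3).x + 1) ^ 2 :=
  chartX3_rel _ hπ hMk

/-- `X̄ ȳ³ = (ȳ² + ȳ + 1)²`. -/
theorem redF_hauptX3_rel :
    redF A π M hπ hMk (hauptX3 M m hM h3 hπ hMk) * (ofHaupt3 A π M m hM h3).xt hπ hMk ^ 3 =
      ((ofHaupt3 A π M m hM h3).xt hπ hMk ^ 2 + (ofHaupt3 A π M m hM h3).xt hπ hMk + 1) ^ 2 :=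
  redF_chartX3_rel _ hπ hMk

/-- **(X-unit), level 3.** -/
theorem hauptX3_unit : redF A π M hπ hMk (hauptX3 M m hM h3 hπ hMk) ≠ 0 :=
  redF_chartX3_ne_zero _ hπ hMk

/-- **(X-rat), level 3**: the reduction of `X` is `𝔽_ℓ`-rational. -/
theorem hauptX3_rat (ℓ : ℕ) [Fact ℓ.Prime] [CharP k ℓ] :
    qExpand k ℓ ((redF A π M hπ hMk (hauptX3 M m hM h3 hπ hMk) :
        ↥(modularFunctionFieldFullC k M)) : LaurentSeries k) =
      ((redF A π M hπ hMk (hauptX3 M m hM h3 hπ hMk) : ↥(modularFunctionFieldFullC k M)) :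
        LaurentSeries k) ^ ℓ := by
  refine chartX3_rat _ hπ hMk ℓ ?_
  rw [ofHaupt3_X]
  show coeffMap (frobenius k ℓ) (coeffMap π (x3S A m)) = coeffMap π (x3S A m)
  rw [coeffMap_x3S, coeffMap_x3S]

variable [IsAlgClosed k]

include hsurj in
/-- **(X-FF), level 3, generic fibre.** -/
theorem hauptX3_isFF1 :
    IsFF1 KQ ↥(laurentBaseChange KQ (modularFunctionFieldFull M))
      ((hauptX3 M m hM h3 hπ hMk : Ow A π M hMk) :
        ↥(laurentBaseChange KQ (modularFunctionFieldFull M))) := by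
  obtain ⟨ω, hω⟩ := exists_omega A
  exact chartX3_isFF1 _ hπ hsurj hMk ω hω

include hsurj in
/-- **(X-FF), level 3, special fibre.** -/
theorem redF_hauptX3_isFF1 :
    IsFF1 k ↥(modularFunctionFieldFullC k M)
      (redF A π M hπ hMk (hauptX3 M m hM h3 hπ hMk)) := by
  obtain ⟨ω, hω⟩ := exists_omega A
  exact redF_chartX3_isFF1 _ hπ hsurj hMk ω hω

include hsurj in
/-- **(X-T3), level 3**: the chart `{X finite}` has good reduction. -/
theorem hauptX3_hT3 :
    ∀ s : ↥(modularFunctionFieldFullC k M),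
      (∀ Q : Place k ↥(modularFunctionFieldFullC k M),
        0 ≤ Q.ord (redF A π M hπ hMk (hauptX3 M m hM h3 hπ hMk)) → 0 ≤ Q.ord s) →
      ∃ y : Ow A π M hMk, redF A π M hπ hMk y = s ∧
        ∀ P : Place KQ ↥(laurentBaseChange KQ (modularFunctionFieldFull M)),
          0 ≤ P.ord ((hauptX3 M m hM h3 hπ hMk : Ow A π M hMk) :
            ↥(laurentBaseChange KQ (modularFunctionFieldFull M))) →
          0 ≤ P.ord (y : ↥(laurentBaseChange KQ (modularFunctionFieldFull M))) := by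
  obtain ⟨ω, hω⟩ := exists_omega A
  exact chartX3_hT3 _ hπ hsurj hMk ω hω (DiscInst.hT3_ofHaupt3 M m hM hπ hsurj hMk h3)

include hsurj in
/-- **(X-T3'), level 3**: the chart `{X ≠ 0}` has good reduction. -/
theorem hauptX3_hT3' :
    ∀ s : ↥(modularFunctionFieldFullC k M),
      (∀ Q : Place k ↥(modularFunctionFieldFullC k M),
        Q.ord (redF A π M hπ hMk (hauptX3 M m hM h3 hπ hMk)) ≤ 0 → 0 ≤ Q.ord s) →
      ∃ y : Ow A π M hMk, redF A π M hπ hMk y = s ∧
        ∀ P : Place KQ ↥(laurentBaseChange KQ (modularFunctionFieldFull M)),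
          P.ord ((hauptX3 M m hM h3 hπ hMk : Ow A π M hMk) :
            ↥(laurentBaseChange KQ (modularFunctionFieldFull M))) ≤ 0 →
          0 ≤ P.ord (y : ↥(laurentBaseChange KQ (modularFunctionFieldFull M))) := by
  obtain ⟨ω, hω⟩ := exists_omega A
  exact chartX3_hT3' _ hπ hsurj hMk ω hω _ _
    (DiscInst.hT3 (mobius3 A π M m hM h3 ω hω) hπ hsurj hMk
      (hbr_mobius3 M m hM hsurj h3 ω hω))

end Level3

end Instances

end Fermat.Agent.BAD.Base
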