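/-
BAD / level-M base (helper15): the chart data `IsChartBase h X` for the two Hauptmodul chart
functions `X₂ = (y - 1)³ / y²` (residue characteristic 3, `2 ∣ M`) and
`X₃ = (y² + y + 1)² / y³` (residue characteristic 2, `3 ∣ M`), from the field `basis`
(an integral good basis of the chart `X ≠ ∞`).

All other fields are discharged here: `mem`, `inv_mem`, `rat`, `gal`, `ff`, `ffRed`, `lift`,
`lift'` (`BAD/Base/HauptX`), `basis'` (`basis_inv`), and the cusp estimates (`BAD/Base/CuspX`).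
-/
import Mathlib
import Fermat.Agent.BAD.ChartBaseJ
import Fermat.Agent.BAD.Base.CuspX
import Fermat.Agent.BAD.Base.HauptX

set_option autoImplicit false
set_option linter.unusedSectionVars false

noncomputable section

namespace Fermat.Agent.BAD.Base

open Polynomial AlgebraicCurve ModularCurve Fermat.Agent.Lib.Red Fermat.Agent.Lib.FF
  Fermat.Agent.BAD.TwoVal Fermat.Agent.S24 Fermat.Agent.Lib.Red.BaseFn
  Fermat.Agent.Lib.Red.HauptBase

variable {A : ValuationSubring KQ} {k : Type} [Field k] {π : A →+* k}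
  {M ℓ : ℕ} [NeZero M] [NeZero ℓ]

/-- An element of the Gauss valuation ring with nonzero reduction has its inverse there. -/
theorem inv_mem_Ow_of_redF_ne_zero (hπ : ∀ a : A, ¬ IsUnit a → π a = 0) (hMk : (M : k) ≠ 0)
    (X : Ow A π M hMk) (hX : redF A π M hπ hMk X ≠ 0) :
    ((X : Ow A π M hMk) : ↥(laurentBaseChange KQ (modularFunctionFieldFull M)))⁻¹ ∈
      Ow A π M hMk := by
  have hu : IsUnit X := by
    by_contra hnu
    exact hX ((redF_eq_zero_iff hπ hMk _).mpr hnu)
  obtain ⟨w, hw⟩ := hu.exists_right_inv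
  have hw' : (X : ↥(laurentBaseChange KQ (modularFunctionFieldFull M))) *
      (w : ↥(laurentBaseChange KQ (modularFunctionFieldFull M))) = 1 := congrArg Subtype.val hw
  rw [← eq_inv_of_mul_eq_one_right hw']
  exact w.2

section Level2

variable (m : ℕ) [NeZero m] (hM : M = m * 2) (h2 : (2 : k) ≠ 0)

/-- The Galois action fixes the Hauptmodul of level 2. -/
theorem galois_smul_ofHaupt2 (σ : KQ ≃ₐ[ℚ] KQ) :
    arithmeticGalois (modularFunctionFieldFull M) σ • (ofHaupt2 A π M m hM h2).x =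
      (ofHaupt2 A π M m hM h2).x := by
  apply Subtype.ext
  rw [coe_arithmeticGalois_smul, coe_ofHaupt2_x, coeffMap_x2S]

/-- **`gal` for `X₂`.** -/
theorem hauptX2_gal (hπ : ∀ a : A, ¬ IsUnit a → π a = 0) (hMk : (M : k) ≠ 0)
    (σ : KQ ≃ₐ[ℚ] KQ) :
    arithmeticGalois (modularFunctionFieldFull M) σ •
        ((hauptX2 M m hM h2 hπ hMk : Ow A π M hMk) :
          ↥(laurentBaseChange KQ (modularFunctionFieldFull M))) =
      ((hauptX2 M m hM h2 hπ hMk : Ow A π M hMk) :
        ↥(laurentBaseChange KQ (modularFunctionFieldFull M))) := by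
  have hy := galois_smul_ofHaupt2 (A := A) (π := π) m hM h2 σ
  have hy' := congrArg Subtype.val hy
  rw [coe_arithmeticGalois_smul] at hy'
  have e : (((hauptX2 M m hM h2 hπ hMk : Ow A π M hMk) :
      ↥(laurentBaseChange KQ (modularFunctionFieldFull M))) : LaurentSeries KQ) =
      ((((ofHaupt2 A π M m hM h2).x : ↥(laurentBaseChange KQ (modularFunctionFieldFull M))) :
        LaurentSeries KQ) - 1) ^ 3 *
      (((ofHaupt2 A π M m hM h2).x : ↥(laurentBaseChange KQ (modularFunctionFieldFull M))) :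
        LaurentSeries KQ)⁻¹ ^ 2 := rfl
  apply Subtype.ext
  rw [coe_arithmeticGalois_smul, e, map_mul, map_pow, map_pow, map_sub, map_one, map_inv₀, hy']

/-- **The chart datum `X₂ = (y - 1)³ / y²`** (Hauptmodul of level 2, `M = m * 2`), from an
integral good basis of the chart `X₂ ≠ ∞`. -/
theorem isChartBase_haupt2_of_basis [IsAlgClosed k] (h : BadSetup A π M ℓ)
    (hsurj : Function.Surjective π)
    (hbasis : ∃ (n : ℕ) (b : Fin n → Ow A π M h.hMk),
      (∀ i, ∀ P : Place KQ ↥(laurentBaseChange KQ (modularFunctionFieldFull M)),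
        0 ≤ P.ord ((hauptX2 M m hM h2 h.hπ h.hMk : Ow A π M h.hMk) :
            ↥(laurentBaseChange KQ (modularFunctionFieldFull M))) →
          0 ≤ P.ord (b i : ↥(laurentBaseChange KQ (modularFunctionFieldFull M)))) ∧
      (∀ v : ↥(laurentBaseChange KQ (modularFunctionFieldFull M)),
        ∃ (D : KQ[X]) (e : Fin n → KQ[X]), D ≠ 0 ∧
          aeval ((hauptX2 M m hM h2 h.hπ h.hMk : Ow A π M h.hMk) :
            ↥(laurentBaseChange KQ (modularFunctionFieldFull M))) D * v =
          ∑ i, aeval ((hauptX2 M m hM h2 h.hπ h.hMk : Ow A π M h.hMk) :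
            ↥(laurentBaseChange KQ (modularFunctionFieldFull M))) (e i) *
            (b i : ↥(laurentBaseChange KQ (modularFunctionFieldFull M)))) ∧
      (∀ g : Fin n → k[X],
        ∑ i, aeval (redF A π M h.hπ h.hMk (hauptX2 M m hM h2 h.hπ h.hMk)) (g i) *
          redF A π M h.hπ h.hMk (b i) = 0 → ∀ i, g i = 0)) :
    IsChartBase h ((hauptX2 M m hM h2 h.hπ h.hMk : Ow A π M h.hMk) :
      ↥(laurentBaseChange KQ (modularFunctionFieldFull M))) := by
  have : Fact ℓ.Prime := ⟨h.hℓ⟩
  have : CharP k ℓ := h.charP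
  have hmem : ((hauptX2 M m hM h2 h.hπ h.hMk : Ow A π M h.hMk) :
      ↥(laurentBaseChange KQ (modularFunctionFieldFull M))) ∈ Ow A π M h.hMk :=
    (hauptX2 M m hM h2 h.hπ h.hMk).2
  have hinv := inv_mem_Ow_of_redF_ne_zero h.hπ h.hMk _ (hauptX2_unit M m hM h2 h.hπ h.hMk)
  have hff := hauptX2_isFF1 M m hM h2 h.hπ hsurj h.hMk
  have hrel := hauptX2_rel M m hM h2 h.hπ h.hMk
  exact
    { mem := hmem
      inv_mem := hinv
      rat := hauptX2_rat M m hM h2 h.hπ h.hMk ℓ
      gal := fun σ => hauptX2_gal m hM h2 h.hπ h.hMk σ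
      ff := hff
      ffRed := redF_hauptX2_isFF1 M m hM h2 h.hπ hsurj h.hMk
      lift := hauptX2_hT3 M m hM h2 h.hπ hsurj h.hMk
      lift' := hauptX2_hT3' M m hM h2 h.hπ hsurj h.hMk
      basis := hbasis
      basis' := basis_inv h hmem hinv hff hbasis
      pole_iff := fun P => CuspX.pole_iff_haupt2 A π M m hM h2 h.hℓ hrel P
      ord_beta_ge := fun P hP => CuspX.ord_beta_ge_haupt2 A π M m hM h2 h.hℓ hrel P hP
      ord_alpha_ge := fun P hP => CuspX.ord_alpha_ge_haupt2 A π M m hM h2 h.hℓ hrel P hP }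

end Level2

section Level3

variable (m : ℕ) [NeZero m] (hM : M = m * 3) (h3 : (3 : k) ≠ 0)

/-- The Galois action fixes the Hauptmodul of level 3. -/
theorem galois_smul_ofHaupt3 (σ : KQ ≃ₐ[ℚ] KQ) :
    arithmeticGalois (modularFunctionFieldFull M) σ • (ofHaupt3 A π M m hM h3).x =
      (ofHaupt3 A π M m hM h3).x := by
  apply Subtype.ext
  rw [coe_arithmeticGalois_smul, coe_ofHaupt3_x, coeffMap_x3S]

/-- **`gal` for `X₃`.** -/
theorem hauptX3_gal (hπ : ∀ a : A, ¬ IsUnit a → π a = 0) (hMk : (M : k) ≠ 0)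
    (σ : KQ ≃ₐ[ℚ] KQ) :
    arithmeticGalois (modularFunctionFieldFull M) σ •
        ((hauptX3 M m hM h3 hπ hMk : Ow A π M hMk) :
          ↥(laurentBaseChange KQ (modularFunctionFieldFull M))) =
      ((hauptX3 M m hM h3 hπ hMk : Ow A π M hMk) :
        ↥(laurentBaseChange KQ (modularFunctionFieldFull M))) := by
  have hy := galois_smul_ofHaupt3 (A := A) (π := π) m hM h3 σ
  have hy' := congrArg Subtype.val hy
  rw [coe_arithmeticGalois_smul] at hy'
  have e : (((hauptX3 M m hM h3 hπ hMk : Ow A π M hMk) :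
      ↥(laurentBaseChange KQ (modularFunctionFieldFull M))) : LaurentSeries KQ) =
      ((((ofHaupt3 A π M m hM h3).x : ↥(laurentBaseChange KQ (modularFunctionFieldFull M))) :
        LaurentSeries KQ) ^ 2 +
        (((ofHaupt3 A π M m hM h3).x : ↥(laurentBaseChange KQ (modularFunctionFieldFull M))) :
          LaurentSeries KQ) + 1) ^ 2 *
      (((ofHaupt3 A π M m hM h3).x : ↥(laurentBaseChange KQ (modularFunctionFieldFull M))) :
        LaurentSeries KQ)⁻¹ ^ 3 := rfl
  apply Subtype.ext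
  rw [coe_arithmeticGalois_smul, e, map_mul, map_pow, map_pow, map_add, map_add, map_pow,
    map_one, map_inv₀, hy']

/-- **The chart datum `X₃ = (y² + y + 1)² / y³`** (Hauptmodul of level 3, `M = m * 3`), from an
integral good basis of the chart `X₃ ≠ ∞`. -/
theorem isChartBase_haupt3_of_basis [IsAlgClosed k] (h : BadSetup A π M ℓ)
    (hsurj : Function.Surjective π)
    (hbasis : ∃ (n : ℕ) (b : Fin n → Ow A π M h.hMk),
      (∀ i, ∀ P : Place KQ ↥(laurentBaseChange KQ (modularFunctionFieldFull M)),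
        0 ≤ P.ord ((hauptX3 M m hM h3 h.hπ h.hMk : Ow A π M h.hMk) :
            ↥(laurentBaseChange KQ (modularFunctionFieldFull M))) →
          0 ≤ P.ord (b i : ↥(laurentBaseChange KQ (modularFunctionFieldFull M)))) ∧
      (∀ v : ↥(laurentBaseChange KQ (modularFunctionFieldFull M)),
        ∃ (D : KQ[X]) (e : Fin n → KQ[X]), D ≠ 0 ∧
          aeval ((hauptX3 M m hM h3 h.hπ h.hMk : Ow A π M h.hMk) :
            ↥(laurentBaseChange KQ (modularFunctionFieldFull M))) D * v =
          ∑ i, aeval ((hauptX3 M m hM h3 h.hπ h.hMk : Ow A π M h.hMk) :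
            ↥(laurentBaseChange KQ (modularFunctionFieldFull M))) (e i) *
            (b i : ↥(laurentBaseChange KQ (modularFunctionFieldFull M)))) ∧
      (∀ g : Fin n → k[X],
        ∑ i, aeval (redF A π M h.hπ h.hMk (hauptX3 M m hM h3 h.hπ h.hMk)) (g i) *
          redF A π M h.hπ h.hMk (b i) = 0 → ∀ i, g i = 0)) :
    IsChartBase h ((hauptX3 M m hM h3 h.hπ h.hMk : Ow A π M h.hMk) :
      ↥(laurentBaseChange KQ (modularFunctionFieldFull M))) := by
  have : Fact ℓ.Prime := ⟨h.hℓ⟩
  have : CharP k ℓ := h.charP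
  have hmem : ((hauptX3 M m hM h3 h.hπ h.hMk : Ow A π M h.hMk) :
      ↥(laurentBaseChange KQ (modularFunctionFieldFull M))) ∈ Ow A π M h.hMk :=
    (hauptX3 M m hM h3 h.hπ h.hMk).2
  have hinv := inv_mem_Ow_of_redF_ne_zero h.hπ h.hMk _ (hauptX3_unit M m hM h3 h.hπ h.hMk)
  have hff := hauptX3_isFF1 M m hM h3 h.hπ hsurj h.hMk
  have hrel := hauptX3_rel M m hM h3 h.hπ h.hMk
  exact
    { mem := hmem
      inv_mem := hinv
      rat := hauptX3_rat M m hM h3 h.hπ h.hMk ℓ
      gal := fun σ => hauptX3_gal m hM h3 h.hπ h.hMk σ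
      ff := hff
      ffRed := redF_hauptX3_isFF1 M m hM h3 h.hπ hsurj h.hMk
      lift := hauptX3_hT3 M m hM h3 h.hπ hsurj h.hMk
      lift' := hauptX3_hT3' M m hM h3 h.hπ hsurj h.hMk
      basis := hbasis
      basis' := basis_inv h hmem hinv hff hbasis
      pole_iff := fun P => CuspX.pole_iff_haupt3 A π M m hM h3 h.hℓ hrel P
      ord_beta_ge := fun P hP => CuspX.ord_beta_ge_haupt3 A π M m hM h3 h.hℓ hrel P hP
      ord_alpha_ge := fun P hP => CuspX.ord_alpha_ge_haupt3 A π M m hM h3 h.hℓ hrel P hP }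

end Level3

end Fermat.Agent.BAD.Base
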