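import Mathlib

/-!
# BAD: the tower `K(t) / K(R)` for `R = P(t) / t^a`

Pure algebra (Mathlib only).  Let `t` be an element of a field extension `E / K`, `P ∈ K[X]` of
degree `a + b` with `b > 0`, and `R ∈ E` with `R · t^a = P(t)`.

* `tower_span` : every element of `K(t)` is a `K(R)`-combination of `1, t, …, t^(a+b-1)`
  (with a common polynomial denominator `D(R)`);
* `tower_indep` : if `t` is transcendental and (`a = 0` or `P(0) ≠ 0`), the powers
  `1, t, …, t^(a+b-1)` are linearly independent over `K[R]`;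
* `family_span`, `family_indep` : the same for a family `β j · t^s` built from a family `β`
  spanning over `K(t)` resp. independent over `K(t)`.

Used for the Hauptmodul chart functions `X = (y - 1)³ / y²`, `X = (y² + y + 1)² / y³` and their
inverses (`BAD/Base/TowerX.lean`).
-/

set_option autoImplicit false

noncomputable section

namespace Fermat.Agent.BAD.TowerX

open Polynomial IntermediateField

section PolyIndep

variable {K : Type*} [Field K]

/-- The polynomial identity behind `tower_indep`: if `∑_{i ≤ D} G_i · P^i · X^(a (D - i)) = 0`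
with `deg G_i < a + b = deg P`, `b > 0` and `X ∤ P` (or `a = 0`), then all `G_i` vanish. -/
theorem poly_indep (P : K[X]) (a b : ℕ) (hb : 0 < b) (hdeg : P.natDegree = a + b)
    (h0 : a = 0 ∨ P.coeff 0 ≠ 0) :
    ∀ (D : ℕ) (G : ℕ → K[X]), (∀ i, (G i).natDegree < a + b) →
      ∑ i ∈ Finset.range (D + 1), G i * P ^ i * X ^ (a * (D - i)) = 0 →
      ∀ i, i ≤ D → G i = 0 := by
  have hP0 : P ≠ 0 := by
    rintro rfl
    rw [natDegree_zero] at hdeg
    omega
  have hXP : ∀ (H : K[X]) (n : ℕ), (X : K[X]) ^ a ∣ H * P ^ n → (X : K[X]) ^ a ∣ H := by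
    intro H n hdvd
    rcases h0 with h0 | h0
    · rw [h0, pow_zero]
      exact one_dvd _
    · refine Prime.pow_dvd_of_dvd_mul_right prime_X a (fun h => h0 ?_) hdvd
      exact X_dvd_iff.1 (prime_X.dvd_of_dvd_pow h)
  intro D
  induction D with
  | zero =>
    intro G _ hsum i hi
    have hi0 : i = 0 := Nat.le_zero.1 hi
    subst hi0
    simpa using hsum
  | succ D ih =>
    intro G hG hsum i hi
    rw [Finset.sum_range_succ] at hsum
    have hlast : G (D + 1) * P ^ (D + 1) * X ^ (a * (D + 1 - (D + 1))) =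
        G (D + 1) * P ^ (D + 1) := by
      rw [Nat.sub_self, mul_zero, pow_zero, mul_one]
    have hfirst : ∑ i ∈ Finset.range (D + 1), G i * P ^ i * X ^ (a * (D + 1 - i)) =
        X ^ a * ∑ i ∈ Finset.range (D + 1), G i * P ^ i * X ^ (a * (D - i)) := by
      rw [Finset.mul_sum]
      refine Finset.sum_congr rfl fun i hi => ?_
      have hi' : D + 1 - i = (D - i) + 1 := by
        have := Finset.mem_range.1 hi
        omega
      rw [hi', mul_add, mul_one, pow_add]
      ring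
    rw [hfirst, hlast] at hsum
    obtain ⟨S, hS⟩ : ∃ S, S = ∑ i ∈ Finset.range (D + 1), G i * P ^ i * X ^ (a * (D - i)) :=
      ⟨_, rfl⟩
    rw [← hS] at hsum
    have hSdeg : S.natDegree ≤ (a + b) * D + a + b - 1 := by
      rw [hS]
      refine natDegree_sum_le_of_forall_le _ _ fun i hi => ?_
      have hiD : i ≤ D := Nat.lt_succ_iff.1 (Finset.mem_range.1 hi)
      have h1 : (G i * P ^ i * X ^ (a * (D - i))).natDegree ≤
          (G i).natDegree + i * P.natDegree + a * (D - i) := by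
        refine natDegree_mul_le.trans ?_
        rw [natDegree_X_pow]
        refine Nat.add_le_add_right (natDegree_mul_le.trans ?_) _
        exact Nat.add_le_add_left natDegree_pow_le _
      have h2 := hG i
      rw [hdeg] at h1
      obtain ⟨j, rfl⟩ := Nat.exists_eq_add_of_le hiD
      rw [Nat.add_sub_cancel_left] at h1 ⊢
      have h3 : i * (a + b) + a * j ≤ (a + b) * (i + j) := by nlinarith [Nat.zero_le (b * j)]
      omega
    have hGD : G (D + 1) = 0 := by
      by_contra hne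
      have heq : G (D + 1) * P ^ (D + 1) = X ^ a * (-S) := by linear_combination hsum
      have hdvd : (X : K[X]) ^ a ∣ G (D + 1) := hXP _ (D + 1) ⟨-S, heq⟩
      have hdegG : a ≤ (G (D + 1)).natDegree := by
        have := natDegree_le_of_dvd hdvd hne
        rwa [natDegree_X_pow] at this
      have hl : (G (D + 1) * P ^ (D + 1)).natDegree =
          (G (D + 1)).natDegree + (D + 1) * (a + b) := by
        rw [natDegree_mul hne (pow_ne_zero _ hP0), natDegree_pow, hdeg]
      have hr : (X ^ a * (-S) : K[X]).natDegree ≤ a + ((a + b) * D + a + b - 1) := by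
        refine natDegree_mul_le.trans ?_
        rw [natDegree_X_pow, natDegree_neg]
        exact Nat.add_le_add_left hSdeg _
      rw [← heq, hl] at hr
      have h4 : (D + 1) * (a + b) = (a + b) * D + a + b := by ring
      omega
    have hS0 : S = 0 := by
      rw [hGD, zero_mul, add_zero] at hsum
      exact (mul_eq_zero.1 hsum).resolve_left (pow_ne_zero _ X_ne_zero)
    rcases Nat.lt_or_ge i (D + 1) with hi' | hi'
    · exact ih G hG (hS ▸ hS0) i (Nat.lt_succ_iff.1 hi')
    · have : i = D + 1 := le_antisymm hi hi'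
      rw [this]
      exact hGD

end PolyIndep

section Tower

variable {K E : Type*} [Field K] [Field E] [Algebra K E] {t R : E}

/-- **Independence.**  If `t` is transcendental over `K`, `R · t^a = P(t)` with
`deg P = a + b`, `b > 0`, and `a = 0` or `P(0) ≠ 0`, then `1, t, …, t^(a+b-1)` are linearly
independent over `K[R]`. -/
theorem tower_indep (ht : Transcendental K t) (P : K[X]) (a b : ℕ) (hb : 0 < b)
    (hdeg : P.natDegree = a + b) (h0 : a = 0 ∨ P.coeff 0 ≠ 0) (hrel : R * t ^ a = aeval t P)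
    (g : Fin (a + b) → K[X]) (hg : ∑ s, aeval R (g s) * t ^ (s : ℕ) = 0) : ∀ s, g s = 0 := by
  obtain ⟨D, hD⟩ : ∃ D, D = Finset.univ.sup (fun s => (g s).natDegree) := ⟨_, rfl⟩
  have hgD : ∀ s, (g s).natDegree < D + 1 := fun s =>
    Nat.lt_succ_of_le (hD ▸ Finset.le_sup (f := fun s => (g s).natDegree) (Finset.mem_univ s))
  obtain ⟨G, hGdef⟩ : ∃ G : ℕ → K[X],
      G = fun i => ∑ s : Fin (a + b), C ((g s).coeff i) * X ^ (s : ℕ) := ⟨_, rfl⟩
  have hGdeg : ∀ i, (G i).natDegree < a + b := by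
    intro i
    have h1 : (G i).natDegree ≤ a + b - 1 := by
      rw [hGdef]
      refine natDegree_sum_le_of_forall_le _ _ fun s _ => ?_
      refine (natDegree_C_mul_X_pow_le _ _).trans ?_
      have := s.2
      omega
    omega
  have hGcoeff : ∀ i (s : Fin (a + b)), (G i).coeff (s : ℕ) = (g s).coeff i := by
    intro i s
    rw [hGdef]
    simp only [finsetSum_coeff, coeff_C_mul_X_pow]
    rw [Finset.sum_eq_single s]
    · rw [if_pos rfl]
    · intro s' _ hne
      rw [if_neg]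
      exact fun h => hne (Fin.ext h.symm)
    · intro h
      exact absurd (Finset.mem_univ s) h
  have hpow : ∀ i, i ≤ D → (aeval t P) ^ i * t ^ (a * (D - i)) = R ^ i * t ^ (a * D) := by
    intro i hi
    obtain ⟨j, rfl⟩ := Nat.exists_eq_add_of_le hi
    rw [← hrel, Nat.add_sub_cancel_left, mul_pow, ← pow_mul, mul_assoc, ← pow_add]
    congr 2
    ring
  have hkey : aeval t (∑ i ∈ Finset.range (D + 1), G i * P ^ i * X ^ (a * (D - i))) = 0 := by
    have h1 : aeval t (∑ i ∈ Finset.range (D + 1), G i * P ^ i * X ^ (a * (D - i))) =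
        t ^ (a * D) * ∑ s, aeval R (g s) * t ^ (s : ℕ) := by
      rw [map_sum, Finset.mul_sum]
      have h2 : ∀ s : Fin (a + b), t ^ (a * D) * (aeval R (g s) * t ^ (s : ℕ)) =
          ∑ i ∈ Finset.range (D + 1),
            algebraMap K E ((g s).coeff i) * t ^ (s : ℕ) * (R ^ i * t ^ (a * D)) := by
        intro s
        rw [aeval_eq_sum_range' (hgD s), Finset.sum_mul, Finset.mul_sum]
        refine Finset.sum_congr rfl fun i _ => ?_
        rw [Algebra.smul_def]
        ring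
      rw [Finset.sum_congr rfl fun s _ => h2 s, Finset.sum_comm]
      refine Finset.sum_congr rfl fun i hi => ?_
      have hiD : i ≤ D := Nat.lt_succ_iff.1 (Finset.mem_range.1 hi)
      rw [map_mul, map_mul, map_pow, map_pow, aeval_X, mul_assoc, hpow i hiD, hGdef, map_sum,
        Finset.sum_mul]
      refine Finset.sum_congr rfl fun s _ => ?_
      rw [map_mul, aeval_C, map_pow, aeval_X]
    rw [h1, hg, mul_zero]
  have hzero := poly_indep P a b hb hdeg h0 D G hGdeg (transcendental_iff.1 ht _ hkey)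
  intro s
  ext i
  rw [coeff_zero]
  rcases Nat.lt_or_ge D i with hi | hi
  · exact coeff_eq_zero_of_natDegree_lt (lt_of_lt_of_le (hgD s) hi)
  · rw [← hGcoeff i s, hzero i hi, coeff_zero]

/-- **Spanning.**  If `R · t^a = P(t)` with `deg P = a + b`, `b > 0`, then every element of
`K(t)` is of the form `(∑_{s < a + b} e_s(R) t^s) / D(R)`. -/
theorem tower_span (P : K[X]) (a b : ℕ) (hb : 0 < b) (hdeg : P.natDegree = a + b)
    (hrel : R * t ^ a = aeval t P) (c : E) (hc : c ∈ K⟮t⟯) :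
    ∃ (D : K[X]) (e : Fin (a + b) → K[X]), D ≠ 0 ∧
      aeval R D * c = ∑ s, aeval R (e s) * t ^ (s : ℕ) := by
  classical
  -- the minimal-type polynomial of `t` over `K(R)`
  obtain ⟨R₁, hR₁⟩ : ∃ R₁ : K⟮R⟯, (R₁ : E) = R := ⟨⟨R, mem_adjoin_simple_self K R⟩, rfl⟩
  obtain ⟨Ψ, hΨ⟩ : ∃ Ψ : (K⟮R⟯)[X], Ψ = P.map (algebraMap K K⟮R⟯) - C R₁ * X ^ a := ⟨_, rfl⟩
  have hΨdeg : Ψ.natDegree = a + b := by
    rw [hΨ, natDegree_sub_eq_left_of_natDegree_lt, natDegree_map, hdeg]
    rw [natDegree_map, hdeg]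
    exact lt_of_le_of_lt (natDegree_C_mul_X_pow_le _ _) (by omega)
  have hΨ0 : Ψ ≠ 0 := by
    intro h
    rw [h, natDegree_zero] at hΨdeg
    omega
  have hΨt : aeval t Ψ = 0 := by
    rw [hΨ, map_sub, aeval_map_algebraMap, map_mul, aeval_C, map_pow, aeval_X, ← hrel]
    show R * t ^ a - (R₁ : E) * t ^ a = 0
    rw [hR₁, sub_self]
  obtain ⟨Ψm, hΨm⟩ : ∃ Ψm, Ψm = Ψ * C Ψ.leadingCoeff⁻¹ := ⟨_, rfl⟩
  have hmonic : Ψm.Monic := hΨm ▸ monic_mul_leadingCoeff_inv hΨ0
  have hΨmdeg : Ψm.natDegree = a + b := by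
    rw [hΨm, natDegree_mul_leadingCoeff_inv _ hΨ0, hΨdeg]
  have hΨmt : aeval t Ψm = 0 := by rw [hΨm, map_mul, hΨt, zero_mul]
  have hne1 : Ψm ≠ 1 := by
    intro h
    rw [h, natDegree_one] at hΨmdeg
    omega
  have halg : IsAlgebraic K⟮R⟯ t := ⟨Ψ, hΨ0, hΨt⟩
  -- `c` is a polynomial in `t` over `K(R)`
  have hc1 : c ∈ (K⟮R⟯)⟮t⟯ := by
    have hle : K⟮t⟯ ≤ ((K⟮R⟯)⟮t⟯).restrictScalars K :=
      adjoin_simple_le_iff.2 (mem_adjoin_simple_self (K⟮R⟯) t)
    exact hle hc
  have hc2 : c ∈ Algebra.adjoin K⟮R⟯ {t} := by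
    rw [← adjoin_simple_toSubalgebra_of_isAlgebraic halg]
    exact hc1
  rw [Algebra.adjoin_singleton_eq_range_aeval] at hc2
  obtain ⟨p, hp⟩ := hc2
  obtain ⟨r, hr⟩ : ∃ r, r = p %ₘ Ψm := ⟨_, rfl⟩
  have hrdeg : r.natDegree < a + b := by
    rw [hr, ← hΨmdeg]
    exact natDegree_modByMonic_lt p hmonic hne1
  have hrt : aeval t r = c := by
    rw [hr, aeval_modByMonic_eq_self_of_root hΨmt]
    exact hp
  have hcsum : c = ∑ s : Fin (a + b), ((r.coeff (s : ℕ) : K⟮R⟯) : E) * t ^ (s : ℕ) := by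
    rw [← hrt, aeval_eq_sum_range' hrdeg, Finset.sum_range]
    refine Finset.sum_congr rfl fun s _ => ?_
    rw [Algebra.smul_def]
    rfl
  -- the coefficients as fractions of polynomials in `R`
  have hfrac : ∀ s : Fin (a + b), ∃ n d : K[X], aeval R d ≠ 0 ∧
      ((r.coeff (s : ℕ) : K⟮R⟯) : E) * aeval R d = aeval R n := by
    intro s
    obtain ⟨n, d, hnd⟩ := (mem_adjoin_simple_iff K _).1 (r.coeff (s : ℕ)).2
    by_cases hd : aeval R d = 0
    · refine ⟨0, 1, ?_, ?_⟩
      · rw [map_one]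
        exact one_ne_zero
      · rw [hnd, hd, div_zero, zero_mul, map_zero]
    · exact ⟨n, d, hd, by rw [hnd, div_mul_cancel₀ _ hd]⟩
  choose n d hd hnd using hfrac
  refine ⟨∏ s, d s, fun s => n s * ∏ s' ∈ Finset.univ.erase s, d s', ?_, ?_⟩
  · refine Finset.prod_ne_zero_iff.2 fun s _ h => hd s ?_
    rw [h, map_zero]
  · rw [hcsum, Finset.mul_sum]
    refine Finset.sum_congr rfl fun s _ => ?_
    rw [← Finset.mul_prod_erase Finset.univ d (Finset.mem_univ s), map_mul, map_mul, ← hnd s]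
    ring

/-- `R = P(t) / t^a` lies in `K(t)`. -/
theorem rel_mem_adjoin (ht0 : t ≠ 0) (P : K[X]) (a : ℕ) (hrel : R * t ^ a = aeval t P) :
    R ∈ K⟮t⟯ := by
  have h1 : R = aeval t P / t ^ a := by
    rw [← hrel, mul_div_assoc, div_self (pow_ne_zero a ht0), mul_one]
  rw [h1]
  exact div_mem (algebra_adjoin_le_adjoin K _ (aeval_mem_adjoin_singleton K t))
    (pow_mem (mem_adjoin_simple_self K t) a)

/-- A polynomial in an element of an intermediate field lies in it. -/
theorem aeval_mem_of_mem (S : IntermediateField K E) {x : E} (hx : x ∈ S) (p : K[X]) :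
    aeval x p ∈ S := by
  rw [aeval_eq_sum_range]
  refine sum_mem fun i _ => ?_
  rw [Algebra.smul_def]
  exact mul_mem (S.algebraMap_mem _) (pow_mem hx i)

/-- **Spanning, for a family.**  If `β` spans `E` over `K(t)` then `β j · t^s` spans `E` over
`K(R)` (with polynomial denominators). -/
theorem family_span (P : K[X]) (a b : ℕ) (hb : 0 < b) (hdeg : P.natDegree = a + b)
    (hrel : R * t ^ a = aeval t P) {n : ℕ} (β : Fin n → E)
    (hspan : ∀ v : E, ∃ c : Fin n → E, (∀ j, c j ∈ K⟮t⟯) ∧ v = ∑ j, c j * β j) (v : E) :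
    ∃ (D : K[X]) (e : Fin (n * (a + b)) → K[X]), D ≠ 0 ∧
      aeval R D * v = ∑ i, aeval R (e i) *
        (β (finProdFinEquiv.symm i).1 * t ^ ((finProdFinEquiv.symm i).2 : ℕ)) := by
  classical
  obtain ⟨c, hc, rfl⟩ := hspan v
  have h1 := fun j => tower_span P a b hb hdeg hrel (c j) (hc j)
  choose D e hD he using h1
  refine ⟨∏ j, D j, fun i => e (finProdFinEquiv.symm i).1 (finProdFinEquiv.symm i).2 *
    ∏ j' ∈ Finset.univ.erase (finProdFinEquiv.symm i).1, D j',
    Finset.prod_ne_zero_iff.2 fun j _ => hD j, ?_⟩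
  rw [← Equiv.sum_comp finProdFinEquiv
    (fun i => aeval R (e (finProdFinEquiv.symm i).1 (finProdFinEquiv.symm i).2 *
        ∏ j' ∈ Finset.univ.erase (finProdFinEquiv.symm i).1, D j') *
      (β (finProdFinEquiv.symm i).1 * t ^ ((finProdFinEquiv.symm i).2 : ℕ)))]
  simp only [Equiv.symm_apply_apply]
  rw [Fintype.sum_prod_type, Finset.mul_sum]
  refine Finset.sum_congr rfl fun j _ => ?_
  rw [← Finset.mul_prod_erase Finset.univ D (Finset.mem_univ j), map_mul]
  have h2 : aeval R (D j) * aeval R (∏ x ∈ Finset.univ.erase j, D x) * (c j * β j) =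
      aeval R (∏ x ∈ Finset.univ.erase j, D x) * (aeval R (D j) * c j) * β j := by ring
  rw [h2, he j, Finset.mul_sum, Finset.sum_mul]
  refine Finset.sum_congr rfl fun s _ => ?_
  rw [map_mul]
  ring

/-- **Independence, for a family.**  If `ρ` is linearly independent over `K(t)` then the family
`ρ j · t^s` is linearly independent over `K[R]`. -/
theorem family_indep (ht : Transcendental K t) (P : K[X]) (a b : ℕ) (hb : 0 < b)
    (hdeg : P.natDegree = a + b) (h0 : a = 0 ∨ P.coeff 0 ≠ 0) (hrel : R * t ^ a = aeval t P)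
    {n : ℕ} (ρ : Fin n → E)
    (hind : ∀ c : Fin n → E, (∀ j, c j ∈ K⟮t⟯) → ∑ j, c j * ρ j = 0 → ∀ j, c j = 0)
    (g : Fin (n * (a + b)) → K[X])
    (hg : ∑ i, aeval R (g i) *
      (ρ (finProdFinEquiv.symm i).1 * t ^ ((finProdFinEquiv.symm i).2 : ℕ)) = 0) :
    ∀ i, g i = 0 := by
  have ht0 : t ≠ 0 := fun h => ht (h ▸ isAlgebraic_zero)
  have hR : R ∈ K⟮t⟯ := rel_mem_adjoin ht0 P a hrel
  have hc : ∀ j, (∑ s : Fin (a + b), aeval R (g (finProdFinEquiv (j, s))) * t ^ (s : ℕ)) ∈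
      K⟮t⟯ := fun j =>
    sum_mem fun s _ => mul_mem (aeval_mem_of_mem _ hR _) (pow_mem (mem_adjoin_simple_self K t) _)
  have hsum : ∑ j, (∑ s : Fin (a + b), aeval R (g (finProdFinEquiv (j, s))) * t ^ (s : ℕ)) *
      ρ j = 0 := by
    rw [← hg, ← Equiv.sum_comp finProdFinEquiv
      (fun i => aeval R (g i) *
        (ρ (finProdFinEquiv.symm i).1 * t ^ ((finProdFinEquiv.symm i).2 : ℕ)))]
    simp only [Equiv.symm_apply_apply]
    rw [Fintype.sum_prod_type]
    refine Finset.sum_congr rfl fun j _ => ?_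
    rw [Finset.sum_mul]
    refine Finset.sum_congr rfl fun s _ => ?_
    ring
  have hzero := hind _ hc hsum
  intro i
  have h1 := tower_indep ht P a b hb hdeg h0 hrel
    (fun s => g (finProdFinEquiv ((finProdFinEquiv.symm i).1, s))) (hzero _)
    (finProdFinEquiv.symm i).2
  rw [Prod.mk.eta, Equiv.apply_symm_apply] at h1
  exact h1

end Tower

section Pols

variable {L : Type*} [Field L] (A : ValuationSubring L)

/-- `(X - 1)³`: the numerator of `X₂ = (y - 1)³ / y²`. -/
def pol2 : A[X] := (X - C 1) ^ 3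

/-- `(X² + X + 1)²`: the numerator of `X₃ = (y² + y + 1)² / y³`. -/
def pol3 : A[X] := (X ^ 2 + X + C 1) ^ 2

/-- `X (X + 1)²`: `X₂⁻¹` as a polynomial in `u = (y - 1)⁻¹`. -/
def pol2' : A[X] := X * (X + C 1) ^ 2

/-- `(ω X - ω')³ (X - 1) / 9`: the numerator of `X₃⁻¹ = P(t) / t²` in the coordinate
`t = (y - ω') / (y - ω)`, `ω' = -1 - ω`. -/
def pol3' (ω c₃ : A) : A[X] := (C ω * X - C (-1 - ω)) ^ 3 * (X - C 1) * C (c₃ ^ 2)

variable {A}
variable {K : Type*} [Field K] (f : A →+* K)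

theorem map_pol2 : (pol2 A).map f = (X - C 1) ^ 3 := by
  unfold pol2
  rw [Polynomial.map_pow, Polynomial.map_sub, map_X, map_C, map_one]

theorem natDegree_map_pol2 : ((pol2 A).map f).natDegree = 2 + 1 := by
  rw [map_pol2, natDegree_pow, natDegree_X_sub_C]

theorem coeff_zero_map_pol2 : ((pol2 A).map f).coeff 0 ≠ 0 := by
  rw [map_pol2, coeff_zero_eq_eval_zero, eval_pow, eval_sub, eval_X, eval_C, zero_sub]
  exact pow_ne_zero _ (neg_ne_zero.2 one_ne_zero)

theorem map_pol3 : (pol3 A).map f = (X ^ 2 + X + C 1) ^ 2 := by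
  unfold pol3
  rw [Polynomial.map_pow, Polynomial.map_add, Polynomial.map_add, Polynomial.map_pow, map_X,
    map_C, map_one]

theorem natDegree_map_pol3 : ((pol3 A).map f).natDegree = 3 + 1 := by
  have hq : ((X ^ 2 + X + C (1 : K)) : K[X]).natDegree = 2 := by
    have h1 : ((X ^ 2 + X : K[X]) + C (1 : K)).natDegree = (X ^ 2 + X : K[X]).natDegree :=
      natDegree_add_C
    have h2 : (X ^ 2 + X : K[X]).natDegree = 2 := by
      rw [natDegree_add_eq_left_of_natDegree_lt, natDegree_X_pow]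
      rw [natDegree_X_pow, natDegree_X]
      exact one_lt_two
    rw [h1, h2]
  rw [map_pol3, natDegree_pow, hq]

theorem coeff_zero_map_pol3 : ((pol3 A).map f).coeff 0 ≠ 0 := by
  rw [map_pol3, coeff_zero_eq_eval_zero, eval_pow, eval_add, eval_add, eval_pow, eval_X, eval_C]
  norm_num

theorem map_pol2' : (pol2' A).map f = X * (X + C 1) ^ 2 := by
  unfold pol2'
  rw [Polynomial.map_mul, Polynomial.map_pow, Polynomial.map_add, map_X, map_C, map_one]

theorem natDegree_map_pol2' : ((pol2' A).map f).natDegree = 0 + 3 := by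
  rw [map_pol2', natDegree_mul X_ne_zero (pow_ne_zero _ (X_add_C_ne_zero _)), natDegree_X,
    natDegree_pow, natDegree_X_add_C]

theorem map_pol3' (ω c₃ : A) :
    (pol3' A ω c₃).map f = (C (f ω) * X - C (-1 - f ω)) ^ 3 * (X - C 1) * C (f c₃ ^ 2) := by
  unfold pol3'
  rw [Polynomial.map_mul, Polynomial.map_mul, Polynomial.map_pow, Polynomial.map_sub,
    Polynomial.map_mul, Polynomial.map_sub, map_X, map_C, map_C, map_C, map_C, map_sub, map_neg,
    map_one, map_pow]

theorem natDegree_map_pol3' (ω c₃ : A) (hω : f ω ≠ 0) (hc : f c₃ ≠ 0) :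
    ((pol3' A ω c₃).map f).natDegree = 2 + 2 := by
  have h1 : (C (f ω) * X - C (-1 - f ω) : K[X]).natDegree = 1 := by
    rw [natDegree_sub_C, natDegree_C_mul_X _ hω]
  have h1' : (C (f ω) * X - C (-1 - f ω) : K[X]) ≠ 0 := by
    intro h
    rw [h, natDegree_zero] at h1
    exact zero_ne_one h1
  have h2 : (X - C (1 : K)) ≠ 0 := X_sub_C_ne_zero _
  rw [map_pol3', natDegree_mul_C (pow_ne_zero _ hc),
    natDegree_mul (pow_ne_zero _ h1') h2, natDegree_pow, h1, natDegree_X_sub_C]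

theorem coeff_zero_map_pol3' (ω c₃ : A) (hω : -1 - f ω ≠ 0) (hc : f c₃ ≠ 0) :
    ((pol3' A ω c₃).map f).coeff 0 ≠ 0 := by
  rw [map_pol3', coeff_zero_eq_eval_zero, eval_mul, eval_mul, eval_pow, eval_sub, eval_sub,
    eval_mul, eval_X, eval_C, eval_C, eval_C, eval_C, mul_zero, zero_sub, zero_sub]
  exact mul_ne_zero (mul_ne_zero (pow_ne_zero _ (neg_ne_zero.2 hω)) (neg_ne_zero.2 one_ne_zero))
    (pow_ne_zero _ hc)

end Pols

section Rels

variable {L : Type*} [Field L] (A : ValuationSubring L) {F : Type*} [Field F] [Algebra L F]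

theorem aeval_map_pol2 (y : F) : aeval y ((pol2 A).map A.subtype) = (y - 1) ^ 3 := by
  rw [map_pol2, map_pow, map_sub, aeval_X, aeval_C, map_one]

theorem aeval_map_pol3 (y : F) : aeval y ((pol3 A).map A.subtype) = (y ^ 2 + y + 1) ^ 2 := by
  rw [map_pol3, map_pow, map_add, map_add, map_pow, aeval_X, aeval_C, map_one]

theorem aeval_map_pol2' (u : F) : aeval u ((pol2' A).map A.subtype) = u * (u + 1) ^ 2 := by
  rw [map_pol2', map_mul, map_pow, map_add, aeval_X, aeval_C, map_one]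

theorem aeval_map_pol3' (ω c₃ : A) (t : F) :
    aeval t ((pol3' A ω c₃).map A.subtype) =
      (algebraMap L F (ω : L) * t - (-1 - algebraMap L F (ω : L))) ^ 3 * (t - 1) *
        algebraMap L F (c₃ : L) ^ 2 := by
  rw [map_pol3']
  simp only [map_mul, map_pow, map_sub, map_neg, map_one, aeval_X, aeval_C]
  rfl

/-- `X₂⁻¹ = u (u + 1)²` for `u = (y - 1)⁻¹`. -/
theorem rel_pol2' {y g : F} (hg : g * y ^ 2 = (y - 1) ^ 3) (hy : y ≠ 0) :
    g⁻¹ * (y - 1)⁻¹ ^ 0 = aeval (y - 1)⁻¹ ((pol2' A).map A.subtype) := by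
  rw [aeval_map_pol2', pow_zero, mul_one]
  by_cases h1 : y - 1 = 0
  · have hg0 : g = 0 := by
      rw [h1, zero_pow (by norm_num)] at hg
      exact (mul_eq_zero.1 hg).resolve_right (pow_ne_zero _ hy)
    rw [hg0, h1, inv_zero, zero_mul]
  · have hg' : g = (y - 1) ^ 3 / y ^ 2 := by
      rw [← hg, mul_div_assoc, div_self (pow_ne_zero _ hy), mul_one]
    rw [hg']
    field_simp
    ring

/-- `X₃⁻¹ · t² = (ω t - ω')³ (t - 1) / 9` for `t = (2ω + 1) (y - ω)⁻¹ + 1`. -/
theorem rel_pol3' (ω c₃ : A) (hω : ω ^ 2 + ω + 1 = 0) (hc₃ : 3 * c₃ = 1) {y g : F}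
    (hg : g * y ^ 3 = (y ^ 2 + y + 1) ^ 2) (hy : y ≠ 0) (hq : y ^ 2 + y + 1 ≠ 0) :
    g⁻¹ * (algebraMap L F ((2 * ω + 1 : A) : L) * (y - algebraMap L F (ω : L))⁻¹ + 1) ^ 2 =
      aeval (algebraMap L F ((2 * ω + 1 : A) : L) * (y - algebraMap L F (ω : L))⁻¹ + 1)
        ((pol3' A ω c₃).map A.subtype) := by
  rw [aeval_map_pol3']
  obtain ⟨w, hw⟩ : ∃ w : F, w = algebraMap L F (ω : L) := ⟨_, rfl⟩
  obtain ⟨c, hc⟩ : ∃ c : F, c = algebraMap L F (c₃ : L) := ⟨_, rfl⟩
  have hωL : (ω : L) ^ 2 + (ω : L) + 1 = 0 := congrArg Subtype.val hω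
  have hcL : 3 * (c₃ : L) = 1 := congrArg Subtype.val hc₃
  have hw2 : w ^ 2 + w + 1 = 0 := by
    have h := congrArg (algebraMap L F) hωL
    rw [map_add, map_add, map_pow, map_one, map_zero] at h
    rw [hw]
    exact h
  have hc3 : 3 * c = 1 := by
    have h := congrArg (algebraMap L F) hcL
    rw [map_mul, map_ofNat, map_one] at h
    rw [hc]
    exact h
  have hd : algebraMap L F ((2 * ω + 1 : A) : L) = 2 * w + 1 := by
    show algebraMap L F (2 * (ω : L) + 1) = 2 * w + 1
    rw [map_add, map_mul, map_ofNat, map_one, hw]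
  rw [hd, ← hw, ← hc]
  have hfac : y ^ 2 + y + 1 = (y - w) * (y + w + 1) := by linear_combination hw2
  have hyw : y - w ≠ 0 := fun h => hq (by rw [hfac, h, zero_mul])
  have hyw' : y + w + 1 ≠ 0 := fun h => hq (by rw [hfac, h, mul_zero])
  have hg' : g = (y ^ 2 + y + 1) ^ 2 / y ^ 3 := by
    rw [← hg, mul_div_assoc, div_self (pow_ne_zero _ hy), mul_one]
  have h2 : (2 * w + 1) ^ 2 = -3 := by linear_combination 4 * hw2
  have h9 : (2 * w + 1) ^ 4 * c ^ 2 = 1 := by
    calc (2 * w + 1) ^ 4 * c ^ 2 = ((2 * w + 1) ^ 2) ^ 2 * c ^ 2 := by ring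
      _ = (3 * c) ^ 2 := by rw [h2]; ring
      _ = 1 := by rw [hc3, one_pow]
  have ht : (2 * w + 1) * (y - w)⁻¹ + 1 = (y + w + 1) / (y - w) := by
    field_simp
    ring
  have ht2 : w * ((y + w + 1) / (y - w)) - (-1 - w) = (2 * w + 1) * y / (y - w) := by
    field_simp
    ring
  have ht3 : (y + w + 1) / (y - w) - 1 = (2 * w + 1) / (y - w) := by
    field_simp
    ring
  rw [ht, ht2, ht3, hg', hfac]
  have key : ((2 * w + 1) * y / (y - w)) ^ 3 * ((2 * w + 1) / (y - w)) * c ^ 2 =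
      y ^ 3 / (y - w) ^ 4 * ((2 * w + 1) ^ 4 * c ^ 2) := by
    field_simp
  rw [key, h9, mul_one]
  field_simp

end Rels

section Misc

variable {L : Type*} [Field L] {A : ValuationSubring L} {K : Type*} [Field K] (f : A →+* K)

/-- A root of `X² + X + 1` in `A` and its conjugate stay nonzero under any ring map to a
field. -/
theorem map_omega_ne (ω : A) (hω : ω ^ 2 + ω + 1 = 0) : f ω ≠ 0 ∧ -1 - f ω ≠ 0 := by
  have h1 : ω * (-1 - ω) = 1 := by linear_combination (-1 : A) * hω
  have h2 : f ω * (-1 - f ω) = 1 := by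
    have h := congrArg f h1
    rwa [map_mul, map_sub, map_neg, map_one] at h
  constructor
  · intro h
    rw [h, zero_mul] at h2
    exact zero_ne_one h2
  · intro h
    rw [h, mul_zero] at h2
    exact zero_ne_one h2

theorem map_c3_ne (c₃ : A) (hc₃ : 3 * c₃ = 1) : f c₃ ≠ 0 := by
  intro h
  have h1 := congrArg f hc₃
  rw [map_mul, h, mul_zero, map_one] at h1
  exact zero_ne_one h1

/-- `(2ω + 1)² = -3`. -/
theorem map_delta_ne (ω : A) (hω : ω ^ 2 + ω + 1 = 0) (h3 : (3 : K) ≠ 0) :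
    f (2 * ω + 1) ≠ 0 := by
  have h1 : (2 * ω + 1) ^ 2 = -3 := by linear_combination (4 : A) * hω
  intro h
  have h2 := congrArg f h1
  rw [map_pow, h, map_neg, map_ofNat] at h2
  apply h3
  have h4 : (0 : K) ^ 2 = 0 := by norm_num
  rw [h4] at h2
  exact neg_eq_zero.1 h2.symm

theorem quad_ne_zero_of_transcendental {K E : Type*} [Field K] [Field E] [Algebra K E] {y : E}
    (hy : Transcendental K y) : y ^ 2 + y + 1 ≠ 0 := by
  intro h
  have h1 : aeval y (X ^ 2 + X + C (1 : K)) = 0 := by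
    rw [map_add, map_add, map_pow, aeval_X, aeval_C, map_one]
    exact h
  have h2 := transcendental_iff.1 hy _ h1
  have h3 := congrArg (fun p : K[X] => p.coeff 0) h2
  simp at h3

end Misc

end Fermat.Agent.BAD.TowerX
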