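import Mathlib
import Fermat.Agent.BAD.Base.TowerAlg
import Fermat.Agent.BAD.Base.CuspX
import Fermat.Agent.Lib.Red.BaseData
import Fermat.Agent.Lib.Red.HauptData
import Fermat.Agent.Lib.Red.Tube

/-!
# BAD: integral good bases for the Hauptmodul chart functions (`IsChartBase.basis`, `basis'`)

For a level-`M` function `X'` (the chart function `X` or its inverse) which is of the form
`X' = P(t) / t^a` in a coordinate `t` of the Gauss valuation ring, `deg P = a + b`, `b > 0`,
and a good basis `β` of `L·F_M` over `L(t)`, the family `β j · t^s` (`s < a + b`) is an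
integral good basis for the chart `X' ≠ ∞` in the literal shape of `IsChartBase.basis`.
-/

set_option autoImplicit false

noncomputable section

namespace Fermat.Agent.BAD.TowerX

open Polynomial AlgebraicCurve ModularCurve IntermediateField Fermat.Agent.Lib.Red

section PlaceRel

variable {L F : Type*} [Field L] [Field F] [Algebra L F]

theorem ord_nonneg_iff_le_one (P : Place L F) (f : F) : 0 ≤ P.ord f ↔ P.adicValuation f ≤ 1 := by
  rw [P.adicValuation_le_one_iff]
  constructor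
  · exact fun h => Or.inr h
  · rintro (h | h)
    · rw [h, Place.ord_zero]
    · exact h

/-- If `R · t^a = P(t)` with `deg P = a + b`, `b > 0` (and `P(0) ≠ 0` or `a = 0`), then `t` is
regular wherever `R` is, and is a unit there if `a > 0`. -/
theorem ord_of_rel_nonneg (Q : Place L F) {t R : F} (P : L[X]) (a b : ℕ) (hb : 0 < b)
    (hdeg : P.natDegree = a + b) (h0 : a = 0 ∨ P.coeff 0 ≠ 0) (hrel : R * t ^ a = aeval t P)
    (hR : 0 ≤ Q.ord R) : 0 ≤ Q.ord t ∧ (0 < a → Q.ord t = 0) := by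
  have hP : P ≠ 0 := by
    rintro rfl
    rw [natDegree_zero] at hdeg
    omega
  have hneg : ¬ Q.ord t < 0 := by
    intro ht
    have ht0 : t ≠ 0 := by
      rintro rfl
      rw [Place.ord_zero] at ht
      exact lt_irrefl _ ht
    obtain ⟨hne, h⟩ := CuspX.ord_aeval_of_neg Q ht P hP
    have hR0 : R ≠ 0 := by
      rintro rfl
      rw [zero_mul] at hrel
      exact hne hrel.symm
    rw [← hrel, Place.ord_mul Q hR0 (pow_ne_zero a ht0), CuspX.ord_pow_nat, hdeg] at h
    push_cast at h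
    have hb' : (0 : ℤ) < b := by exact_mod_cast hb
    nlinarith
  refine ⟨not_lt.1 hneg, fun ha => ?_⟩
  by_contra hne0
  have ht : 0 < Q.ord t := lt_of_le_of_ne (not_lt.1 hneg) (Ne.symm hne0)
  have ht0 : t ≠ 0 := by
    rintro rfl
    rw [Place.ord_zero] at ht
    exact lt_irrefl _ ht
  have hc0 : P.coeff 0 ≠ 0 := h0.resolve_left ha.ne'
  obtain ⟨hne, h⟩ := CuspX.ord_aeval_of_pos Q ht P hc0
  have hR0 : R ≠ 0 := by
    rintro rfl
    rw [zero_mul] at hrel
    exact hne hrel.symm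
  rw [← hrel, Place.ord_mul Q hR0 (pow_ne_zero a ht0), CuspX.ord_pow_nat] at h
  have ha' : (0 : ℤ) < a := by exact_mod_cast ha
  nlinarith

end PlaceRel

section OwPoly

variable {L : Type*} [Field L] [Algebra ℚ L] {A : ValuationSubring L} {k : Type} [Field k]
  {π : A →+* k} {M : ℕ} [NeZero M]

/-- Constants of `A` in the Gauss valuation ring, as a ring homomorphism. -/
def constHom (hπ : ∀ a : A, ¬ IsUnit a → π a = 0) (hMk : (M : k) ≠ 0) : A →+* Ow A π M hMk where
  toFun a := ⟨algebraMap L ↥(laurentBaseChange L (modularFunctionFieldFull M)) (a : L),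
    (algebraMap_mem_Ow_iff hπ hMk (a : L)).mpr a.2⟩
  map_one' := Subtype.ext (map_one _)
  map_mul' _ _ := Subtype.ext (map_mul _ _ _)
  map_zero' := Subtype.ext (map_zero _)
  map_add' _ _ := Subtype.ext (map_add _ _ _)

theorem coe_constHom (hπ : ∀ a : A, ¬ IsUnit a → π a = 0) (hMk : (M : k) ≠ 0) (a : A) :
    ((constHom hπ hMk a : Ow A π M hMk) : ↥(laurentBaseChange L (modularFunctionFieldFull M))) =
      algebraMap L ↥(laurentBaseChange L (modularFunctionFieldFull M)) (a : L) := rfl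

theorem redF_constHom (hπ : ∀ a : A, ¬ IsUnit a → π a = 0) (hMk : (M : k) ≠ 0) (a : A) :
    redF A π M hπ hMk (constHom hπ hMk a) =
      algebraMap k ↥(modularFunctionFieldFullC k M) (π a) :=
  redF_algebraMap hπ hMk a

/-- `p(t)` for `p ∈ A[X]` and `t` Gauss-integral, as an element of the Gauss valuation ring. -/
theorem coe_eval₂_constHom (hπ : ∀ a : A, ¬ IsUnit a → π a = 0) (hMk : (M : k) ≠ 0)
    (t : Ow A π M hMk) (p : A[X]) :
    ((p.eval₂ (constHom hπ hMk) t : Ow A π M hMk) :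
        ↥(laurentBaseChange L (modularFunctionFieldFull M))) =
      aeval (t : ↥(laurentBaseChange L (modularFunctionFieldFull M))) (p.map A.subtype) := by
  have h1 := hom_eval₂ p (constHom hπ hMk) (Ow A π M hMk).subtype t
  rw [aeval_def, eval₂_map]
  exact h1

/-- The reduction of `p(t)` is `p̄(t̄)`. -/
theorem redF_eval₂_constHom (hπ : ∀ a : A, ¬ IsUnit a → π a = 0) (hMk : (M : k) ≠ 0)
    (t : Ow A π M hMk) (p : A[X]) :
    redF A π M hπ hMk (p.eval₂ (constHom hπ hMk) t) =
      aeval (redF A π M hπ hMk t) (p.map π) := by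
  rw [hom_eval₂ p (constHom hπ hMk) (redF A π M hπ hMk) t, aeval_def, eval₂_map]
  congr 1
  exact RingHom.ext fun a => redF_constHom hπ hMk a

/-- **The tower theorem.**  Let `X'` be Gauss-integral of level `M`, `t` a Gauss-integral
coordinate with transcendental reduction, `X' · t^a = Pol(t)` with `Pol ∈ A[X]` of degree `a + b`
(also after reduction), `b > 0`, and `Pol̄(0) ≠ 0` or `a = 0`.  If `β` is a family of
Gauss-integral functions, regular where `X'` is, spanning `L·F_M` over `L(t)`, with reductions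
independent over `k(t̄)`, then the family `β j · t^s` (`s < a + b`) is an integral good basis for
the chart `X' ≠ ∞`, in the shape of `IsChartBase.basis`. -/
theorem exists_basis_of_tower (hπ : ∀ a : A, ¬ IsUnit a → π a = 0) (hMk : (M : k) ≠ 0)
    (X' : ↥(laurentBaseChange L (modularFunctionFieldFull M))) (hX' : X' ∈ Ow A π M hMk)
    (t : Ow A π M hMk) (Pol : A[X]) (a b : ℕ) (hb : 0 < b)
    (hdegL : (Pol.map A.subtype).natDegree = a + b) (hdegk : (Pol.map π).natDegree = a + b)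
    (h0 : a = 0 ∨ (Pol.map π).coeff 0 ≠ 0)
    (hrel : X' * (t : ↥(laurentBaseChange L (modularFunctionFieldFull M))) ^ a =
      aeval (t : ↥(laurentBaseChange L (modularFunctionFieldFull M))) (Pol.map A.subtype))
    (htr : Transcendental k (redF A π M hπ hMk t))
    {n : ℕ} (β : Fin n → Ow A π M hMk)
    (hreg : ∀ j, ∀ P : Place L ↥(laurentBaseChange L (modularFunctionFieldFull M)),
      0 ≤ P.ord X' → 0 ≤ P.ord (β j : ↥(laurentBaseChange L (modularFunctionFieldFull M))))
    (hspan : ∀ v : ↥(laurentBaseChange L (modularFunctionFieldFull M)),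
      ∃ c : Fin n → ↥(laurentBaseChange L (modularFunctionFieldFull M)),
        (∀ j, c j ∈ L⟮(t : ↥(laurentBaseChange L (modularFunctionFieldFull M)))⟯) ∧
        v = ∑ j, c j * (β j : ↥(laurentBaseChange L (modularFunctionFieldFull M))))
    (hind : ∀ c : Fin n → ↥(modularFunctionFieldFullC k M),
      (∀ j, c j ∈ k⟮redF A π M hπ hMk t⟯) →
      ∑ j, c j * redF A π M hπ hMk (β j) = 0 → ∀ j, c j = 0) :
    ∃ (n' : ℕ) (b' : Fin n' → Ow A π M hMk),
      (∀ i, ∀ P : Place L ↥(laurentBaseChange L (modularFunctionFieldFull M)),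
        0 ≤ P.ord X' → 0 ≤ P.ord (b' i : ↥(laurentBaseChange L (modularFunctionFieldFull M)))) ∧
      (∀ v : ↥(laurentBaseChange L (modularFunctionFieldFull M)),
        ∃ (D : L[X]) (e : Fin n' → L[X]), D ≠ 0 ∧
          aeval X' D * v = ∑ i, aeval X' (e i) *
            (b' i : ↥(laurentBaseChange L (modularFunctionFieldFull M)))) ∧
      (∀ g : Fin n' → k[X],
        ∑ i, aeval (redF A π M hπ hMk ⟨X', hX'⟩) (g i) * redF A π M hπ hMk (b' i) = 0 →
          ∀ i, g i = 0) := by
  have hcoeff0 : a = 0 ∨ (Pol.map A.subtype).coeff 0 ≠ 0 := by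
    rcases h0 with h0 | h0
    · exact Or.inl h0
    · refine Or.inr fun h => h0 ?_
      rw [coeff_map] at h ⊢
      have h1 : Pol.coeff 0 = 0 := Subtype.ext h
      rw [h1, map_zero]
  -- the relation on the special fibre
  have hrelk : redF A π M hπ hMk ⟨X', hX'⟩ * redF A π M hπ hMk t ^ a =
      aeval (redF A π M hπ hMk t) (Pol.map π) := by
    rw [← redF_eval₂_constHom hπ hMk t Pol, ← map_pow, ← map_mul]
    congr 1
    apply Subtype.ext
    rw [coe_eval₂_constHom hπ hMk t Pol, ← hrel]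
    rfl
  refine ⟨n * (a + b), fun i => β (finProdFinEquiv.symm i).1 * t ^ ((finProdFinEquiv.symm i).2 : ℕ),
    ?_, ?_, ?_⟩
  · intro i P hP
    have h1 := hreg (finProdFinEquiv.symm i).1 P hP
    have h2 := (ord_of_rel_nonneg P (Pol.map A.subtype) a b hb hdegL hcoeff0 hrel hP).1
    rw [ord_nonneg_iff_le_one] at h1 h2 ⊢
    show P.adicValuation ((β (finProdFinEquiv.symm i).1 :
      ↥(laurentBaseChange L (modularFunctionFieldFull M))) *
      (t : ↥(laurentBaseChange L (modularFunctionFieldFull M))) ^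
        ((finProdFinEquiv.symm i).2 : ℕ)) ≤ 1
    rw [map_mul, map_pow]
    exact mul_le_one' h1 (pow_le_one' h2 _)
  · intro v
    exact TowerX.family_span (Pol.map A.subtype) a b hb hdegL hrel
      (fun j => (β j : ↥(laurentBaseChange L (modularFunctionFieldFull M)))) hspan v
  · intro g hg
    refine TowerX.family_indep htr (Pol.map π) a b hb hdegk h0 hrelk
      (fun j => redF A π M hπ hMk (β j)) hind g ?_
    rw [← hg]
    refine Finset.sum_congr rfl fun i _ => ?_
    rw [map_mul, map_pow]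

end OwPoly

section Affine

variable {K E : Type*} [Field K] [Field E] [Algebra K E]

/-- `K(c · x + 1) = K(x)` for a nonzero constant `c`. -/
theorem adjoin_affine (x : E) {c : K} (hc : c ≠ 0) :
    K⟮algebraMap K E c * x + 1⟯ = K⟮x⟯ := by
  apply le_antisymm
  · rw [adjoin_simple_le_iff]
    exact add_mem (mul_mem (IntermediateField.algebraMap_mem _ c) (mem_adjoin_simple_self K x))
      (one_mem _)
  · rw [adjoin_simple_le_iff]
    have h : x = algebraMap K E c⁻¹ * ((algebraMap K E c * x + 1) - 1) := by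
      rw [add_sub_cancel_right, ← mul_assoc, ← map_mul, inv_mul_cancel₀ hc, map_one, one_mul]
    have h1 : algebraMap K E c⁻¹ * ((algebraMap K E c * x + 1) - 1) ∈
        K⟮algebraMap K E c * x + 1⟯ :=
      mul_mem (IntermediateField.algebraMap_mem _ _)
        (sub_mem (mem_adjoin_simple_self K _) (one_mem _))
    rwa [← h] at h1

/-- `c · x + 1` is transcendental if `x` is and `c ≠ 0`. -/
theorem transcendental_affine {x : E} (hx : Transcendental K x) {c : K} (hc : c ≠ 0) :
    Transcendental K (algebraMap K E c * x + 1) := by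
  intro halg
  apply hx
  have hmem : x ∈ K⟮algebraMap K E c * x + 1⟯ := by
    rw [adjoin_affine x hc]
    exact mem_adjoin_simple_self K x
  have h1 : Algebra.IsAlgebraic K K⟮algebraMap K E c * x + 1⟯ :=
    isAlgebraic_adjoin_simple halg.isIntegral
  have h2 := h1.isAlgebraic (⟨x, hmem⟩ : K⟮algebraMap K E c * x + 1⟯)
  exact IntermediateField.isAlgebraic_iff.1 h2

end Affine

section Data

variable {L : Type*} [Field L] [Algebra ℚ L] {A : ValuationSubring L} {k : Type} [Field k]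
  {π : A →+* k} {M : ℕ} [NeZero M]

omit [Algebra ℚ L] in
theorem coeff_zero_map_subtype_ne (Pol : A[X]) (a : ℕ)
    (h0 : a = 0 ∨ (Pol.map π).coeff 0 ≠ 0) : a = 0 ∨ (Pol.map A.subtype).coeff 0 ≠ 0 := by
  rcases h0 with h0 | h0
  · exact Or.inl h0
  · refine Or.inr fun h => h0 ?_
    rw [coeff_map] at h ⊢
    have h1 : Pol.coeff 0 = 0 := Subtype.ext h
    rw [h1, map_zero]

/-- **Integral good basis of the chart `X' ≠ ∞` from a base-function datum.**  `B` a base
function datum of level `M` (`B.x` the Hauptmodul or a Möbius transform of it), `t` a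
Gauss-integral coordinate with `L(t) = L(B.x)`, `k(t̄) = k(x̄)`, regular only where `B.x` is, and
`X' · t^a = Pol(t)` as in `exists_basis_of_tower`. -/
theorem exists_basis_of_data (B : BaseFn.Data A π M) (hπ : ∀ a : A, ¬ IsUnit a → π a = 0)
    (hsurj : Function.Surjective π) (hMk : (M : k) ≠ 0)
    (X' : ↥(laurentBaseChange L (modularFunctionFieldFull M))) (hX' : X' ∈ Ow A π M hMk)
    (t : Ow A π M hMk)
    (htL : L⟮(t : ↥(laurentBaseChange L (modularFunctionFieldFull M)))⟯ = L⟮B.x⟯)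
    (htk : k⟮redF A π M hπ hMk t⟯ = k⟮B.xt hπ hMk⟯)
    (htr : Transcendental k (redF A π M hπ hMk t))
    (htreg : ∀ P : Place L ↥(laurentBaseChange L (modularFunctionFieldFull M)),
      0 ≤ P.ord (t : ↥(laurentBaseChange L (modularFunctionFieldFull M))) → 0 ≤ P.ord B.x)
    (Pol : A[X]) (a b : ℕ) (hb : 0 < b)
    (hdegL : (Pol.map A.subtype).natDegree = a + b) (hdegk : (Pol.map π).natDegree = a + b)
    (h0 : a = 0 ∨ (Pol.map π).coeff 0 ≠ 0)
    (hrel : X' * (t : ↥(laurentBaseChange L (modularFunctionFieldFull M))) ^ a =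
      aeval (t : ↥(laurentBaseChange L (modularFunctionFieldFull M))) (Pol.map A.subtype)) :
    ∃ (n' : ℕ) (b' : Fin n' → Ow A π M hMk),
      (∀ i, ∀ P : Place L ↥(laurentBaseChange L (modularFunctionFieldFull M)),
        0 ≤ P.ord X' → 0 ≤ P.ord (b' i : ↥(laurentBaseChange L (modularFunctionFieldFull M)))) ∧
      (∀ v : ↥(laurentBaseChange L (modularFunctionFieldFull M)),
        ∃ (D : L[X]) (e : Fin n' → L[X]), D ≠ 0 ∧
          aeval X' D * v = ∑ i, aeval X' (e i) *
            (b' i : ↥(laurentBaseChange L (modularFunctionFieldFull M)))) ∧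
      (∀ g : Fin n' → k[X],
        ∑ i, aeval (redF A π M hπ hMk ⟨X', hX'⟩) (g i) * redF A π M hπ hMk (b' i) = 0 →
          ∀ i, g i = 0) := by
  obtain ⟨n, G, hint⟩ := B.exists_goodBasis_integral hπ hsurj hMk
  refine exists_basis_of_tower hπ hMk X' hX' t Pol a b hb hdegL hdegk h0 hrel htr G.b ?_ ?_ ?_
  · intro j P hP
    have h2 := (ord_of_rel_nonneg P (Pol.map A.subtype) a b hb hdegL
      (coeff_zero_map_subtype_ne Pol a h0) hrel hP).1
    have h3 := htreg P h2
    exact (Fermat.Agent.S24.mem_iff_ord_nonneg P).1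
      (Fermat.Agent.Lib.Red.Tube.mem_of_isIntegral_adjoin P
        ((Fermat.Agent.S24.mem_iff_ord_nonneg P).2 h3) (hint j))
  · intro v
    obtain ⟨c, hc⟩ := G.span v
    exact ⟨fun j => (c j : ↥(laurentBaseChange L (modularFunctionFieldFull M))),
      fun j => htL.ge (c j).2, hc⟩
  · intro c hc hsum j
    have hc' : ∀ j, c j ∈ k⟮B.xt hπ hMk⟯ := fun j => htk.le (hc j)
    have h1 := Fintype.linearIndependent_iff.1 G.ind (fun j => ⟨c j, hc' j⟩) hsum j
    exact congrArg Subtype.val h1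

/-- The same for the chart `X ≠ 0`, in the shape of `IsChartBase.basis'` (`X' = X⁻¹`). -/
theorem exists_basis'_of_data (B : BaseFn.Data A π M) (hπ : ∀ a : A, ¬ IsUnit a → π a = 0)
    (hsurj : Function.Surjective π) (hMk : (M : k) ≠ 0)
    (X : ↥(laurentBaseChange L (modularFunctionFieldFull M))) (hXinv : X⁻¹ ∈ Ow A π M hMk)
    (t : Ow A π M hMk)
    (htL : L⟮(t : ↥(laurentBaseChange L (modularFunctionFieldFull M)))⟯ = L⟮B.x⟯)
    (htk : k⟮redF A π M hπ hMk t⟯ = k⟮B.xt hπ hMk⟯)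
    (htr : Transcendental k (redF A π M hπ hMk t))
    (htreg : ∀ P : Place L ↥(laurentBaseChange L (modularFunctionFieldFull M)),
      0 ≤ P.ord (t : ↥(laurentBaseChange L (modularFunctionFieldFull M))) → 0 ≤ P.ord B.x)
    (Pol : A[X]) (a b : ℕ) (hb : 0 < b)
    (hdegL : (Pol.map A.subtype).natDegree = a + b) (hdegk : (Pol.map π).natDegree = a + b)
    (h0 : a = 0 ∨ (Pol.map π).coeff 0 ≠ 0)
    (hrel : X⁻¹ * (t : ↥(laurentBaseChange L (modularFunctionFieldFull M))) ^ a =
      aeval (t : ↥(laurentBaseChange L (modularFunctionFieldFull M))) (Pol.map A.subtype)) :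
    ∃ (n' : ℕ) (b' : Fin n' → Ow A π M hMk),
      (∀ i, ∀ P : Place L ↥(laurentBaseChange L (modularFunctionFieldFull M)),
        P.ord X ≤ 0 → 0 ≤ P.ord (b' i : ↥(laurentBaseChange L (modularFunctionFieldFull M)))) ∧
      (∀ v : ↥(laurentBaseChange L (modularFunctionFieldFull M)),
        ∃ (D : L[X]) (e : Fin n' → L[X]), D ≠ 0 ∧
          aeval X⁻¹ D * v = ∑ i, aeval X⁻¹ (e i) *
            (b' i : ↥(laurentBaseChange L (modularFunctionFieldFull M)))) ∧
      (∀ g : Fin n' → k[X],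
        ∑ i, aeval (redF A π M hπ hMk ⟨X⁻¹, hXinv⟩) (g i) * redF A π M hπ hMk (b' i) = 0 →
          ∀ i, g i = 0) := by
  obtain ⟨n', b', h1, h2, h3⟩ := exists_basis_of_data B hπ hsurj hMk X⁻¹ hXinv t htL htk htr
    htreg Pol a b hb hdegL hdegk h0 hrel
  refine ⟨n', b', fun i P hP => h1 i P ?_, h2, h3⟩
  rw [Place.ord_inv]
  omega

end Data

/-! ### The Hauptmodul chart functions -/

section Haupt2

variable {L : Type*} [Field L] [Algebra ℚ L] (A : ValuationSubring L) {k : Type} [Field k]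
  (π : A →+* k) (M m : ℕ) [NeZero M] [NeZero m] (hM : M = m * 2) (h2 : (2 : k) ≠ 0)

/-- **`IsChartBase.basis` for `X₂ = (y - 1)³ / y²`**, `y = (ofHaupt2 …).x` (stated for any
Gauss-integral `g` with `g · y² = (y - 1)³`): the family `β j · y^s`, `s < 3`, `β` an integral
good basis for `y`. -/
theorem basis_haupt2 (hπ : ∀ a : A, ¬ IsUnit a → π a = 0) (hsurj : Function.Surjective π)
    (hMk : (M : k) ≠ 0) {g : ↥(laurentBaseChange L (modularFunctionFieldFull M))}
    (hg : g * (BaseFn.ofHaupt2 A π M m hM h2).x ^ 2 = ((BaseFn.ofHaupt2 A π M m hM h2).x - 1) ^ 3)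
    (hmem : g ∈ Ow A π M hMk) :
    ∃ (n : ℕ) (b : Fin n → Ow A π M hMk),
      (∀ i, ∀ P : Place L ↥(laurentBaseChange L (modularFunctionFieldFull M)),
        0 ≤ P.ord g → 0 ≤ P.ord (b i : ↥(laurentBaseChange L (modularFunctionFieldFull M)))) ∧
      (∀ v : ↥(laurentBaseChange L (modularFunctionFieldFull M)),
        ∃ (D : L[X]) (e : Fin n → L[X]), D ≠ 0 ∧
          aeval g D * v = ∑ i, aeval g (e i) *
            (b i : ↥(laurentBaseChange L (modularFunctionFieldFull M)))) ∧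
      (∀ g' : Fin n → k[X],
        ∑ i, aeval (redF A π M hπ hMk ⟨g, hmem⟩) (g' i) * redF A π M hπ hMk (b i) = 0 →
          ∀ i, g' i = 0) :=
  exists_basis_of_data (BaseFn.ofHaupt2 A π M m hM h2) hπ hsurj hMk g hmem
    ⟨(BaseFn.ofHaupt2 A π M m hM h2).x, (BaseFn.ofHaupt2 A π M m hM h2).x_mem_Ow hMk⟩ rfl rfl
    ((BaseFn.ofHaupt2 A π M m hM h2).transcendental_xt hπ hMk) (fun _ h => h)
    (pol2 A) 2 1 one_pos (natDegree_map_pol2 _) (natDegree_map_pol2 _)
    (Or.inr (coeff_zero_map_pol2 _)) (hg.trans (aeval_map_pol2 A _).symm)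

/-- **`IsChartBase.basis'` for `X₂`**: the family `β j · u^s`, `s < 3`, `u = (y - 1)⁻¹`, `β` an
integral good basis for a base-function datum `B'` with `B'.x = u` (the Möbius datum). -/
theorem basis'_haupt2 (hπ : ∀ a : A, ¬ IsUnit a → π a = 0) (hsurj : Function.Surjective π)
    (hMk : (M : k) ≠ 0) {g : ↥(laurentBaseChange L (modularFunctionFieldFull M))}
    (hg : g * (BaseFn.ofHaupt2 A π M m hM h2).x ^ 2 = ((BaseFn.ofHaupt2 A π M m hM h2).x - 1) ^ 3)
    (hinv : g⁻¹ ∈ Ow A π M hMk) (B' : BaseFn.Data A π M)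
    (hB' : B'.x = ((BaseFn.ofHaupt2 A π M m hM h2).x - 1)⁻¹) :
    ∃ (n : ℕ) (b : Fin n → Ow A π M hMk),
      (∀ i, ∀ P : Place L ↥(laurentBaseChange L (modularFunctionFieldFull M)),
        P.ord g ≤ 0 → 0 ≤ P.ord (b i : ↥(laurentBaseChange L (modularFunctionFieldFull M)))) ∧
      (∀ v : ↥(laurentBaseChange L (modularFunctionFieldFull M)),
        ∃ (D : L[X]) (e : Fin n → L[X]), D ≠ 0 ∧
          aeval g⁻¹ D * v = ∑ i, aeval g⁻¹ (e i) *
            (b i : ↥(laurentBaseChange L (modularFunctionFieldFull M)))) ∧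
      (∀ g' : Fin n → k[X],
        ∑ i, aeval (redF A π M hπ hMk ⟨g⁻¹, hinv⟩) (g' i) * redF A π M hπ hMk (b i) = 0 →
          ∀ i, g' i = 0) := by
  have hy := (BaseFn.ofHaupt2 A π M m hM h2).x_ne_zero hπ hMk
  have hrel : g⁻¹ * B'.x ^ 0 = aeval B'.x ((pol2' A).map A.subtype) := by
    rw [hB']
    exact rel_pol2' A hg hy
  exact exists_basis'_of_data B' hπ hsurj hMk g hinv ⟨B'.x, B'.x_mem_Ow hMk⟩ rfl rfl
    (B'.transcendental_xt hπ hMk) (fun _ h => h) (pol2' A) 0 3 (by norm_num)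
    (natDegree_map_pol2' _) (natDegree_map_pol2' _) (Or.inl rfl) hrel

end Haupt2

section Haupt3

variable {L : Type*} [Field L] [Algebra ℚ L] (A : ValuationSubring L) {k : Type} [Field k]
  (π : A →+* k) (M m : ℕ) [NeZero M] [NeZero m] (hM : M = m * 3) (h3 : (3 : k) ≠ 0)

/-- **`IsChartBase.basis` for `X₃ = (y² + y + 1)² / y³`**, `y = (ofHaupt3 …).x` (stated for any
Gauss-integral `g` with `g · y³ = (y² + y + 1)²`): the family `β j · y^s`, `s < 4`. -/
theorem basis_haupt3 (hπ : ∀ a : A, ¬ IsUnit a → π a = 0) (hsurj : Function.Surjective π)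
    (hMk : (M : k) ≠ 0) {g : ↥(laurentBaseChange L (modularFunctionFieldFull M))}
    (hg : g * (BaseFn.ofHaupt3 A π M m hM h3).x ^ 3 = ((BaseFn.ofHaupt3 A π M m hM h3).x ^ 2 + (BaseFn.ofHaupt3 A π M m hM h3).x + 1) ^ 2)
    (hmem : g ∈ Ow A π M hMk) :
    ∃ (n : ℕ) (b : Fin n → Ow A π M hMk),
      (∀ i, ∀ P : Place L ↥(laurentBaseChange L (modularFunctionFieldFull M)),
        0 ≤ P.ord g → 0 ≤ P.ord (b i : ↥(laurentBaseChange L (modularFunctionFieldFull M)))) ∧
      (∀ v : ↥(laurentBaseChange L (modularFunctionFieldFull M)),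
        ∃ (D : L[X]) (e : Fin n → L[X]), D ≠ 0 ∧
          aeval g D * v = ∑ i, aeval g (e i) *
            (b i : ↥(laurentBaseChange L (modularFunctionFieldFull M)))) ∧
      (∀ g' : Fin n → k[X],
        ∑ i, aeval (redF A π M hπ hMk ⟨g, hmem⟩) (g' i) * redF A π M hπ hMk (b i) = 0 →
          ∀ i, g' i = 0) :=
  exists_basis_of_data (BaseFn.ofHaupt3 A π M m hM h3) hπ hsurj hMk g hmem
    ⟨(BaseFn.ofHaupt3 A π M m hM h3).x, (BaseFn.ofHaupt3 A π M m hM h3).x_mem_Ow hMk⟩ rfl rfl
    ((BaseFn.ofHaupt3 A π M m hM h3).transcendental_xt hπ hMk) (fun _ h => h)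
    (pol3 A) 3 1 one_pos (natDegree_map_pol3 _) (natDegree_map_pol3 _)
    (Or.inr (coeff_zero_map_pol3 _)) (hg.trans (aeval_map_pol3 A _).symm)

/-- **`IsChartBase.basis'` for `X₃`**: `ω ∈ A` a root of `X² + X + 1`, `3 c₃ = 1`, `B'` a
base-function datum with `B'.x = u = (y - ω)⁻¹` (the Möbius datum).  The family is `β j · t^s`,
`s < 4`, with `t = (2ω + 1) u + 1 = (y - ω') / (y - ω)`, `ω' = -1 - ω`, in which
`X₃⁻¹ · t² = (ω t - ω')³ (t - 1) / 9`. -/
theorem basis'_haupt3 (hπ : ∀ a : A, ¬ IsUnit a → π a = 0) (hsurj : Function.Surjective π)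
    (hMk : (M : k) ≠ 0) {g : ↥(laurentBaseChange L (modularFunctionFieldFull M))}
    (hg : g * (BaseFn.ofHaupt3 A π M m hM h3).x ^ 3 = ((BaseFn.ofHaupt3 A π M m hM h3).x ^ 2 + (BaseFn.ofHaupt3 A π M m hM h3).x + 1) ^ 2)
    (hinv : g⁻¹ ∈ Ow A π M hMk) (ω c₃ : A) (hω : ω ^ 2 + ω + 1 = 0) (hc₃ : 3 * c₃ = 1)
    (B' : BaseFn.Data A π M)
    (hB' : B'.x = ((BaseFn.ofHaupt3 A π M m hM h3).x -
      algebraMap L ↥(laurentBaseChange L (modularFunctionFieldFull M)) (ω : L))⁻¹) :
    ∃ (n : ℕ) (b : Fin n → Ow A π M hMk),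
      (∀ i, ∀ P : Place L ↥(laurentBaseChange L (modularFunctionFieldFull M)),
        P.ord g ≤ 0 → 0 ≤ P.ord (b i : ↥(laurentBaseChange L (modularFunctionFieldFull M)))) ∧
      (∀ v : ↥(laurentBaseChange L (modularFunctionFieldFull M)),
        ∃ (D : L[X]) (e : Fin n → L[X]), D ≠ 0 ∧
          aeval g⁻¹ D * v = ∑ i, aeval g⁻¹ (e i) *
            (b i : ↥(laurentBaseChange L (modularFunctionFieldFull M)))) ∧
      (∀ g' : Fin n → k[X],
        ∑ i, aeval (redF A π M hπ hMk ⟨g⁻¹, hinv⟩) (g' i) * redF A π M hπ hMk (b i) = 0 →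
          ∀ i, g' i = 0) := by
  have hy := (BaseFn.ofHaupt3 A π M m hM h3).x_ne_zero hπ hMk
  have hq := quad_ne_zero_of_transcendental
    ((BaseFn.ofHaupt3 A π M m hM h3).transcendental_x hπ hMk)
  have hπδ : π (2 * ω + 1) ≠ 0 := map_delta_ne π ω hω h3
  have hδL : ((2 * ω + 1 : A) : L) ≠ 0 := by
    intro h
    apply hπδ
    have h1 : (2 * ω + 1 : A) = 0 := Subtype.ext h
    rw [h1, map_zero]
  obtain ⟨t, ht⟩ : ∃ t : Ow A π M hMk,
      t = constHom hπ hMk (2 * ω + 1) * ⟨B'.x, B'.x_mem_Ow hMk⟩ + 1 := ⟨_, rfl⟩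
  have hcoe : (t : ↥(laurentBaseChange L (modularFunctionFieldFull M))) =
      algebraMap L ↥(laurentBaseChange L (modularFunctionFieldFull M))
        ((2 * ω + 1 : A) : L) * B'.x + 1 := by
    rw [ht]
    rfl
  have hred : redF A π M hπ hMk t =
      algebraMap k ↥(modularFunctionFieldFullC k M) (π (2 * ω + 1)) * B'.xt hπ hMk + 1 := by
    rw [ht, map_add, map_mul, map_one, redF_constHom]
    rfl
  have hrel : g⁻¹ * (t : ↥(laurentBaseChange L (modularFunctionFieldFull M))) ^ 2 =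
      aeval (t : ↥(laurentBaseChange L (modularFunctionFieldFull M)))
        ((pol3' A ω c₃).map A.subtype) := by
    rw [hcoe, hB']
    exact rel_pol3' A ω c₃ hω hc₃ hg hy hq
  refine exists_basis'_of_data B' hπ hsurj hMk g hinv t ?_ ?_ ?_ ?_ (pol3' A ω c₃) 2 2
    two_pos (natDegree_map_pol3' _ ω c₃ (map_omega_ne _ ω hω).1 (map_c3_ne _ c₃ hc₃))
    (natDegree_map_pol3' _ ω c₃ (map_omega_ne _ ω hω).1 (map_c3_ne _ c₃ hc₃))
    (Or.inr (coeff_zero_map_pol3' _ ω c₃ (map_omega_ne _ ω hω).2 (map_c3_ne _ c₃ hc₃))) hrel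
  · rw [hcoe]
    exact adjoin_affine B'.x hδL
  · rw [hred]
    exact adjoin_affine _ hπδ
  · rw [hred]
    exact transcendental_affine (B'.transcendental_xt hπ hMk) hπδ
  · intro P hP
    have h1 : (t : ↥(laurentBaseChange L (modularFunctionFieldFull M))) ∈
        P.toValuationSubring := (Fermat.Agent.S24.mem_iff_ord_nonneg P).2 hP
    have h2 : algebraMap L ↥(laurentBaseChange L (modularFunctionFieldFull M))
        ((2 * ω + 1 : A) : L)⁻¹ * ((t : ↥(laurentBaseChange L (modularFunctionFieldFull M))) - 1) =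
        B'.x := by
      rw [hcoe, add_sub_cancel_right, ← mul_assoc, ← map_mul, inv_mul_cancel₀ hδL, map_one,
        one_mul]
    rw [← h2]
    exact (Fermat.Agent.S24.mem_iff_ord_nonneg P).1
      (mul_mem (P.algebraMap_mem' _) (sub_mem h1 (one_mem _)))

end Haupt3

end Fermat.Agent.BAD.TowerX
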