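/-
BAD / level-M base (helper15): the chart data `IsChartBase h X` for the two Hauptmodul chart
functions, UNCONDITIONALLY:

* `isChartBase_haupt2` : `X₂ = (y - 1)³ / y²`, `y` the Hauptmodul of level 2 at level `M = m * 2`
  (residue characteristic `≠ 2`; used for `ℓ = 3`);
* `isChartBase_haupt3` : `X₃ = (y² + y + 1)² / y³`, `y` the Hauptmodul of level 3 at level
  `M = m * 3` (residue characteristic `≠ 3`; used for `ℓ = 2`).

Assembly of `BAD/Base/ChartBaseHaupt` (helper15) with the field `basis` of `BAD/Base/TowerX`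
(helper71).
-/
import Mathlib
import Fermat.Agent.BAD.Base.ChartBaseHaupt
import Fermat.Agent.BAD.Base.TowerX

set_option autoImplicit false
set_option linter.unusedSectionVars false

namespace Fermat.Agent.BAD.Base

open Polynomial AlgebraicCurve ModularCurve Fermat.Agent.Lib.Red Fermat.Agent.Lib.FF
  Fermat.Agent.BAD.TwoVal Fermat.Agent.S24 Fermat.Agent.Lib.Red.BaseFn

variable {A : ValuationSubring KQ} {k : Type} [Field k] [IsAlgClosed k] {π : A →+* k}
  {M ℓ : ℕ} [NeZero M] [NeZero ℓ]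

/-- **The chart datum `X₂ = (y - 1)³ / y²`** (Hauptmodul of level 2, `M = m * 2`, `2 ≠ 0` in the
residue field). -/
theorem isChartBase_haupt2 (h : BadSetup A π M ℓ) (hsurj : Function.Surjective π) (m : ℕ)
    [NeZero m] (hM : M = m * 2) (h2 : (2 : k) ≠ 0) :
    IsChartBase h ((hauptX2 M m hM h2 h.hπ h.hMk : Ow A π M h.hMk) :
      ↥(laurentBaseChange KQ (modularFunctionFieldFull M))) :=
  isChartBase_haupt2_of_basis m hM h2 h hsurj
    (TowerX.basis_haupt2 A π M m hM h2 h.hπ hsurj h.hMk (hauptX2_rel M m hM h2 h.hπ h.hMk)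
      (hauptX2 M m hM h2 h.hπ h.hMk).2)

/-- **The chart datum `X₃ = (y² + y + 1)² / y³`** (Hauptmodul of level 3, `M = m * 3`, `3 ≠ 0` in
the residue field). -/
theorem isChartBase_haupt3 (h : BadSetup A π M ℓ) (hsurj : Function.Surjective π) (m : ℕ)
    [NeZero m] (hM : M = m * 3) (h3 : (3 : k) ≠ 0) :
    IsChartBase h ((hauptX3 M m hM h3 h.hπ h.hMk : Ow A π M h.hMk) :
      ↥(laurentBaseChange KQ (modularFunctionFieldFull M))) :=
  isChartBase_haupt3_of_basis m hM h3 h hsurj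
    (TowerX.basis_haupt3 A π M m hM h3 h.hπ hsurj h.hMk (hauptX3_rel M m hM h3 h.hπ h.hMk)
      (hauptX3 M m hM h3 h.hπ h.hMk).2)

/-- **Every good pair has a chart datum**, in one statement: for `ℓ ≥ 5` (`1728 ≠ 0`),
for `2 ∣ M` with `2 ≠ 0`, and for `3 ∣ M` with `3 ≠ 0` in the residue field. -/
theorem exists_isChartBase (h : BadSetup A π M ℓ) (hsurj : Function.Surjective π)
    (hgood : (1728 : k) ≠ 0 ∨ (2 ∣ M ∧ (2 : k) ≠ 0) ∨ (3 ∣ M ∧ (3 : k) ≠ 0)) :
    ∃ X : ↥(laurentBaseChange KQ (modularFunctionFieldFull M)), IsChartBase h X := by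
  rcases hgood with h1728 | ⟨⟨m, hm⟩, h2⟩ | ⟨⟨m, hm⟩, h3⟩
  · exact ⟨_, isChartBase_ofJ h hsurj h1728⟩
  · have hm0 : NeZero m := ⟨by rintro rfl; exact NeZero.ne M (by rw [hm, mul_zero])⟩
    exact ⟨_, isChartBase_haupt2 h hsurj m (by rw [hm, mul_comm]) h2⟩
  · have hm0 : NeZero m := ⟨by rintro rfl; exact NeZero.ne M (by rw [hm, mul_zero])⟩
    exact ⟨_, isChartBase_haupt3 h hsurj m (by rw [hm, mul_comm]) h3⟩

end Fermat.Agent.BAD.Base
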