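/-
BAD / level-M base (helper15): a chart datum exists at every GOOD PAIR `(M, q)`:
`5 ≤ q`, or `q = 3` and `2 ∣ M`, or `q = 2` and `3 ∣ M` (`q` the residue characteristic).
-/
import Mathlib
import Fermat.Agent.BAD.Base.ChartBaseHauptInst

set_option autoImplicit false
set_option linter.unusedSectionVars false

namespace Fermat.Agent.BAD.Base

open Polynomial AlgebraicCurve ModularCurve Fermat.Agent.Lib.Red Fermat.Agent.Lib.FF
  Fermat.Agent.BAD.TwoVal Fermat.Agent.S24

variable {A : ValuationSubring KQ} {k : Type} [Field k] [IsAlgClosed k] {π : A →+* k}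
  {M q : ℕ} [NeZero M] [NeZero q]

/-- In characteristic `q`, a natural number not divisible by `q` is nonzero. -/
theorem natCast_ne_zero_of_not_dvd (h : BadSetup A π M q) {n : ℕ} (hn : ¬ q ∣ n) :
    ((n : ℕ) : k) ≠ 0 := by
  have := h.charP
  rw [Ne, CharP.cast_eq_zero_iff k q]
  exact hn

/-- **A chart datum at every good pair.** -/
theorem exists_isChartBase_of_goodPair (h : BadSetup A π M q) (hsurj : Function.Surjective π)
    (hgood : 5 ≤ q ∨ (q = 3 ∧ 2 ∣ M) ∨ (q = 2 ∧ 3 ∣ M)) :
    ∃ X : ↥(laurentBaseChange KQ (modularFunctionFieldFull M)), IsChartBase h X := by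
  refine exists_isChartBase h hsurj ?_
  rcases hgood with h5 | ⟨h3, hM⟩ | ⟨h2, hM⟩
  · left
    have hq := h.hℓ
    have h2 : ¬ q ∣ 2 := fun hd => by
      have := Nat.le_of_dvd (by norm_num) hd
      omega
    have h3 : ¬ q ∣ 3 := fun hd => by
      have := Nat.le_of_dvd (by norm_num) hd
      omega
    have e : (1728 : k) = ((2 : ℕ) : k) ^ 6 * ((3 : ℕ) : k) ^ 3 := by
      push_cast
      norm_num
    rw [e]
    exact mul_ne_zero (pow_ne_zero 6 (natCast_ne_zero_of_not_dvd h h2))
      (pow_ne_zero 3 (natCast_ne_zero_of_not_dvd h h3))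
  · right; left
    refine ⟨hM, ?_⟩
    have h2 : ¬ q ∣ 2 := by
      rw [h3]
      norm_num
    exact_mod_cast natCast_ne_zero_of_not_dvd h h2
  · right; right
    refine ⟨hM, ?_⟩
    have h3 : ¬ q ∣ 3 := by
      rw [h2]
      norm_num
    exact_mod_cast natCast_ne_zero_of_not_dvd h h3

end Fermat.Agent.BAD.Base
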