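/-
BAD / level-M base (helper15): an integral good basis for the chart at infinity of a base
function `B : BaseFn.Data A π N` — the companion of `B.exists_goodBasis_integral`.
-/
import Mathlib
import Fermat.Agent.Lib.Red.DiscInvInst
import Fermat.Agent.Lib.Red.DiscInst

set_option autoImplicit false
set_option linter.unusedSectionVars false

namespace Fermat.Agent.BAD.Base

open ModularCurve AlgebraicCurve IntermediateField Fermat.Agent.S28
open Fermat.Agent.Lib.Red Fermat.Agent.Lib.Red.BaseFn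

variable {L : Type*} [Field L] [Algebra ℚ L] {A : ValuationSubring L} {k : Type} [Field k]
  {π : A →+* k} {N : ℕ} [NeZero N]

/-- **A good basis made of functions integral over `L[x⁻¹]`** (the chart at infinity of the
base function `x` of `B`). -/
theorem exists_goodBasis_integral_inv (B : BaseFn.Data A π N)
    (hπ : ∀ a : A, ¬ IsUnit a → π a = 0) (hsurj : Function.Surjective π) (hNk : (N : k) ≠ 0) :
    ∃ (n : ℕ) (G : Ortho.GoodBasis (Ow A π N hNk) (redF A π N hπ hNk) (B.Ov hNk)
        (B.redv hπ hNk) (Fin n)),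
      ∀ i, IsIntegral ↥(Algebra.adjoin L {(B.x)⁻¹})
        ((G.b i : Ow A π N hNk) : ↥(laurentBaseChange L (modularFunctionFieldFull N))) := by
  obtain ⟨n, G, hint⟩ := B.exists_goodBasis_integral hπ hsurj hNk
  have hred : B.redv hπ hNk ⟨(AdjoinSimple.gen L B.x)⁻¹, DiscInv.gen_inv_mem_Ov B hπ hNk⟩ ≠ 0 := by
    have h := Disc.redv_uInv B hπ hNk
    have e : (⟨(AdjoinSimple.gen L B.x)⁻¹, DiscInv.gen_inv_mem_Ov B hπ hNk⟩ : B.Ov hNk) =
        Disc.uInv B hπ hNk := rfl
    rw [e, h]
    exact inv_ne_zero (Disc.gen_ne_zero' (fun h0 =>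
      B.transcendental_xt hπ hNk (h0 ▸ isAlgebraic_zero)))
  obtain ⟨G', h'⟩ := DiscInv.exists_goodBasis_inv G (B.x_ne_zero hπ hNk)
    (DiscInv.gen_inv_mem_Ov B hπ hNk) hred hint
  exact ⟨n, G', h'⟩

end Fermat.Agent.BAD.Base
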